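import Mathlib

/-!
# S56 / TW / Case B : matrix-side definitions

`Γ ≤ GL₂(k)` acts on `ℙ¹(k) = OnePoint k` by Möbius transformations (Mathlib's `OnePoint.instGLAction`);
`twgBar Γ ≤ Perm (OnePoint k)` is its image (a FAITHFUL permutation group: the abstract PG lemmas of
`PermSpec.lean` are applied to it).
-/

set_option autoImplicit false

namespace Fermat.Agent.S56

open Matrix MulAction OnePoint

variable {k : Type*} [Field k] [DecidableEq k]

/-- the image of `Γ ≤ GL₂(k)` in the permutation group of `ℙ¹(k)` -/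
def twgBar (Γ : Subgroup (GL (Fin 2) k)) : Subgroup (Equiv.Perm (OnePoint k)) :=
  Γ.map (MulAction.toPermHom (GL (Fin 2) k) (OnePoint k))

/-- the class of `g ∈ Γ` in `twgBar Γ` -/
def twgBarMk (Γ : Subgroup (GL (Fin 2) k)) (g : Γ) : twgBar Γ :=
  ⟨MulAction.toPermHom (GL (Fin 2) k) (OnePoint k) g.1, Subgroup.mem_map_of_mem _ g.2⟩

theorem twgBarMk_smul (Γ : Subgroup (GL (Fin 2) k)) (g : Γ) (x : OnePoint k) :
    twgBarMk Γ g • x = g.1 • x := rfl

theorem twgBarMk_surjective (Γ : Subgroup (GL (Fin 2) k)) :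
    Function.Surjective (twgBarMk Γ) := by
  rintro ⟨_, g, hg, rfl⟩
  exact ⟨⟨g, hg⟩, rfl⟩

/-- the twisted adjoint action of `GL₂(k)` on `M₂(k)`: `g • X = det g • (g X g⁻¹)` -/
def twgMAct (g : GL (Fin 2) k) (X : Matrix (Fin 2) (Fin 2) k) : Matrix (Fin 2) (Fin 2) k :=
  ((Matrix.GeneralLinearGroup.det g : kˣ) : k) •
    ((g : Matrix (Fin 2) (Fin 2) k) * X * ((g⁻¹ : GL (Fin 2) k) : Matrix (Fin 2) (Fin 2) k))

/-- `ψ : Γ → M₂(k)` is a trace-zero `1`-cocycle for the twisted adjoint action -/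
def TwgIsCocycle (Γ : Subgroup (GL (Fin 2) k)) (ψ : Γ → Matrix (Fin 2) (Fin 2) k) : Prop :=
  (∀ g, (ψ g).trace = 0) ∧ ∀ g h : Γ, ψ (g * h) = ψ g + twgMAct g.1 (ψ h)

/-- `ψ` is the coboundary of a trace-zero matrix -/
def TwgIsCoboundary (Γ : Subgroup (GL (Fin 2) k)) (ψ : Γ → Matrix (Fin 2) (Fin 2) k) : Prop :=
  ∃ X : Matrix (Fin 2) (Fin 2) k, X.trace = 0 ∧ ∀ g : Γ, ψ g = twgMAct g.1 X - X

end Fermat.Agent.S56
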