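/-
S56 / TWG / Case B, row 382 (CH): the CORE of `twg_coh_affine3` (`twg_coh3_core`), sorry-free, with
the restriction lemma `twg_restrict` (CB0, row 383) for the pair `u(F) ≤ H` as a hypothesis.

Route.  `twgMAct g X = g X adj(g)` (no division).  On the translations `u(w)`, `w ∈ F`, write
`ψ(u(w)) = [[B, A], [C, -B]]`; the cocycle identity gives `C` additive,
`B(w+w') = B(w)+B(w')+wC(w')`, `A(w+w') = A(w)+A(w')-2wB(w')-w²C(w')`; symmetry in `(w,w')` and the
prime field (`w = w' = 1`, `w = 2, w' = 1`) give `C = 0`, `B = b₀w`, `A = β(w)+w x_h-b₀w²` with `β`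
additive, `β(1) = 0` (`twg_coh3_funeq`).  Subtracting the coboundary of `X₀ = [[x_h,0],[b₀,-x_h]]`:
`ψ'(u(w)) = β(w) e`.  For `g ∈ H` with multiplier `t`: `g u(w) = u(tw) g` gives
`β(tw) = det(g) t β(w) + w β(t)` (`twg_coh3_normal`); comparing a non-square `t` with a square `s`
gives `β = 0` on squares, and `x = (x+1)² - (x-1)²` in characteristic `3` (`twg_coh3_beta_zero`).
So `ψ'` vanishes on `u(F)`, which is a Sylow `3`-subgroup of `H` (`twg_coh3_index`); restriction.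
-/
import Fermat.Agent.S56.TW.CaseB.MatDefs

set_option autoImplicit false

namespace Fermat.Agent.S56

open Matrix MulAction OnePoint Matrix.GeneralLinearGroup

variable {k : Type*} [Field k]

/-- the twisted adjoint action is `X ↦ g X adj(g)` -/
theorem twgMAct_eq (g : GL (Fin 2) k) (X : Matrix (Fin 2) (Fin 2) k) :
    twgMAct g X = (g : Matrix (Fin 2) (Fin 2) k) * X * adjugate (g : Matrix (Fin 2) (Fin 2) k) := by
  unfold twgMAct
  have hdet : ((Matrix.GeneralLinearGroup.det g : kˣ) : k) = (g : Matrix (Fin 2) (Fin 2) k).det :=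
    rfl
  have hne : (g : Matrix (Fin 2) (Fin 2) k).det ≠ 0 := by
    rw [← hdet]; exact Units.ne_zero _
  rw [Matrix.coe_units_inv, Matrix.inv_def, Ring.inverse_eq_inv', hdet, Matrix.mul_smul, smul_smul,
    mul_inv_cancel₀ hne, one_smul]

theorem twgMAct_add (g : GL (Fin 2) k) (X Y : Matrix (Fin 2) (Fin 2) k) :
    twgMAct g (X + Y) = twgMAct g X + twgMAct g Y := by
  rw [twgMAct_eq, twgMAct_eq, twgMAct_eq, Matrix.mul_add, Matrix.add_mul]

theorem twgMAct_sub (g : GL (Fin 2) k) (X Y : Matrix (Fin 2) (Fin 2) k) :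
    twgMAct g (X - Y) = twgMAct g X - twgMAct g Y := by
  rw [twgMAct_eq, twgMAct_eq, twgMAct_eq, Matrix.mul_sub, Matrix.sub_mul]

theorem twgMAct_mul (g h : GL (Fin 2) k) (X : Matrix (Fin 2) (Fin 2) k) :
    twgMAct (g * h) X = twgMAct g (twgMAct h X) := by
  rw [twgMAct_eq, twgMAct_eq, twgMAct_eq, Units.val_mul, Matrix.adjugate_mul_distrib]
  simp only [Matrix.mul_assoc]

theorem twgMAct_trace (g : GL (Fin 2) k) (X : Matrix (Fin 2) (Fin 2) k) :
    (twgMAct g X).trace = ((Matrix.GeneralLinearGroup.det g : kˣ) : k) * X.trace := by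
  rw [twgMAct_eq, Matrix.trace_mul_comm, ← Matrix.mul_assoc, Matrix.adjugate_mul, Matrix.smul_mul,
    Matrix.one_mul, Matrix.trace_smul, smul_eq_mul]
  rfl

/-- the action of an upper triangular matrix -/
theorem twgMAct_of_upper (g : GL (Fin 2) k) (hg : g 1 0 = 0) (X : Matrix (Fin 2) (Fin 2) k) :
    twgMAct g X =
      !![(g 0 0 * X 0 0 + g 0 1 * X 1 0) * g 1 1,
         -(g 0 1) * (g 0 0 * X 0 0 + g 0 1 * X 1 0) + g 0 0 * (g 0 0 * X 0 1 + g 0 1 * X 1 1);
         g 1 1 ^ 2 * X 1 0,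
         -(g 0 1) * g 1 1 * X 1 0 + g 0 0 * g 1 1 * X 1 1] := by
  rw [twgMAct_eq, Matrix.adjugate_fin_two]
  ext i j
  fin_cases i <;> fin_cases j <;>
    (simp [Matrix.mul_apply, Fin.sum_univ_two, hg]; try ring)

theorem twg_coh3_det_upper (g : GL (Fin 2) k) (hg : g 1 0 = 0) :
    ((Matrix.GeneralLinearGroup.det g : kˣ) : k) = g 0 0 * g 1 1 := by
  have : ((Matrix.GeneralLinearGroup.det g : kˣ) : k) = (g : Matrix (Fin 2) (Fin 2) k).det := rfl
  rw [this, Matrix.det_fin_two, hg, mul_zero, sub_zero]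

theorem twg_coh3_diag_ne_zero (g : GL (Fin 2) k) (hg : g 1 0 = 0) : g 0 0 ≠ 0 ∧ g 1 1 ≠ 0 := by
  have h := twg_coh3_det_upper g hg
  have hne : ((Matrix.GeneralLinearGroup.det g : kˣ) : k) ≠ 0 := Units.ne_zero _
  rw [h] at hne
  exact ⟨left_ne_zero_of_mul hne, right_ne_zero_of_mul hne⟩

/-- `g u(w) = u(t w) g` for an upper triangular `g` with multiplier `t = g₀₀ / g₁₁` -/
theorem twg_coh3_upper_mul (g : GL (Fin 2) k) (hg : g 1 0 = 0) (w : k) :
    g * upperRightHom w = upperRightHom (g 0 0 / g 1 1 * w) * g := by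
  obtain ⟨-, h11⟩ := twg_coh3_diag_ne_zero g hg
  apply Units.ext
  rw [Units.val_mul, Units.val_mul]
  ext i j
  fin_cases i <;> fin_cases j <;>
    (simp [upperRightHom_apply, Matrix.mul_apply, Fin.sum_univ_two, hg]; try (field_simp); try ring)

/-- the translations by the elements of a subfield -/
def twgUF (F : Subfield k) : Subgroup (GL (Fin 2) k) where
  carrier := {g | ∃ w ∈ F, g = upperRightHom w}
  one_mem' := ⟨0, F.zero_mem, (AddChar.map_zero_eq_one _).symm⟩
  mul_mem' := by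
    rintro _ _ ⟨w, hw, rfl⟩ ⟨w', hw', rfl⟩
    exact ⟨w + w', F.add_mem hw hw', (AddChar.map_add_eq_mul _ _ _).symm⟩
  inv_mem' := by
    rintro _ ⟨w, hw, rfl⟩
    exact ⟨-w, F.neg_mem hw, (AddChar.map_neg_eq_inv _ _).symm⟩

theorem mem_twgUF (F : Subfield k) (g : GL (Fin 2) k) :
    g ∈ twgUF F ↔ ∃ w ∈ F, g = upperRightHom w := Iff.rfl

/-- powers of upper triangular matrices -/
theorem twg_coh3_upper_pow (g : GL (Fin 2) k) (hg : g 1 0 = 0) (n : ℕ) :
    (g ^ n) 1 0 = 0 ∧ (g ^ n) 0 0 = g 0 0 ^ n ∧ (g ^ n) 1 1 = g 1 1 ^ n := by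
  induction n with
  | zero => simp
  | succ n ih =>
    obtain ⟨h1, h2, h3⟩ := ih
    rw [pow_succ, pow_succ, pow_succ]
    simp only [Units.val_mul, Matrix.mul_apply, Fin.sum_univ_two]
    rw [h1, h2, h3, hg]
    simp

/-- the functional equations of a cocycle on the translation group in characteristic `3` -/
theorem twg_coh3_funeq (h3 : (3 : k) = 0) (F : Subfield k) (A B C : ↥F → k)
    (hB : ∀ w w' : ↥F, B (w + w') = B w + B w' + (w : k) * C w')
    (hA : ∀ w w' : ↥F, A (w + w') = A w + A w' - 2 * (w : k) * B w' - (w : k) ^ 2 * C w') :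
    ∃ (b0 xh : k) (β : ↥F → k), (∀ w w' : ↥F, β (w + w') = β w + β w') ∧ β 1 = 0 ∧
      ∀ w : ↥F, C w = 0 ∧ B w = b0 * (w : k) ∧ A w = β w + (w : k) * xh - b0 * (w : k) ^ 2 := by
  have h2 : (2 : k) ≠ 0 := by
    intro h
    have : (1 : k) = 0 := by linear_combination h3 - h
    exact one_ne_zero this
  -- `C` is linear
  have hC1 : ∀ w : ↥F, C w = (w : k) * C 1 := by
    intro w
    have e1 := hB w 1
    have e2 := hB 1 w
    rw [add_comm (1 : ↥F) w] at e2
    have : (w : k) * C 1 = ((1 : ↥F) : k) * C w := by linear_combination e2 - e1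
    rw [this, Subfield.coe_one, one_mul]
  -- symmetry of the `A`-equation: `B + c0 w²` is linear
  have hβ1 : ∀ w : ↥F, B w + C 1 * (w : k) ^ 2 = (w : k) * (B 1 + C 1) := by
    intro w
    have e1 := hA w 1
    have e2 := hA 1 w
    rw [add_comm (1 : ↥F) w] at e2
    rw [hC1 w] at e2
    simp only [Subfield.coe_one] at e1 e2
    have e3 : 2 * ((w : k) * B 1 - B w) = (w : k) * C 1 - (w : k) ^ 2 * C 1 := by
      linear_combination e1 - e2
    have e4 : 2 * (B w + C 1 * (w : k) ^ 2 - (w : k) * (B 1 + C 1)) = 0 := by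
      linear_combination (-1 : k) * e3 + (C 1 * (w : k) ^ 2 - (w : k) * C 1) * h3
    have := (mul_eq_zero.1 e4).resolve_left h2
    exact sub_eq_zero.1 this
  -- `c0 = 0`
  have hA0 : A 0 = 0 := by
    have := hA 0 0
    rw [add_zero] at this
    simp only [Subfield.coe_zero] at this
    linear_combination -this
  have h3F : ((1 : ↥F) + 1 + 1) = 0 := by
    apply Subtype.ext
    simp only [Subfield.coe_add, Subfield.coe_one, Subfield.coe_zero]
    linear_combination h3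
  have hc00 : C 1 = 0 := by
    have e1 := hA 1 1
    have e2 := hA (1 + 1) 1
    rw [h3F, hA0] at e2
    simp only [Subfield.coe_add, Subfield.coe_one] at e1 e2
    linear_combination (-1 : k) * e1 + (-1 : k) * e2 + (-A 1 + 2 * B 1 + 2 * C 1) * h3
  have hCz : ∀ w, C w = 0 := fun w => by rw [hC1 w, hc00, mul_zero]
  have hBw : ∀ w : ↥F, B w = B 1 * (w : k) := by
    intro w
    have := hβ1 w
    rw [hc00] at this
    linear_combination this
  -- `α = A + b0 w²` is additive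
  have hα : ∀ w w' : ↥F, (A (w + w') + B 1 * ((w + w' : ↥F) : k) ^ 2) =
      (A w + B 1 * (w : k) ^ 2) + (A w' + B 1 * (w' : k) ^ 2) := by
    intro w w'
    rw [hA, hCz, hBw w', Subfield.coe_add]
    ring
  refine ⟨B 1, A 1 + B 1, fun w => A w + B 1 * (w : k) ^ 2 - (w : k) * (A 1 + B 1), ?_, ?_, ?_⟩
  · intro w w'
    simp only
    rw [hα, Subfield.coe_add]
    ring
  · simp only [Subfield.coe_one]
    ring
  · intro w
    refine ⟨hCz w, hBw w, ?_⟩
    ring


theorem twgMAct_one (X : Matrix (Fin 2) (Fin 2) k) : twgMAct (1 : GL (Fin 2) k) X = X := by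
  rw [twgMAct_eq, Units.val_one, Matrix.adjugate_one, Matrix.one_mul, Matrix.mul_one]

/-- a cocycle vanishes at `1` -/
theorem twg_coh3_one (H : Subgroup (GL (Fin 2) k)) (ψ : H → Matrix (Fin 2) (Fin 2) k)
    (hψ : TwgIsCocycle H ψ) : ψ 1 = 0 := by
  have h := hψ.2 1 1
  rw [mul_one, Subgroup.coe_one, twgMAct_one] at h
  exact left_eq_add.1 h

/-- subtracting a coboundary from a cocycle -/
theorem twg_coh3_sub_cobound (H : Subgroup (GL (Fin 2) k)) (ψ : H → Matrix (Fin 2) (Fin 2) k)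
    (hψ : TwgIsCocycle H ψ) (X : Matrix (Fin 2) (Fin 2) k) (hX : X.trace = 0) :
    TwgIsCocycle H (fun g => ψ g - (twgMAct g.1 X - X)) := by
  refine ⟨fun g => ?_, fun g h => ?_⟩
  · rw [Matrix.trace_sub, Matrix.trace_sub, hψ.1 g, twgMAct_trace, hX, mul_zero, sub_zero, sub_zero]
  · simp only
    rw [hψ.2 g h, Subgroup.coe_mul, twgMAct_mul, twgMAct_sub, twgMAct_sub]
    abel

/-- adding back the coboundary -/
theorem twg_coh3_of_sub_cobound (H : Subgroup (GL (Fin 2) k)) (ψ : H → Matrix (Fin 2) (Fin 2) k)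
    (X : Matrix (Fin 2) (Fin 2) k) (hX : X.trace = 0)
    (h : TwgIsCoboundary H (fun g => ψ g - (twgMAct g.1 X - X))) : TwgIsCoboundary H ψ := by
  obtain ⟨Y, hY, hY'⟩ := h
  refine ⟨X + Y, by rw [Matrix.trace_add, hX, hY, add_zero], fun g => ?_⟩
  have := hY' g
  simp only at this
  rw [twgMAct_add]
  rw [sub_eq_iff_eq_add] at this
  rw [this]
  abel

/-- the element `u(w)`, `w ∈ F`, of a group containing the translations by `F` -/
def twgUel (F : Subfield k) (H : Subgroup (GL (Fin 2) k))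
    (hU : ∀ w ∈ F, upperRightHom w ∈ H) (w : ↥F) : ↥H :=
  ⟨upperRightHom (w : k), hU w w.2⟩

theorem twgUel_add (F : Subfield k) (H : Subgroup (GL (Fin 2) k))
    (hU : ∀ w ∈ F, upperRightHom w ∈ H) (w w' : ↥F) :
    twgUel F H hU (w + w') = twgUel F H hU w * twgUel F H hU w' := by
  apply Subtype.ext
  show upperRightHom ((w + w' : ↥F) : k) = upperRightHom (w : k) * upperRightHom (w' : k)
  rw [Subfield.coe_add, AddChar.map_add_eq_mul]

/-- the action of a translation -/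
theorem twgMAct_upperRight (w : k) (X : Matrix (Fin 2) (Fin 2) k) :
    twgMAct (upperRightHom w) X =
      !![X 0 0 + w * X 1 0, -w * (X 0 0 + w * X 1 0) + (X 0 1 + w * X 1 1);
         X 1 0, -w * X 1 0 + X 1 1] := by
  rw [twgMAct_of_upper _ (by simp [upperRightHom_apply])]
  simp [upperRightHom_apply]

/-- the functional equations of the restriction of a cocycle to the translations -/
theorem twg_coh3_cocycle_U (F : Subfield k) (H : Subgroup (GL (Fin 2) k))
    (hU : ∀ w ∈ F, upperRightHom w ∈ H) (ψ : H → Matrix (Fin 2) (Fin 2) k)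
    (hψ : TwgIsCocycle H ψ) (w w' : ↥F) :
    ψ (twgUel F H hU (w + w')) 0 0 =
        ψ (twgUel F H hU w) 0 0 + ψ (twgUel F H hU w') 0 0 + (w : k) * ψ (twgUel F H hU w') 1 0 ∧
      ψ (twgUel F H hU (w + w')) 0 1 =
        ψ (twgUel F H hU w) 0 1 + ψ (twgUel F H hU w') 0 1 -
          2 * (w : k) * ψ (twgUel F H hU w') 0 0 - (w : k) ^ 2 * ψ (twgUel F H hU w') 1 0 ∧
      ψ (twgUel F H hU (w + w')) 1 0 =
        ψ (twgUel F H hU w) 1 0 + ψ (twgUel F H hU w') 1 0 := by
  have h := hψ.2 (twgUel F H hU w) (twgUel F H hU w')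
  rw [← twgUel_add] at h
  have h11 : ψ (twgUel F H hU w') 1 1 = - ψ (twgUel F H hU w') 0 0 := by
    have := hψ.1 (twgUel F H hU w')
    rw [Matrix.trace_fin_two] at this
    exact eq_neg_of_add_eq_zero_right this
  have hact : twgMAct (twgUel F H hU w).1 (ψ (twgUel F H hU w')) = _ :=
    twgMAct_upperRight (w : k) _
  rw [hact] at h
  refine ⟨?_, ?_, ?_⟩
  · rw [h]
    simp [add_assoc]
  · rw [h]
    simp only [Matrix.add_apply, Matrix.of_apply, Matrix.cons_val', Matrix.cons_val_zero,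
      Matrix.cons_val_one, Matrix.cons_val_fin_one, h11]
    ring
  · rw [h]
    simp

/-- the relation imposed on `β` by an element `g` of `H` with multiplier `t` -/
theorem twg_coh3_normal (F : Subfield k) (H : Subgroup (GL (Fin 2) k))
    (hU : ∀ w ∈ F, upperRightHom w ∈ H) (ψ : H → Matrix (Fin 2) (Fin 2) k)
    (hψ : TwgIsCocycle H ψ) (β : ↥F → k) (hβ1 : β 1 = 0)
    (hψU : ∀ w : ↥F, ψ (twgUel F H hU w) = !![0, β w; 0, 0])
    (g : GL (Fin 2) k) (hg : g ∈ H) (hg10 : g 1 0 = 0) (t : ↥F) (ht : (t : k) = g 0 0 / g 1 1)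
    (w : ↥F) : β (t * w) = g 0 0 ^ 2 * β w + (w : k) * β t := by
  obtain ⟨h00, h11⟩ := twg_coh3_diag_ne_zero g hg10
  have ht0 : (t : k) ≠ 0 := by rw [ht]; exact div_ne_zero h00 h11
  have key : ∀ w : ↥F, (⟨g, hg⟩ : H) * twgUel F H hU w = twgUel F H hU (t * w) * ⟨g, hg⟩ := by
    intro w
    apply Subtype.ext
    show g * upperRightHom (w : k) = upperRightHom ((t * w : ↥F) : k) * g
    rw [Subfield.coe_mul, ht]
    exact twg_coh3_upper_mul g hg10 w
  have e : ∀ w : ↥F, ψ ⟨g, hg⟩ + twgMAct g (ψ (twgUel F H hU w)) =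
      ψ (twgUel F H hU (t * w)) + twgMAct (upperRightHom ((t * w : ↥F) : k)) (ψ ⟨g, hg⟩) := by
    intro w
    have h1 := hψ.2 ⟨g, hg⟩ (twgUel F H hU w)
    have h2 := hψ.2 (twgUel F H hU (t * w)) ⟨g, hg⟩
    rw [key] at h1
    rw [← h1, h2]
    rfl
  have hY11 : ψ ⟨g, hg⟩ 1 1 = - ψ ⟨g, hg⟩ 0 0 := by
    have := hψ.1 ⟨g, hg⟩
    rw [Matrix.trace_fin_two] at this
    exact eq_neg_of_add_eq_zero_right this
  have e00 : ∀ w : ↥F, ((t * w : ↥F) : k) * ψ ⟨g, hg⟩ 1 0 = 0 := by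
    intro w
    have := congrFun (congrFun (e w) 0) 0
    rw [hψU, hψU, twgMAct_of_upper g hg10, twgMAct_upperRight] at this
    simp only [Matrix.add_apply, Matrix.of_apply, Matrix.cons_val', Matrix.cons_val_zero,
      Matrix.cons_val_one, Matrix.cons_val_fin_one] at this
    linear_combination -this
  have hY10 : ψ ⟨g, hg⟩ 1 0 = 0 := by
    have := e00 1
    rw [mul_one] at this
    exact (mul_eq_zero.1 this).resolve_left ht0
  have e01 : ∀ w : ↥F, g 0 0 ^ 2 * β w =
      β (t * w) - 2 * ((t * w : ↥F) : k) * ψ ⟨g, hg⟩ 0 0 := by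
    intro w
    have := congrFun (congrFun (e w) 0) 1
    rw [hψU, hψU, twgMAct_of_upper g hg10, twgMAct_upperRight] at this
    simp only [Matrix.add_apply, Matrix.of_apply, Matrix.cons_val', Matrix.cons_val_zero,
      Matrix.cons_val_one, Matrix.cons_val_fin_one, hY11, hY10] at this
    linear_combination this
  have h1 := e01 1
  rw [mul_one, hβ1, mul_zero] at h1
  have h2 := e01 w
  rw [Subfield.coe_mul] at h2
  linear_combination (-1 : k) * h2 + (w : k) * h1
/-- an additive function on a finite field of characteristic `3` satisfying the twisted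
derivation rule for the quadratic character vanishes -/
theorem twg_coh3_beta_zero [Finite k] (h3 : (3 : k) = 0) (F : Subfield k) (β : ↥F → k)
    (hadd : ∀ w w' : ↥F, β (w + w') = β w + β w')
    (hrel : ∀ t : ↥F, t ≠ 0 → ∃ ε : k, (ε = 1 ∨ ε = -1) ∧ (ε = 1 ↔ ∃ r : ↥F, r ^ 2 = t) ∧
      ∀ w : ↥F, β (t * w) = ε * (t : k) * β w + (w : k) * β t) :
    ∀ w : ↥F, β w = 0 := by
  have h2 : (2 : k) ≠ 0 := by
    intro h
    have : (1 : k) = 0 := by linear_combination h3 - h
    exact one_ne_zero this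
  have hβ0 : β 0 = 0 := by
    have := hadd 0 0
    rw [add_zero] at this
    exact left_eq_add.1 this
  have hsub : ∀ a b : ↥F, β (a - b) = β a - β b := by
    intro a b
    have := hadd (a - b) b
    rw [sub_add_cancel] at this
    rw [this, add_sub_cancel_right]
  -- a non-square
  have hchar : ringChar ↥F ≠ 2 := by
    intro h
    have h' : ((2 : ℕ) : ↥F) = 0 := by
      rw [ringChar.spec, h]
    have h'' : (2 : k) = 0 := by
      have := congrArg F.subtype h'
      rw [map_natCast, map_zero] at this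
      exact_mod_cast this
    exact h2 h''
  obtain ⟨t₀, ht₀⟩ := FiniteField.exists_nonsquare hchar
  have ht₀0 : t₀ ≠ 0 := by
    rintro rfl
    exact ht₀ ⟨0, by rw [mul_zero]⟩
  obtain ⟨ε, hε, hεsq, hεrel⟩ := hrel t₀ ht₀0
  have hε1 : ε = -1 := by
    rcases hε with h | h
    · exfalso
      obtain ⟨r, hr⟩ := hεsq.1 h
      exact ht₀ ⟨r, by rw [← hr, pow_two]⟩
    · exact h
  -- `β` vanishes on the squares
  have hsq : ∀ r : ↥F, β (r ^ 2) = 0 := by
    intro r
    by_cases hr : r = 0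
    · rw [hr, pow_two, mul_zero, hβ0]
    have hs0 : r ^ 2 ≠ 0 := pow_ne_zero 2 hr
    obtain ⟨ε', -, hε'sq, hε'rel⟩ := hrel (r ^ 2) hs0
    have hε'1 : ε' = 1 := hε'sq.2 ⟨r, rfl⟩
    have e1 := hεrel (r ^ 2)
    have e2 := hε'rel t₀
    rw [mul_comm (r ^ 2) t₀] at e2
    rw [e1, hε1, hε'1] at e2
    have e3 : 2 * ((t₀ : k) * β (r ^ 2)) = 0 := by linear_combination -e2
    have ht₀k : (t₀ : k) ≠ 0 := fun h => ht₀0 (Subtype.ext h)
    exact ((mul_eq_zero.1 ((mul_eq_zero.1 e3).resolve_left h2)).resolve_left ht₀k)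
  intro x
  have hx : x = (x + 1) ^ 2 - (x - 1) ^ 2 := by
    apply Subtype.ext
    simp only [Subfield.coe_sub, pow_two, Subfield.coe_mul, Subfield.coe_add, Subfield.coe_one]
    linear_combination (-(x : k)) * h3
  rw [hx, hsub, hsq, hsq, sub_zero]


/-- in characteristic `3` the only `3`-power root of unity is `1` -/
theorem twg_coh3_eq_one_of_pow [CharP k 3] (x : k) (n : ℕ) (hx : x ^ 3 ^ n = 1) : x = 1 := by
  have : Fact (Nat.Prime 3) := ⟨Nat.prime_three⟩
  have h := sub_pow_char_pow (R := k) (p := 3) (n := n) (x := x) (y := 1)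
  rw [hx, one_pow, sub_self] at h
  exact sub_eq_zero.1 (pow_eq_zero_iff (pow_ne_zero n (by norm_num)) |>.1 h)

/-- the translations by `F` have index prime to `3` in `H` -/
theorem twg_coh3_index [CharP k 3] [Finite k] (F : Subfield k) (H : Subgroup (GL (Fin 2) k))
    (hH : ∀ g ∈ H, g 1 0 = 0 ∧ g 0 0 / g 1 1 ∈ F ∧ g 0 1 / g 1 1 ∈ F) :
    ¬ 3 ∣ ((twgUF F).subgroupOf H).index := by
  classical
  have hf3 : Fact (Nat.Prime 3) := ⟨Nat.prime_three⟩
  have h3 : (3 : k) = 0 := by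
    have := CharP.cast_eq_zero k 3
    exact_mod_cast this
  have hP : IsPGroup 3 ↥((twgUF F).subgroupOf H) := by
    rintro ⟨g, hg⟩
    obtain ⟨w, -, hgw⟩ := (Subgroup.mem_subgroupOf.1 hg)
    refine ⟨1, ?_⟩
    apply Subtype.ext
    apply Subtype.ext
    show (g : GL (Fin 2) k) ^ 3 ^ 1 = 1
    rw [hgw, pow_one, ← AddChar.map_nsmul_eq_pow, nsmul_eq_mul]
    have : ((3 : ℕ) : k) * w = 0 := by
      rw [Nat.cast_ofNat, h3, zero_mul]
    rw [this, AddChar.map_zero_eq_one]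
  obtain ⟨P, hle⟩ := hP.exists_le_sylow
  have hle' : (P : Subgroup ↥H) ≤ (twgUF F).subgroupOf H := by
    intro g hgP
    obtain ⟨n, hn⟩ := P.isPGroup' ⟨g, hgP⟩
    have hn' : (g : GL (Fin 2) k) ^ 3 ^ n = 1 := by
      have := congrArg (fun x : ↥(P : Subgroup ↥H) => ((x : ↥H) : GL (Fin 2) k)) hn
      simpa using this
    obtain ⟨hg10, -, hg01⟩ := hH g.1 g.2
    obtain ⟨-, h00, h11⟩ := twg_coh3_upper_pow g.1 hg10 (3 ^ n)
    rw [hn'] at h00 h11
    have e00 : (g : GL (Fin 2) k) 0 0 = 1 :=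
      twg_coh3_eq_one_of_pow _ n (by rw [← h00]; simp)
    have e11 : (g : GL (Fin 2) k) 1 1 = 1 :=
      twg_coh3_eq_one_of_pow _ n (by rw [← h11]; simp)
    rw [Subgroup.mem_subgroupOf]
    refine ⟨(g : GL (Fin 2) k) 0 1, ?_, ?_⟩
    · rw [e11, div_one] at hg01
      exact hg01
    · apply Units.ext
      rw [upperRightHom_apply]
      show ((g : GL (Fin 2) k) : Matrix (Fin 2) (Fin 2) k) = !![1, (g : GL (Fin 2) k) 0 1; 0, 1]
      have e10 : ((g : GL (Fin 2) k) : Matrix (Fin 2) (Fin 2) k) 1 0 = 0 := hg10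
      have e00' : ((g : GL (Fin 2) k) : Matrix (Fin 2) (Fin 2) k) 0 0 = 1 := e00
      have e11' : ((g : GL (Fin 2) k) : Matrix (Fin 2) (Fin 2) k) 1 1 = 1 := e11
      ext i j
      fin_cases i <;> fin_cases j
      · exact e00'
      · rfl
      · exact e10
      · exact e11'
  have heq : (twgUF F).subgroupOf H = (P : Subgroup ↥H) := le_antisymm hle hle'
  rw [heq]
  exact P.not_dvd_index

theorem twgMAct_zero (g : GL (Fin 2) k) : twgMAct g (0 : Matrix (Fin 2) (Fin 2) k) = 0 := by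
  rw [twgMAct_eq, Matrix.mul_zero, Matrix.zero_mul]

/-- **CH (core).** the statement of `twg_coh_affine3`, with the restriction lemma `twg_restrict`
(CB0) for the pair `u(F) ≤ H` as a hypothesis -/
theorem twg_coh3_core [CharP k 3] [Finite k] (F : Subfield k) (H : Subgroup (GL (Fin 2) k))
    (hrestrict : ∀ (H' : Subgroup (GL (Fin 2) k)) (hH'H : H' ≤ H), ¬ 3 ∣ (H'.subgroupOf H).index →
      ∀ ψ : H → Matrix (Fin 2) (Fin 2) k, TwgIsCocycle H ψ →
        TwgIsCoboundary H' (fun h => ψ ⟨h.1, hH'H h.2⟩) → TwgIsCoboundary H ψ)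
    (hH : ∀ g ∈ H, g 1 0 = 0 ∧ g 0 0 / g 1 1 ∈ F ∧ g 0 1 / g 1 1 ∈ F)
    (hU : ∀ w ∈ F, upperRightHom w ∈ H)
    (hT : ∀ t ∈ F, t ≠ 0 → ∃ g ∈ H, g 0 0 / g 1 1 = t)
    (hdet : ∀ g ∈ H, det g ^ 2 = 1 ∧ (det g = 1 ↔ ∃ r ∈ F, r ^ 2 = g 0 0 / g 1 1))
    (ψ : H → Matrix (Fin 2) (Fin 2) k) (hψ : TwgIsCocycle H ψ) : TwgIsCoboundary H ψ := by
  classical
  have h3 : (3 : k) = 0 := by
    have := CharP.cast_eq_zero k 3
    exact_mod_cast this
  -- step 1: the shape of `ψ` on the translations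
  obtain ⟨b0, xh, β, hβadd, hβ1, hshape⟩ := twg_coh3_funeq h3 F
    (fun w => ψ (twgUel F H hU w) 0 1) (fun w => ψ (twgUel F H hU w) 0 0)
    (fun w => ψ (twgUel F H hU w) 1 0)
    (fun w w' => (twg_coh3_cocycle_U F H hU ψ hψ w w').1)
    (fun w w' => (twg_coh3_cocycle_U F H hU ψ hψ w w').2.1)
  -- step 2: subtract a coboundary
  set X₀ : Matrix (Fin 2) (Fin 2) k := !![xh, 0; b0, -xh] with hX₀
  have hX₀tr : X₀.trace = 0 := by
    rw [hX₀, Matrix.trace_fin_two]
    simp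
  apply twg_coh3_of_sub_cobound H ψ X₀ hX₀tr
  have hψ' := twg_coh3_sub_cobound H ψ hψ X₀ hX₀tr
  set ψ' : H → Matrix (Fin 2) (Fin 2) k := fun g => ψ g - (twgMAct g.1 X₀ - X₀) with hψ'def
  have hψ'U : ∀ w : ↥F, ψ' (twgUel F H hU w) = !![0, β w; 0, 0] := by
    intro w
    obtain ⟨hC, hB, hA⟩ := hshape w
    have h11 : ψ (twgUel F H hU w) 1 1 = - ψ (twgUel F H hU w) 0 0 := by
      have := hψ.1 (twgUel F H hU w)
      rw [Matrix.trace_fin_two] at this
      exact eq_neg_of_add_eq_zero_right this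
    have hact : twgMAct (twgUel F H hU w).1 X₀ = _ := twgMAct_upperRight (w : k) X₀
    rw [hψ'def]
    simp only
    rw [hact, hX₀]
    ext i j
    fin_cases i <;> fin_cases j
    · simp only [Fin.zero_eta, Fin.isValue, Matrix.sub_apply, Matrix.of_apply, Matrix.cons_val',
        Matrix.cons_val_zero, Matrix.cons_val_fin_one, Matrix.cons_val_one]
      rw [hB]; ring
    · simp only [Fin.zero_eta, Fin.isValue, Fin.mk_one, Matrix.sub_apply, Matrix.of_apply,
        Matrix.cons_val', Matrix.cons_val_zero, Matrix.cons_val_fin_one, Matrix.cons_val_one]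
      rw [hA]; linear_combination ((w : k) * xh) * h3
    · simp only [Fin.zero_eta, Fin.isValue, Fin.mk_one, Matrix.sub_apply, Matrix.of_apply,
        Matrix.cons_val', Matrix.cons_val_zero, Matrix.cons_val_fin_one, Matrix.cons_val_one]
      rw [hC]; ring
    · simp only [Fin.isValue, Fin.mk_one, Matrix.sub_apply, Matrix.of_apply,
        Matrix.cons_val', Matrix.cons_val_zero, Matrix.cons_val_fin_one, Matrix.cons_val_one]
      rw [h11, hB]; ring
  -- step 3: the relations from the normaliser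
  have hrel : ∀ t : ↥F, t ≠ 0 → ∃ ε : k, (ε = 1 ∨ ε = -1) ∧ (ε = 1 ↔ ∃ r : ↥F, r ^ 2 = t) ∧
      ∀ w : ↥F, β (t * w) = ε * (t : k) * β w + (w : k) * β t := by
    intro t ht0
    have ht0' : (t : k) ≠ 0 := fun h => ht0 (Subtype.ext h)
    obtain ⟨g, hg, hgt⟩ := hT t t.2 ht0'
    obtain ⟨hg10, -, -⟩ := hH g hg
    obtain ⟨hd2, hd1⟩ := hdet g hg
    obtain ⟨h00, h11⟩ := twg_coh3_diag_ne_zero g hg10
    refine ⟨((det g : kˣ) : k), ?_, ?_, ?_⟩
    · have : ((det g : kˣ) : k) ^ 2 = 1 := by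
        rw [← Units.val_pow_eq_pow_val, hd2, Units.val_one]
      have h' : (((det g : kˣ) : k) - 1) * (((det g : kˣ) : k) + 1) = 0 := by
        linear_combination this
      rcases mul_eq_zero.1 h' with h | h
      · exact Or.inl (sub_eq_zero.1 h)
      · exact Or.inr (eq_neg_of_add_eq_zero_left h)
    · rw [← Units.val_one, Units.val_inj, hd1, hgt]
      constructor
      · rintro ⟨r, hr, hrt⟩
        exact ⟨⟨r, hr⟩, Subtype.ext (by rw [← hrt]; rfl)⟩
      · rintro ⟨r, hr⟩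
        refine ⟨(r : k), r.2, ?_⟩
        rw [← hr]; rfl
    · intro w
      rw [twg_coh3_normal F H hU ψ' hψ' β hβ1 hψ'U g hg hg10 t hgt.symm w,
        twg_coh3_det_upper g hg10, ← hgt]
      field_simp
  -- step 4: `β = 0`, so `ψ'` vanishes on the translations
  have hβ0 := twg_coh3_beta_zero h3 F β hβadd hrel
  have hle : twgUF F ≤ H := by
    rintro _ ⟨w, hw, rfl⟩
    exact hU w hw
  refine hrestrict (twgUF F) hle (twg_coh3_index F H hH) ψ' hψ' ⟨0, Matrix.trace_zero _ _, ?_⟩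
  rintro ⟨g, w, hw, rfl⟩
  have := hψ'U ⟨w, hw⟩
  rw [hβ0] at this
  rw [twgMAct_zero, sub_zero]
  show ψ' (twgUel F H hU ⟨w, hw⟩) = 0
  rw [this]
  ext i j
  fin_cases i <;> fin_cases j <;> rfl

end Fermat.Agent.S56
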