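import Fermat.Agent.S56.TW.CaseB.MatDefs

/-!
# S56 / TW / Case B, leaf CB0 (row 383): restriction to a subgroup of index prime to `p`, and
conjugation invariance

* `twg_restrict` : `H ≤ Γ` of index prime to `p = char k`: a cocycle whose restriction to `H` is a
  coboundary is a coboundary (average over `Γ/H`).
* `twg_conj`     : transport of cocycles along conjugation by `γ ∈ GL₂(k)`.

Helper names are prefixed `twgr_`.
-/

set_option autoImplicit false
set_option linter.unusedSectionVars false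
set_option linter.style.haveILetI false

namespace Fermat.Agent.S56

open Matrix MulAction OnePoint Matrix.GeneralLinearGroup

variable {k : Type*} [Field k] [DecidableEq k]

/-! ### the twisted adjoint action is a linear action -/

theorem twgr_mact_one (X : Matrix (Fin 2) (Fin 2) k) : twgMAct (1 : GL (Fin 2) k) X = X := by
  unfold twgMAct
  rw [map_one, inv_one, Units.val_one, one_smul, Units.val_one, Matrix.one_mul, Matrix.mul_one]

theorem twgr_mact_mul (g h : GL (Fin 2) k) (X : Matrix (Fin 2) (Fin 2) k) :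
    twgMAct (g * h) X = twgMAct g (twgMAct h X) := by
  unfold twgMAct
  rw [map_mul, _root_.mul_inv_rev, Units.val_mul, Units.val_mul, Units.val_mul, Matrix.mul_smul,
    Matrix.smul_mul, smul_smul]
  simp only [Matrix.mul_assoc]

theorem twgr_mact_add (g : GL (Fin 2) k) (X Y : Matrix (Fin 2) (Fin 2) k) :
    twgMAct g (X + Y) = twgMAct g X + twgMAct g Y := by
  unfold twgMAct
  rw [Matrix.mul_add, Matrix.add_mul, smul_add]

theorem twgr_mact_zero (g : GL (Fin 2) k) : twgMAct g (0 : Matrix (Fin 2) (Fin 2) k) = 0 := by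
  unfold twgMAct
  rw [Matrix.mul_zero, Matrix.zero_mul, smul_zero]

theorem twgr_mact_neg (g : GL (Fin 2) k) (X : Matrix (Fin 2) (Fin 2) k) :
    twgMAct g (-X) = -twgMAct g X := by
  unfold twgMAct
  rw [Matrix.mul_neg, Matrix.neg_mul, smul_neg]

theorem twgr_mact_sub (g : GL (Fin 2) k) (X Y : Matrix (Fin 2) (Fin 2) k) :
    twgMAct g (X - Y) = twgMAct g X - twgMAct g Y := by
  rw [sub_eq_add_neg, twgr_mact_add, twgr_mact_neg, ← sub_eq_add_neg]

theorem twgr_mact_smul (g : GL (Fin 2) k) (c : k) (X : Matrix (Fin 2) (Fin 2) k) :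
    twgMAct g (c • X) = c • twgMAct g X := by
  unfold twgMAct
  rw [Matrix.mul_smul, Matrix.smul_mul, smul_comm]

theorem twgr_mact_sum {ι : Type*} (s : Finset ι) (g : GL (Fin 2) k)
    (f : ι → Matrix (Fin 2) (Fin 2) k) :
    twgMAct g (∑ i ∈ s, f i) = ∑ i ∈ s, twgMAct g (f i) := by
  classical
  induction s using Finset.induction_on with
  | empty => rw [Finset.sum_empty, Finset.sum_empty, twgr_mact_zero]
  | insert a s ha ih => rw [Finset.sum_insert ha, Finset.sum_insert ha, twgr_mact_add, ih]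

theorem twgr_trace_mact (g : GL (Fin 2) k) (X : Matrix (Fin 2) (Fin 2) k) :
    (twgMAct g X).trace = ((Matrix.GeneralLinearGroup.det g : kˣ) : k) * X.trace := by
  unfold twgMAct
  rw [Matrix.trace_smul, Matrix.trace_mul_comm, ← Matrix.mul_assoc, ← Units.val_mul,
    inv_mul_cancel, Units.val_one, Matrix.one_mul, smul_eq_mul]

theorem twgr_trace_mact_zero (g : GL (Fin 2) k) {X : Matrix (Fin 2) (Fin 2) k}
    (hX : X.trace = 0) : (twgMAct g X).trace = 0 := by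
  rw [twgr_trace_mact, hX, mul_zero]

theorem twgr_mact_inv_mact (g : GL (Fin 2) k) (X : Matrix (Fin 2) (Fin 2) k) :
    twgMAct g⁻¹ (twgMAct g X) = X := by
  rw [← twgr_mact_mul, inv_mul_cancel, twgr_mact_one]

theorem twgr_mact_mact_inv (g : GL (Fin 2) k) (X : Matrix (Fin 2) (Fin 2) k) :
    twgMAct g (twgMAct g⁻¹ X) = X := by
  rw [← twgr_mact_mul, mul_inv_cancel, twgr_mact_one]

/-! ### CB0 -/

/-- **CB0.** `Γ` finite, `H ≤ Γ` of index prime to `p = char k`: a cocycle whose restriction to `H`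
is a coboundary is a coboundary (average over `Γ/H`). -/
theorem twg_restrict (p : ℕ) [Fact p.Prime] [CharP k p] [Finite k]
    (Γ : Subgroup (GL (Fin 2) k)) (H : Subgroup (GL (Fin 2) k)) (hHΓ : H ≤ Γ)
    (hidx : ¬ p ∣ (H.subgroupOf Γ).index)
    (ψ : Γ → Matrix (Fin 2) (Fin 2) k) (hψ : TwgIsCocycle Γ ψ)
    (hres : TwgIsCoboundary H (fun h => ψ ⟨h.1, hHΓ h.2⟩)) : TwgIsCoboundary Γ ψ := by
  classical
  obtain ⟨X, hX, hXH⟩ := hres
  -- subtract the coboundary of `X`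
  set ψ' : Γ → Matrix (Fin 2) (Fin 2) k := fun g => ψ g - (twgMAct g.1 X - X) with hψ'
  have h1 : ∀ g h : Γ, ψ' (g * h) = ψ' g + twgMAct g.1 (ψ' h) := by
    intro g h
    simp only [hψ']
    rw [hψ.2, twgr_mact_sub, twgr_mact_sub, Subgroup.coe_mul, twgr_mact_mul]
    abel
  have h2 : ∀ h : Γ, h ∈ H.subgroupOf Γ → ψ' h = 0 := by
    intro h hh
    have hh' : h.1 ∈ H := Subgroup.mem_subgroupOf.1 hh
    have hψh : ψ h = twgMAct h.1 X - X := hXH ⟨h.1, hh'⟩
    simp only [hψ']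
    rw [hψh, sub_self]
  have h3 : ∀ g : Γ, (ψ' g).trace = 0 := by
    intro g
    simp only [hψ']
    rw [Matrix.trace_sub, Matrix.trace_sub, hψ.1, twgr_trace_mact_zero _ hX, hX]
    simp
  have h4 : ∀ g h : Γ, h ∈ H.subgroupOf Γ → ψ' (g * h) = ψ' g := by
    intro g h hh
    rw [h1, h2 h hh, twgr_mact_zero, add_zero]
  -- the average over the cosets
  haveI : Finite (GL (Fin 2) k) := inferInstance
  haveI : Finite Γ := inferInstance
  haveI : Fintype (Γ ⧸ H.subgroupOf Γ) := Fintype.ofFinite _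
  have hout : ∀ g : Γ, ψ' (QuotientGroup.mk g : Γ ⧸ H.subgroupOf Γ).out = ψ' g := by
    intro g
    obtain ⟨h, hh⟩ := QuotientGroup.mk_out_eq_mul (H.subgroupOf Γ) g
    rw [hh, h4 g h.1 h.2]
  set Y : Matrix (Fin 2) (Fin 2) k := ∑ c : Γ ⧸ H.subgroupOf Γ, ψ' c.out with hY
  have hYtr : Y.trace = 0 := by
    rw [hY, Matrix.trace_sum]
    exact Finset.sum_eq_zero (fun c _ => h3 _)
  have hm : ((Fintype.card (Γ ⧸ H.subgroupOf Γ) : ℕ) : k) ≠ 0 := by
    intro h0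
    rw [CharP.cast_eq_zero_iff k p] at h0
    apply hidx
    rwa [Subgroup.index_eq_card, Nat.card_eq_fintype_card]
  have hkey : ∀ g : Γ, Y = (Fintype.card (Γ ⧸ H.subgroupOf Γ) : k) • ψ' g + twgMAct g.1 Y := by
    intro g
    have e1 : Y = ∑ c : Γ ⧸ H.subgroupOf Γ, ψ' (g • c).out :=
      (Equiv.sum_comp (MulAction.toPerm g : Equiv.Perm (Γ ⧸ H.subgroupOf Γ))
        (fun c => ψ' c.out)).symm
    have e2 : ∀ c : Γ ⧸ H.subgroupOf Γ, ψ' (g • c).out = ψ' g + twgMAct g.1 (ψ' c.out) := by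
      intro c
      have : g • c = (QuotientGroup.mk (g * c.out) : Γ ⧸ H.subgroupOf Γ) := by
        conv_lhs => rw [← QuotientGroup.out_eq' c]
        rfl
      rw [this, hout, h1]
    calc Y = ∑ c : Γ ⧸ H.subgroupOf Γ, ψ' (g • c).out := e1
      _ = ∑ c : Γ ⧸ H.subgroupOf Γ, (ψ' g + twgMAct g.1 (ψ' c.out)) :=
          Finset.sum_congr rfl (fun c _ => e2 c)
      _ = _ := by
          rw [Finset.sum_add_distrib, Finset.sum_const, Finset.card_univ, ← twgr_mact_sum,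
            Nat.cast_smul_eq_nsmul]
  refine ⟨X + (-(Fintype.card (Γ ⧸ H.subgroupOf Γ) : k)⁻¹) • Y, ?_, fun g => ?_⟩
  · rw [Matrix.trace_add, Matrix.trace_smul, hX, hYtr, smul_zero, add_zero]
  · have hg : ψ' g = twgMAct g.1 ((-(Fintype.card (Γ ⧸ H.subgroupOf Γ) : k)⁻¹) • Y) -
        (-(Fintype.card (Γ ⧸ H.subgroupOf Γ) : k)⁻¹) • Y := by
      have hk := hkey g
      have : ψ' g = (Fintype.card (Γ ⧸ H.subgroupOf Γ) : k)⁻¹ • (Y - twgMAct g.1 Y) := by
        rw [eq_inv_smul_iff₀ hm, eq_sub_iff_add_eq]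
        exact hk.symm
      rw [this, twgr_mact_smul, neg_smul, neg_smul, smul_sub]
      abel
    have hψg : ψ g = ψ' g + (twgMAct g.1 X - X) := by
      simp only [hψ']
      abel
    rw [hψg, hg, twgr_mact_add]
    abel

/-! ### CONJ -/

/-- **CONJ.** transport of cocycles along conjugation by `γ ∈ GL₂(k)`. -/
theorem twg_conj (Γ : Subgroup (GL (Fin 2) k)) (γ : GL (Fin 2) k)
    (h : ∀ ψ' : Γ.map (MulAut.conj γ).toMonoidHom → Matrix (Fin 2) (Fin 2) k,
      TwgIsCocycle _ ψ' → TwgIsCoboundary _ ψ')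
    (ψ : Γ → Matrix (Fin 2) (Fin 2) k) (hψ : TwgIsCocycle Γ ψ) : TwgIsCoboundary Γ ψ := by
  have hback : ∀ g' : Γ.map (MulAut.conj γ).toMonoidHom, γ⁻¹ * g'.1 * γ ∈ Γ := by
    intro g'
    obtain ⟨g, hg, hgg'⟩ := Subgroup.mem_map.1 g'.2
    have : γ * g * γ⁻¹ = g'.1 := hgg'
    rw [← this]
    have h2 : γ⁻¹ * (γ * g * γ⁻¹) * γ = g := by group
    rw [h2]
    exact hg
  have hfwd : ∀ g : Γ, γ * g.1 * γ⁻¹ ∈ Γ.map (MulAut.conj γ).toMonoidHom := fun g =>
    Subgroup.mem_map.2 ⟨g.1, g.2, rfl⟩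
  -- the transported cocycle
  have hcoc : TwgIsCocycle (Γ.map (MulAut.conj γ).toMonoidHom)
      (fun g' => twgMAct γ (ψ ⟨γ⁻¹ * g'.1 * γ, hback g'⟩)) := by
    refine ⟨fun g' => twgr_trace_mact_zero γ (hψ.1 _), fun g' h' => ?_⟩
    have hmul : (⟨γ⁻¹ * (g' * h').1 * γ, hback (g' * h')⟩ : Γ) =
        ⟨γ⁻¹ * g'.1 * γ, hback g'⟩ * ⟨γ⁻¹ * h'.1 * γ, hback h'⟩ := by
      apply Subtype.ext
      show γ⁻¹ * (g'.1 * h'.1) * γ = γ⁻¹ * g'.1 * γ * (γ⁻¹ * h'.1 * γ)
      group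
    show twgMAct γ (ψ ⟨γ⁻¹ * (g' * h').1 * γ, hback (g' * h')⟩) = _
    rw [hmul, hψ.2, twgr_mact_add, ← twgr_mact_mul, ← twgr_mact_mul]
    congr 2
    show γ * (γ⁻¹ * g'.1 * γ) = g'.1 * γ
    group
  obtain ⟨X', hX', hcob⟩ := h _ hcoc
  refine ⟨twgMAct γ⁻¹ X', twgr_trace_mact_zero _ hX', fun g => ?_⟩
  have h1 := hcob ⟨γ * g.1 * γ⁻¹, hfwd g⟩
  have hg : (⟨γ⁻¹ * (γ * g.1 * γ⁻¹) * γ, hback ⟨γ * g.1 * γ⁻¹, hfwd g⟩⟩ : Γ) = g := by
    apply Subtype.ext
    show γ⁻¹ * (γ * g.1 * γ⁻¹) * γ = g.1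
    group
  simp only at h1
  rw [hg] at h1
  have h2 := congrArg (twgMAct γ⁻¹) h1
  rw [twgr_mact_inv_mact, twgr_mact_sub, ← twgr_mact_mul] at h2
  rw [h2, ← twgr_mact_mul]
  congr 2
  group

end Fermat.Agent.S56
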