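/-
S56 / TWG / Case B, row 382 (CH): `twg_coh_affine3`, VERBATIM from `TW/CaseB/MatSpec.lean`
(origin/helper7 138d742) = `twg_coh3_core` (`Coh3Core.lean`, sorry-free) applied to the black box
CB0 `twg_restrict` (`RestrictSpec.lean`, row 383).
-/
import Fermat.Agent.S56.TW.CaseB.Coh3Core
import Fermat.Agent.S56.TW.CaseB.Restrict

set_option autoImplicit false

namespace Fermat.Agent.S56

open Matrix MulAction OnePoint Matrix.GeneralLinearGroup

variable {k : Type*} [Field k] [DecidableEq k]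

/-- **CH.** `char k = 3`, `F ≤ k` a subfield, `H ≤ GL₂(k)` a group of upper triangular matrices
whose Möbius image is `{z ↦ t z + w | t ∈ Fˣ, w ∈ F}`, containing `u(F)`, with `det = ` the
quadratic character of `t = g₀₀ / g₁₁` (values `±1`).  Then every trace-zero `1`-cocycle
`H → M₂(k)` for the twisted adjoint action `g • X = det g • g X g⁻¹` is a coboundary. -/
theorem twg_coh_affine3 [CharP k 3] [Finite k] (F : Subfield k) (H : Subgroup (GL (Fin 2) k))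
    (hH : ∀ g ∈ H, g 1 0 = 0 ∧ g 0 0 / g 1 1 ∈ F ∧ g 0 1 / g 1 1 ∈ F)
    (hU : ∀ w ∈ F, upperRightHom w ∈ H)
    (hT : ∀ t ∈ F, t ≠ 0 → ∃ g ∈ H, g 0 0 / g 1 1 = t)
    (hdet : ∀ g ∈ H, det g ^ 2 = 1 ∧ (det g = 1 ↔ ∃ r ∈ F, r ^ 2 = g 0 0 / g 1 1))
    (ψ : H → Matrix (Fin 2) (Fin 2) k) (hψ : TwgIsCocycle H ψ) : TwgIsCoboundary H ψ :=
  have : Fact (Nat.Prime 3) := ⟨Nat.prime_three⟩
  twg_coh3_core F H (fun H' hH'H hidx ψ hψ hres => twg_restrict 3 H H' hH'H hidx ψ hψ hres)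
    hH hU hT hdet ψ hψ

end Fermat.Agent.S56
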