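/-
S56 / TW / Case B, leaf MX-D2 (row 381): `twg_mx_hua`, VERBATIM from `TW/CaseB/MatSpec.lean`
(helper7).  Pure `2 × 2` matrix algebra over a finite field + Hua's identity.
Helper names are prefixed `twgh_`.
-/
import Fermat.Agent.S56.TW.CaseB.MatDefs

set_option autoImplicit false
set_option linter.unusedSectionVars false
set_option linter.unusedVariables false

namespace Fermat.Agent.S56

open Matrix MulAction OnePoint Matrix.GeneralLinearGroup

/-! ## Hua's identity : an additive subgroup stable under `w ↦ a / w` is a subfield -/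

section Hua

variable {k : Type*} [Field k]

theorem twgh_half_mem (p : ℕ) [Fact p.Prime] [CharP k p] (hp2 : p ≠ 2) (W : AddSubgroup k)
    (z : k) (hz : z ∈ W) : z / 2 ∈ W := by
  have hodd : p % 2 = 1 := (Nat.Prime.eq_two_or_odd (Fact.out : p.Prime)).resolve_left hp2
  have h1 : (((p + 1) / 2 : ℕ) : k) * 2 = 1 := by
    have h2 : (p + 1) / 2 * 2 = p + 1 := by omega
    have h3 : ((((p + 1) / 2 * 2 : ℕ)) : k) = ((p + 1 : ℕ) : k) := by rw [h2]
    push_cast at h3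
    rw [h3, CharP.cast_eq_zero, zero_add]
  have h2ne : (2 : k) ≠ 0 := by
    intro h0
    rw [h0, mul_zero] at h1
    exact zero_ne_one h1
  have h4 : z / 2 = ((p + 1) / 2 : ℕ) • z := by
    rw [nsmul_eq_mul, div_eq_iff h2ne, mul_comm _ z, mul_assoc, h1, mul_one]
  rw [h4]
  exact AddSubgroup.nsmul_mem W hz _

theorem twgh_hua (W : AddSubgroup k) (a : k) (ha : a ≠ 0)
    (hι : ∀ w ∈ W, w ≠ 0 → a / w ∈ W) (x y : k) (hx : x ∈ W) (hy : y ∈ W) :
    x ^ 2 * y / a ∈ W := by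
  by_cases hx0 : x = 0
  · rw [hx0]; simp
  by_cases hy0 : y = 0
  · rw [hy0]; simp
  by_cases hd : a - x * y = 0
  · have h1 : x ^ 2 * y / a = x := by
      have h2 : x * y = a := by linear_combination -hd
      rw [pow_two, mul_assoc, h2, mul_div_assoc, div_self ha, mul_one]
    rw [h1]; exact hx
  · have h1 : a / y ∈ W := hι y hy hy0
    have h2 : a / y - x ∈ W := W.sub_mem h1 hx
    have h2ne : a / y - x ≠ 0 := by
      intro h0
      apply hd
      field_simp at h0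
      linear_combination h0
    have h3 : a / (a / y - x) ∈ W := hι _ h2 h2ne
    have h4 : a / x ∈ W := hι x hx hx0
    have h5 : a / x + a / (a / y - x) ∈ W := W.add_mem h4 h3
    have h5eq : a / x + a / (a / y - x) = a ^ 2 / (x * (a - x * y)) := by
      field_simp
      ring
    have h5ne : a / x + a / (a / y - x) ≠ 0 := by
      rw [h5eq]
      exact div_ne_zero (pow_ne_zero _ ha) (mul_ne_zero hx0 hd)
    have h6 : a / (a / x + a / (a / y - x)) ∈ W := hι _ h5 h5ne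
    have h7 : x ^ 2 * y / a = x - a / (a / x + a / (a / y - x)) := by
      rw [h5eq]
      field_simp
      ring
    rw [h7]
    exact W.sub_mem hx h6

theorem twgh_mul_mem (p : ℕ) [Fact p.Prime] [CharP k p] (hp2 : p ≠ 2) (W : AddSubgroup k)
    (h1 : (1 : k) ∈ W) (a : k) (ha : a ≠ 0)
    (hι : ∀ w ∈ W, w ≠ 0 → a / w ∈ W) (x y : k) (hx : x ∈ W) (hy : y ∈ W) : x * y ∈ W := by
  have haW : a ∈ W := by
    have := hι 1 h1 one_ne_zero
    rwa [div_one] at this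
  have hsq : ∀ z ∈ W, z ^ 2 ∈ W := by
    intro z hz
    have := twgh_hua W a ha hι z a hz haW
    rwa [mul_div_assoc, div_self ha, mul_one] at this
  have h2 : (x + y) ^ 2 - x ^ 2 - y ^ 2 ∈ W :=
    W.sub_mem (W.sub_mem (hsq _ (W.add_mem hx hy)) (hsq x hx)) (hsq y hy)
  have h3 := twgh_half_mem p hp2 W _ h2
  have h2ne : (2 : k) ≠ 0 := by
    have := (Fact.out : p.Prime)
    intro h0
    have h4 : ((2 : ℕ) : k) = 0 := by exact_mod_cast h0
    rw [CharP.cast_eq_zero_iff k p] at h4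
    have := Nat.le_of_dvd (by norm_num) h4
    have := (Fact.out : p.Prime).two_le
    omega
  have h5 : ((x + y) ^ 2 - x ^ 2 - y ^ 2) / 2 = x * y := by
    field_simp
    ring
  rwa [h5] at h3

/-- the subfield attached to an additive subgroup containing `1` and stable under `w ↦ a / w`. -/
def twghField (p : ℕ) [Fact p.Prime] [CharP k p] (hp2 : p ≠ 2) (W : AddSubgroup k)
    (h1 : (1 : k) ∈ W) (a : k) (ha : a ≠ 0)
    (hι : ∀ w ∈ W, w ≠ 0 → a / w ∈ W) : Subfield k where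
  carrier := W
  mul_mem' {x y} hx hy := twgh_mul_mem p hp2 W h1 a ha hι x y hx hy
  one_mem' := h1
  add_mem' {x y} hx hy := W.add_mem hx hy
  zero_mem' := W.zero_mem
  neg_mem' {x} hx := W.neg_mem hx
  inv_mem' x hx := by
    by_cases hx0 : x = 0
    · rw [hx0, _root_.inv_zero]; exact W.zero_mem
    · have haW : a ∈ W := by
        have := hι 1 h1 one_ne_zero
        rwa [div_one] at this
      have h2 : a / (a * a) ∈ W :=
        hι _ (twgh_mul_mem p hp2 W h1 a ha hι a a haW haW) (mul_ne_zero ha ha)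
      have h3 := twgh_mul_mem p hp2 W h1 a ha hι _ _ (hι x hx hx0) h2
      have h4 : a / x * (a / (a * a)) = x⁻¹ := by
        field_simp
      rwa [h4] at h3

theorem mem_twghField (p : ℕ) [Fact p.Prime] [CharP k p] (hp2 : p ≠ 2) (W : AddSubgroup k)
    (h1 : (1 : k) ∈ W) (a : k) (ha : a ≠ 0)
    (hι : ∀ w ∈ W, w ≠ 0 → a / w ∈ W) (x : k) :
    x ∈ twghField p hp2 W h1 a ha hι ↔ x ∈ W := Iff.rfl

end Hua

/-! ## Finite fields : the product of two non-squares is a square -/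

section Squares

theorem twgh_isSquare_mul {F : Type*} [Field F] [Finite F] {x y : F} (hx0 : x ≠ 0) (hy0 : y ≠ 0)
    (hx : ¬ IsSquare x) (hy : ¬ IsSquare y) : IsSquare (x * y) := by
  classical
  have := Fintype.ofFinite F
  rw [← quadraticChar_one_iff_isSquare (mul_ne_zero hx0 hy0), map_mul,
    quadraticChar_neg_one_iff_not_isSquare.mpr hx, quadraticChar_neg_one_iff_not_isSquare.mpr hy]
  norm_num

end Squares

/-! ## The matrix computations -/

section Mat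

variable {k : Type*} [Field k] [DecidableEq k]

/-- `W = {w | u(w) ∈ Γ}`. -/
def twghW (Γ : Subgroup (GL (Fin 2) k)) : AddSubgroup k where
  carrier := {w | upperRightHom w ∈ Γ}
  add_mem' := by
    intro a b ha hb
    show upperRightHom (a + b) ∈ Γ
    rw [AddChar.map_add_eq_mul]
    exact Γ.mul_mem ha hb
  zero_mem' := by
    show upperRightHom (0 : k) ∈ Γ
    rw [AddChar.map_zero_eq_one]
    exact Γ.one_mem
  neg_mem' := by
    intro a ha
    show upperRightHom (-a) ∈ Γ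
    rw [AddChar.map_neg_eq_inv]
    exact Γ.inv_mem ha

theorem mem_twghW (Γ : Subgroup (GL (Fin 2) k)) (w : k) :
    w ∈ twghW Γ ↔ upperRightHom w ∈ Γ := Iff.rfl

/-- the lower unipotent matrix `[1, 0; v, 1]`. -/
def twghL (v : k) : GL (Fin 2) k :=
  ⟨!![1, 0; v, 1], !![1, 0; -v, 1], by simp [one_fin_two], by simp [one_fin_two]⟩

/-- the diagonal matrix `diag(t, t⁻¹)`. -/
def twghD (t : k) (ht : t ≠ 0) : GL (Fin 2) k :=
  ⟨!![t, 0; 0, t⁻¹], !![t⁻¹, 0; 0, t], by simp [one_fin_two, ht], by simp [one_fin_two, ht]⟩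

theorem twgh_det_apply (g : GL (Fin 2) k) :
    ((det g : kˣ) : k) = g 0 0 * g 1 1 - g 0 1 * g 1 0 := by
  rw [Matrix.GeneralLinearGroup.val_det_apply, Matrix.det_fin_two]

theorem twgh_det_eq_one_iff (g : GL (Fin 2) k) :
    det g = 1 ↔ g 0 0 * g 1 1 - g 0 1 * g 1 0 = 1 := by
  rw [← twgh_det_apply, Units.ext_iff, Units.val_one]

theorem twgh_diag_ne_zero (g : GL (Fin 2) k) (h10 : g 1 0 = 0) : g 0 0 ≠ 0 ∧ g 1 1 ≠ 0 := by
  have h1 : ((det g : kˣ) : k) ≠ 0 := Units.ne_zero _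
  rw [twgh_det_apply, h10, mul_zero, sub_zero] at h1
  exact ⟨left_ne_zero_of_mul h1, right_ne_zero_of_mul h1⟩

theorem twgh_anti_ne_zero (s : GL (Fin 2) k) (h00 : s 0 0 = 0) (h11 : s 1 1 = 0) :
    s 0 1 ≠ 0 ∧ s 1 0 ≠ 0 := by
  have h1 : ((det s : kˣ) : k) ≠ 0 := Units.ne_zero _
  rw [twgh_det_apply, h00, zero_mul, zero_sub, neg_ne_zero] at h1
  exact ⟨left_ne_zero_of_mul h1, right_ne_zero_of_mul h1⟩

/-- conjugating `u(w)` by an anti-diagonal matrix. -/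
theorem twgh_conj_anti (s : GL (Fin 2) k) (h00 : s 0 0 = 0) (h11 : s 1 1 = 0) (w : k) :
    s * upperRightHom w * s⁻¹ = twghL (w * s 1 0 / s 0 1) := by
  obtain ⟨hb, hc⟩ := twgh_anti_ne_zero s h00 h11
  rw [mul_inv_eq_iff_eq_mul]
  apply Matrix.GeneralLinearGroup.ext
  intro i j
  fin_cases i <;> fin_cases j <;>
    simp [Matrix.mul_apply, Fin.sum_univ_two, twghL, h00, h11]
  field_simp

/-- conjugating `u(1)` by an upper triangular matrix. -/
theorem twgh_conj_upper (g : GL (Fin 2) k) (h10 : g 1 0 = 0) :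
    g * upperRightHom (1 : k) * g⁻¹ = upperRightHom (g 0 0 / g 1 1) := by
  obtain ⟨h0, h1⟩ := twgh_diag_ne_zero g h10
  rw [mul_inv_eq_iff_eq_mul]
  apply Matrix.GeneralLinearGroup.ext
  intro i j
  fin_cases i <;> fin_cases j <;>
    simp [Matrix.mul_apply, Fin.sum_univ_two, h10]
  field_simp
  ring

/-- the Weyl element computation. -/
theorem twgh_diag_eq (t : k) (ht : t ≠ 0) :
    twghD t ht = upperRightHom t * twghL (-1 / t) * upperRightHom t *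
      (upperRightHom (1 : k) * twghL (-1) * upperRightHom (1 : k))⁻¹ := by
  rw [eq_mul_inv_iff_mul_eq]
  apply Matrix.GeneralLinearGroup.ext
  intro i j
  fin_cases i <;> fin_cases j <;>
    simp [Matrix.mul_apply, Fin.sum_univ_two, twghL, twghD]
  · field_simp; ring
  · left; field_simp; ring
  · field_simp
  · field_simp; ring

theorem twgh_det_upperRight (w : k) : det (upperRightHom w : GL (Fin 2) k) = 1 := by
  rw [twgh_det_eq_one_iff]
  simp

theorem twgh_det_diag (t : k) (ht : t ≠ 0) : det (twghD t ht) = 1 := by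
  rw [twgh_det_eq_one_iff]
  simp [twghD, ht]

/-- a scalar matrix acts trivially on `ℙ¹`. -/
theorem twgh_scalar_smul (g : GL (Fin 2) k) (h10 : g 1 0 = 0) (h01 : g 0 1 = 0)
    (h : g 0 0 = g 1 1) (x : OnePoint k) : g • x = x := by
  obtain ⟨h0, h1⟩ := twgh_diag_ne_zero g h10
  cases x with
  | infty => rw [smul_infty_eq_ite, if_pos h10]
  | coe z =>
    rw [smul_some_eq_ite, h10, zero_mul, zero_add, if_neg h1, h01, add_zero, h,
      mul_div_assoc, mul_comm, div_mul_cancel₀ _ h1]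

/-- non-squares of a finite subfield differ by a square. -/
theorem twgh_sq_dichotomy [Finite k] (F : Subfield k) (x y : k) (hx : x ∈ F) (hy : y ∈ F)
    (hx0 : x ≠ 0) (hy0 : y ≠ 0) (hxn : ¬ ∃ r ∈ F, r ^ 2 = x) (hyn : ¬ ∃ r ∈ F, r ^ 2 = y) :
    ∃ r ∈ F, r ≠ 0 ∧ r ^ 2 * y = x := by
  have hx' : ¬ IsSquare (⟨x, hx⟩ : ↥F) := by
    rintro ⟨r, hr⟩
    exact hxn ⟨r, r.2, by rw [pow_two]; exact (congrArg Subtype.val hr).symm⟩
  have hy' : ¬ IsSquare (⟨y, hy⟩ : ↥F) := by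
    rintro ⟨r, hr⟩
    exact hyn ⟨r, r.2, by rw [pow_two]; exact (congrArg Subtype.val hr).symm⟩
  have hx0' : (⟨x, hx⟩ : ↥F) ≠ 0 := fun h => hx0 (congrArg Subtype.val h)
  have hy0' : (⟨y, hy⟩ : ↥F) ≠ 0 := fun h => hy0 (congrArg Subtype.val h)
  obtain ⟨r, hr⟩ := twgh_isSquare_mul hx0' hy0' hx' hy'
  have hr' : x * y = (r : k) * (r : k) := congrArg Subtype.val hr
  have hr0 : (r : k) ≠ 0 := by
    intro h0
    rw [h0, mul_zero] at hr'
    exact (mul_ne_zero hx0 hy0) hr'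
  refine ⟨(r : k) / y, F.div_mem r.2 hy, div_ne_zero hr0 hy0, ?_⟩
  field_simp
  rw [pow_two, ← hr']
  ring

end Mat

/-! ## The theorem -/

section Main

variable {k : Type*} [Field k] [DecidableEq k]

/-- **MX-D2 (Hua).** -/
theorem twg_mx_hua (p : ℕ) [Fact p.Prime] [CharP k p] [Finite k] (hp2 : p ≠ 2)
    (Γ : Subgroup (GL (Fin 2) k))
    (hdetscal : ∀ g ∈ Γ, (∀ x : OnePoint k, g • x = x) → det g = 1)
    (hdetsq : ∀ g ∈ Γ, det g ^ 2 = 1)
    (hdetne : ∃ g ∈ Γ, g 1 0 = 0 ∧ det g ≠ 1)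
    (hu1 : upperRightHom (1 : k) ∈ Γ)
    (hs : ∃ s ∈ Γ, s 0 0 = 0 ∧ s 1 1 = 0)
    (horb : ∀ g ∈ Γ, g 1 0 ≠ 0 → upperRightHom (g 0 0 / g 1 0) ∈ Γ) :
    ∃ F : Subfield k, (∀ w : k, w ∈ F ↔ upperRightHom w ∈ Γ) ∧
      (∀ g ∈ Γ, g 1 0 = 0 → g 0 0 / g 1 1 ∈ F ∧ g 0 1 / g 1 1 ∈ F ∧
        (det g = 1 ↔ ∃ r ∈ F, r ^ 2 = g 0 0 / g 1 1)) ∧
      ∀ t ∈ F, t ≠ 0 → ∃ g ∈ Γ, g 1 0 = 0 ∧ g 0 0 / g 1 1 = t := by
  classical
  obtain ⟨s, hsΓ, hs00, hs11⟩ := hs
  obtain ⟨hb, hc⟩ := twgh_anti_ne_zero s hs00 hs11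
  set a : k := s 0 1 / s 1 0 with ha
  have ha0 : a ≠ 0 := div_ne_zero hb hc
  -- the lower unipotent elements of `Γ`
  have hL : ∀ w, w ∈ twghW Γ → twghL (w / a) ∈ Γ := by
    intro w hw
    have h1 := twgh_conj_anti s hs00 hs11 w
    have h2 : w * s 1 0 / s 0 1 = w / a := by rw [ha]; field_simp
    rw [h2] at h1
    rw [← h1]
    exact Γ.mul_mem (Γ.mul_mem hsΓ hw) (Γ.inv_mem hsΓ)
  have hι : ∀ w ∈ twghW Γ, w ≠ 0 → a / w ∈ twghW Γ := by
    intro w hw hw0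
    have h1 := hL w hw
    have h10 : (twghL (w / a)) 1 0 = w / a := by simp [twghL]
    have h00 : (twghL (w / a)) 0 0 = 1 := by simp [twghL]
    have h2 := horb _ h1 (by rw [h10]; exact div_ne_zero hw0 ha0)
    rw [h10, h00, one_div_div] at h2
    exact h2
  have h1W : (1 : k) ∈ twghW Γ := hu1
  have haW : a ∈ twghW Γ := by
    have := hι 1 h1W one_ne_zero
    rwa [div_one] at this
  -- the diagonal elements
  have hD : ∀ (t : k) (ht : t ≠ 0), t ∈ twghW Γ → twghD t ht ∈ Γ := by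
    intro t ht htW
    rw [twgh_diag_eq t ht]
    have h1 : twghL (-1 / t) ∈ Γ := by
      have hw : -(a / t) ∈ twghW Γ := (twghW Γ).neg_mem (hι t htW ht)
      have h2 := hL _ hw
      have h3 : -(a / t) / a = -1 / t := by field_simp
      rwa [h3] at h2
    have h2 : twghL (-1) ∈ Γ := by
      have hw : -a ∈ twghW Γ := (twghW Γ).neg_mem haW
      have h2 := hL _ hw
      have h3 : -a / a = -1 := by field_simp
      rwa [h3] at h2
    exact Γ.mul_mem (Γ.mul_mem (Γ.mul_mem htW h1) htW)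
      (Γ.inv_mem (Γ.mul_mem (Γ.mul_mem hu1 h2) hu1))
  -- `τ g`, `β g ∈ W`
  have hτ : ∀ g ∈ Γ, g 1 0 = 0 → g 0 0 / g 1 1 ∈ twghW Γ := by
    intro g hg h10
    show upperRightHom (g 0 0 / g 1 1) ∈ Γ
    rw [← twgh_conj_upper g h10]
    exact Γ.mul_mem (Γ.mul_mem hg hu1) (Γ.inv_mem hg)
  have hβ : ∀ g ∈ Γ, g 1 0 = 0 → g 0 1 / g 1 1 ∈ twghW Γ := by
    intro g hg h10
    obtain ⟨h0, h1⟩ := twgh_diag_ne_zero g h10
    have h2 := horb (g * s) (Γ.mul_mem hg hsΓ) (by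
      simp [Matrix.mul_apply, Fin.sum_univ_two, h10, hs00]
      exact ⟨h1, hc⟩)
    have h3 : (g * s) 0 0 / (g * s) 1 0 = g 0 1 / g 1 1 := by
      simp [Matrix.mul_apply, Fin.sum_univ_two, h10, hs00]
      field_simp
    rw [h3] at h2
    exact h2
  -- `τ g = 1 ⇒ det g = 1`
  have hdet1 : ∀ g ∈ Γ, g 1 0 = 0 → g 0 0 = g 1 1 → det g = 1 := by
    intro g hg h10 h0011
    obtain ⟨h0, h1⟩ := twgh_diag_ne_zero g h10
    have hu : upperRightHom (g 0 1 / g 1 1) ∈ Γ := hβ g hg h10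
    set l : GL (Fin 2) k := g * (upperRightHom (g 0 1 / g 1 1))⁻¹ with hl
    have hlΓ : l ∈ Γ := Γ.mul_mem hg (Γ.inv_mem hu)
    have hl' : l = g * upperRightHom (-(g 0 1 / g 1 1)) := by
      rw [hl, AddChar.map_neg_eq_inv]
    have hl10 : l 1 0 = 0 := by
      rw [hl']; simp [Matrix.mul_apply, Fin.sum_univ_two, h10]
    have hl01 : l 0 1 = 0 := by
      rw [hl']; simp [Matrix.mul_apply, Fin.sum_univ_two]
      rw [h0011]; field_simp; ring
    have hl00 : l 0 0 = l 1 1 := by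
      rw [hl']; simp [Matrix.mul_apply, Fin.sum_univ_two, h10]
      exact h0011
    have hdl := hdetscal l hlΓ (twgh_scalar_smul l hl10 hl01 hl00)
    have hg' : g = l * upperRightHom (g 0 1 / g 1 1) := by rw [hl, inv_mul_cancel_right]
    rw [hg', map_mul, hdl, twgh_det_upperRight, one_mul]
  -- `τ g₁ = τ g₂ ⇒ det g₁ = det g₂`
  have hdeteq : ∀ g₁ ∈ Γ, ∀ g₂ ∈ Γ, g₁ 1 0 = 0 → g₂ 1 0 = 0 →
      g₁ 0 0 / g₁ 1 1 = g₂ 0 0 / g₂ 1 1 → det g₁ = det g₂ := by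
    intro g₁ hg₁ g₂ hg₂ h₁ h₂ hτeq
    obtain ⟨h10, h11⟩ := twgh_diag_ne_zero g₁ h₁
    obtain ⟨h20, h21⟩ := twgh_diag_ne_zero g₂ h₂
    set h : GL (Fin 2) k := g₁⁻¹ * g₂ with hh
    have hhΓ : h ∈ Γ := Γ.mul_mem (Γ.inv_mem hg₁) hg₂
    have hprod : g₁ * h = g₂ := by rw [hh, mul_inv_cancel_left]
    have e10 : (g₁ * h) 1 0 = g₂ 1 0 := by rw [hprod]
    have e00 : (g₁ * h) 0 0 = g₂ 0 0 := by rw [hprod]
    have e11 : (g₁ * h) 1 1 = g₂ 1 1 := by rw [hprod]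
    simp only [Matrix.GeneralLinearGroup.coe_mul, Matrix.mul_apply, Fin.sum_univ_two] at e10 e00 e11
    rw [h₁, zero_mul, zero_add, h₂] at e10
    have hh10 : h 1 0 = 0 := (mul_eq_zero.mp e10).resolve_left h11
    rw [hh10, mul_zero, add_zero] at e00
    rw [h₁, zero_mul, zero_add] at e11
    have hh0011 : h 0 0 = h 1 1 := by
      have e1 : h 0 0 = g₂ 0 0 / g₁ 0 0 := by rw [← e00]; field_simp
      have e2 : h 1 1 = g₂ 1 1 / g₁ 1 1 := by rw [← e11]; field_simp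
      rw [e1, e2]
      rw [div_eq_div_iff h11 h21] at hτeq
      rw [div_eq_div_iff h10 h11]
      linear_combination -hτeq
    have hdh := hdet1 h hhΓ hh10 hh0011
    rw [← hprod, map_mul, hdh, mul_one]
  -- squares have determinant one
  have hsq1 : ∀ g ∈ Γ, g 1 0 = 0 → (∃ r ∈ twghW Γ, r ^ 2 = g 0 0 / g 1 1) → det g = 1 := by
    rintro g hg h10 ⟨r, hrW, hr⟩
    obtain ⟨h0, h1⟩ := twgh_diag_ne_zero g h10
    have hr0 : r ≠ 0 := by
      intro h0'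
      rw [h0', zero_pow two_ne_zero] at hr
      exact (div_ne_zero h0 h1) hr.symm
    have h2 := hdeteq g hg (twghD r hr0) (hD r hr0 hrW) h10 (by simp [twghD]) (by
      rw [← hr]; simp [twghD]; field_simp)
    rw [h2, twgh_det_diag]
  obtain ⟨g₀, hg₀Γ, hg₀10, hg₀det⟩ := hdetne
  obtain ⟨hg₀0, hg₀1⟩ := twgh_diag_ne_zero g₀ hg₀10
  have hτ₀ : g₀ 0 0 / g₀ 1 1 ∈ twghW Γ := hτ g₀ hg₀Γ hg₀10
  have hτ₀ne : g₀ 0 0 / g₀ 1 1 ≠ 0 := div_ne_zero hg₀0 hg₀1
  have hτ₀ns : ¬ ∃ r ∈ twghW Γ, r ^ 2 = g₀ 0 0 / g₀ 1 1 :=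
    fun hsq => hg₀det (hsq1 g₀ hg₀Γ hg₀10 hsq)
  -- the element `g₀ * D(r)`
  have hg₀D : ∀ (r : k) (hr0 : r ≠ 0), r ∈ twghW Γ →
      g₀ * twghD r hr0 ∈ Γ ∧ (g₀ * twghD r hr0) 1 0 = 0 ∧
        (g₀ * twghD r hr0) 0 0 / (g₀ * twghD r hr0) 1 1 = r ^ 2 * (g₀ 0 0 / g₀ 1 1) ∧
        det (g₀ * twghD r hr0) = det g₀ := by
    intro r hr0 hrW
    refine ⟨Γ.mul_mem hg₀Γ (hD r hr0 hrW), ?_, ?_, ?_⟩
    · simp [Matrix.mul_apply, Fin.sum_univ_two, twghD, hg₀10]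
    · simp [Matrix.mul_apply, Fin.sum_univ_two, twghD, hg₀10]
      field_simp
    · rw [map_mul, twgh_det_diag, mul_one]
  refine ⟨twghField p hp2 (twghW Γ) h1W a ha0 hι, fun w => Iff.rfl, ?_, ?_⟩
  · intro g hg h10
    obtain ⟨h0, h1⟩ := twgh_diag_ne_zero g h10
    refine ⟨hτ g hg h10, hβ g hg h10, ⟨fun hdet => ?_, fun hsq => hsq1 g hg h10 hsq⟩⟩
    by_contra hns
    obtain ⟨r, hrF, hr0, hr⟩ := twgh_sq_dichotomy (twghField p hp2 (twghW Γ) h1W a ha0 hι)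
      (g 0 0 / g 1 1) (g₀ 0 0 / g₀ 1 1) (hτ g hg h10) hτ₀ (div_ne_zero h0 h1) hτ₀ne hns hτ₀ns
    obtain ⟨h1Γ, h110, h1τ, h1det⟩ := hg₀D r hr0 hrF
    have h2 := hdeteq g hg _ h1Γ h10 h110 (by rw [h1τ, hr])
    rw [h1det, hdet] at h2
    exact hg₀det h2.symm
  · intro t htF ht0
    by_cases hsq : ∃ r ∈ twghW Γ, r ^ 2 = t
    · obtain ⟨r, hrW, hr⟩ := hsq
      have hr0 : r ≠ 0 := by
        intro h0'
        rw [h0', zero_pow two_ne_zero] at hr
        exact ht0 hr.symm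
      refine ⟨twghD r hr0, hD r hr0 hrW, by simp [twghD], ?_⟩
      rw [← hr]; simp [twghD]; field_simp
    · obtain ⟨r, hrF, hr0, hr⟩ := twgh_sq_dichotomy (twghField p hp2 (twghW Γ) h1W a ha0 hι)
        t (g₀ 0 0 / g₀ 1 1) htF hτ₀ ht0 hτ₀ne hsq hτ₀ns
      obtain ⟨h1Γ, h110, h1τ, -⟩ := hg₀D r hr0 hrF
      exact ⟨_, h1Γ, h110, by rw [h1τ, hr]⟩

end Main

end Fermat.Agent.S56
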