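import Fermat.Agent.S56.TW.CaseB.MatDefs

/-!
# S56 / TW / Case B : MX-A, fixed points of Möbius transformations

`twg_mx_fix`, `twg_mx_pow`, `twg_mx_pgroup_fixed`.
-/

set_option autoImplicit false

namespace Fermat.Agent.S56

open Matrix MulAction OnePoint Matrix.GeneralLinearGroup

variable {k : Type*} [Field k] [DecidableEq k]

/-- the finite fixed points are the roots of the fixed point quadric -/
theorem twgf_smul_coe_eq_iff (g : GL (Fin 2) k) (x : k) :
    g • (x : OnePoint k) = x ↔ g 1 0 * x ^ 2 + (g 1 1 - g 0 0) * x - g 0 1 = 0 := by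
  rw [← fixpointPolynomial_aeval_eq_zero_iff]
  simp [fixpointPolynomial]

/-- scalar matrices act trivially -/
theorem twgf_smul_eq_self_of_scalar (g : GL (Fin 2) k) (h10 : g 1 0 = 0) (h01 : g 0 1 = 0)
    (h : g 0 0 = g 1 1) (x : OnePoint k) : g • x = x := by
  cases x with
  | infty => exact smul_infty_eq_self_iff.mpr h10
  | coe x => rw [twgf_smul_coe_eq_iff]; simp [h10, h01, h]

/-- the class of `γ` is the action of `γ` -/
theorem twgf_fixedBy_mk (Γ : Subgroup (GL (Fin 2) k)) (γ : Γ) :
    fixedBy (OnePoint k) (twgBarMk Γ γ) = {x : OnePoint k | γ.1 • x = x} := by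
  ext x
  simp [mem_fixedBy, twgBarMk_smul]

/-- the class of `γ` is trivial as soon as `γ` acts trivially -/
theorem twgf_mk_eq_one (Γ : Subgroup (GL (Fin 2) k)) (γ : Γ)
    (h : ∀ x : OnePoint k, γ.1 • x = x) : twgBarMk Γ γ = 1 :=
  Subtype.ext (Equiv.ext fun x => h x)

/-- a Möbius transformation with a fixed point, not the identity, has one or two fixed points -/
theorem twgf_fixed_ncard (g : GL (Fin 2) k) (hfix : ∃ x : OnePoint k, g • x = x)
    (hne : ∃ x : OnePoint k, g • x ≠ x) :
    {x : OnePoint k | g • x = x}.ncard = 1 ∨ {x : OnePoint k | g • x = x}.ncard = 2 := by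
  by_cases hc : g 1 0 = 0
  · by_cases hd : g 1 1 = g 0 0
    · have hb : g 0 1 ≠ 0 := by
        intro hb
        obtain ⟨x, hx⟩ := hne
        exact hx (twgf_smul_eq_self_of_scalar g hc hb hd.symm x)
      left
      have hset : {x : OnePoint k | g • x = x} = {∞} := by
        ext x
        cases x with
        | infty => simp [smul_infty_eq_self_iff, hc]
        | coe x => simp [twgf_smul_coe_eq_iff, hc, hd, hb]
      rw [hset, Set.ncard_singleton]
    · right
      have hda : g 1 1 - g 0 0 ≠ 0 := sub_ne_zero.mpr hd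
      have hset : {x : OnePoint k | g • x = x} =
          {∞, ((g 0 1 / (g 1 1 - g 0 0) : k) : OnePoint k)} := by
        ext x
        cases x with
        | infty => simp [smul_infty_eq_self_iff, hc]
        | coe x =>
          simp only [Set.mem_ofPred_eq, twgf_smul_coe_eq_iff, hc, zero_mul, zero_add,
            Set.mem_insert_iff, Set.mem_singleton_iff, coe_ne_infty, coe_eq_coe, false_or]
          rw [eq_div_iff hda, sub_eq_zero, mul_comm]
      rw [hset, Set.ncard_pair (infty_ne_coe _)]
  · obtain ⟨x₀', hx₀'⟩ := hfix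
    cases x₀' with
    | infty => exact absurd (smul_infty_eq_self_iff.mp hx₀') hc
    | coe x₀ =>
      rw [twgf_smul_coe_eq_iff] at hx₀'
      set x₁ : k := -(g 1 1 - g 0 0) / g 1 0 - x₀ with hx₁
      have hset : {x : OnePoint k | g • x = x} = {(x₀ : OnePoint k), (x₁ : OnePoint k)} := by
        ext x
        cases x with
        | infty => simp [smul_infty_eq_self_iff, hc]
        | coe x =>
          simp only [Set.mem_ofPred_eq, twgf_smul_coe_eq_iff, Set.mem_insert_iff,
            Set.mem_singleton_iff, coe_eq_coe]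
          have hfac : g 1 0 * x ^ 2 + (g 1 1 - g 0 0) * x - g 0 1 =
              g 1 0 * ((x - x₀) * (x - x₁)) := by
            have hb : g 0 1 = g 1 0 * x₀ ^ 2 + (g 1 1 - g 0 0) * x₀ := by
              linear_combination -hx₀'
            rw [hb, hx₁]
            field_simp
            ring
          rw [hfac, mul_eq_zero, mul_eq_zero, sub_eq_zero, sub_eq_zero]
          simp [hc]
      rw [hset]
      by_cases h01 : x₀ = x₁
      · left; rw [← h01]; simp
      · right; exact Set.ncard_pair (by simpa using h01)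

/-- **MX-A1.** every non-identity element of `twgBar Γ` has exactly one or two fixed points. -/
theorem twg_mx_fix (Γ : Subgroup (GL (Fin 2) k))
    (hsplit : ∀ g ∈ Γ, ∃ x : OnePoint k, g • x = x) :
    ∀ g : twgBar Γ, g ≠ 1 →
      (fixedBy (OnePoint k) g).ncard = 1 ∨ (fixedBy (OnePoint k) g).ncard = 2 := by
  intro g hg
  obtain ⟨γ, rfl⟩ := twgBarMk_surjective Γ g
  rw [twgf_fixedBy_mk]
  apply twgf_fixed_ncard γ.1 (hsplit γ.1 γ.2)
  by_contra hall
  push Not at hall
  exact hg (twgf_mk_eq_one Γ γ hall)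

omit [DecidableEq k] in
/-- `(l + N) ^ p = l ^ p` for a square-zero `N` in characteristic `p` -/
theorem twgf_pow_char_of_nilp (p : ℕ) [Fact p.Prime] [CharP k p]
    (M N : Matrix (Fin 2) (Fin 2) k) (l : k) (hM : M = scalar (Fin 2) l + N)
    (hN : N * N = 0) : M ^ p = scalar (Fin 2) (l ^ p) := by
  have hcomm : Commute (scalar (Fin 2) l) N := scalar_commute l (fun r => mul_comm _ _) N
  have hNp : N ^ p = 0 :=
    pow_eq_zero_of_le (Fact.out : p.Prime).two_le (by rw [sq, hN])
  rw [hM, add_pow_char_of_commute p hcomm, hNp, add_zero, ← map_pow]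

/-- a Möbius transformation with exactly one fixed point has `p`-th power acting trivially -/
theorem twgf_pow_smul (p : ℕ) [Fact p.Prime] [CharP k p] (g : GL (Fin 2) k)
    (h1 : {x : OnePoint k | g • x = x}.ncard = 1) (x : OnePoint k) : (g ^ p) • x = x := by
  obtain ⟨x₀', hx₀'⟩ := Set.ncard_eq_one.mp h1
  have hmem : ∀ x : OnePoint k, g • x = x ↔ x = x₀' := by
    intro x
    have := Set.ext_iff.mp hx₀' x
    simpa using this
  -- `g = l + N` with `N ^ 2 = 0`
  have key : ∃ (l : k) (N : Matrix (Fin 2) (Fin 2) k),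
      (g : Matrix (Fin 2) (Fin 2) k) = scalar (Fin 2) l + N ∧ N * N = 0 := by
    by_cases hc : g 1 0 = 0
    · have hinf : (∞ : OnePoint k) = x₀' := (hmem ∞).mp (smul_infty_eq_self_iff.mpr hc)
      have hd : g 1 1 = g 0 0 := by
        by_contra hd
        have hda : g 1 1 - g 0 0 ≠ 0 := sub_ne_zero.mpr hd
        have hfixed : g • ((g 0 1 / (g 1 1 - g 0 0) : k) : OnePoint k) =
            ((g 0 1 / (g 1 1 - g 0 0) : k) : OnePoint k) := by
          rw [twgf_smul_coe_eq_iff, hc]
          field_simp
          ring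
        have := (hmem _).mp hfixed
        rw [← hinf] at this
        exact coe_ne_infty _ this
      refine ⟨g 0 0, !![0, g 0 1; 0, 0], ?_, ?_⟩
      · ext i j
        fin_cases i <;> fin_cases j <;> simp [hc, hd]
      · ext i j
        fin_cases i <;> fin_cases j <;> simp [Matrix.mul_apply, Fin.sum_univ_two]
    · cases x₀' with
      | infty => exact absurd (smul_infty_eq_self_iff.mp ((hmem ∞).mpr rfl)) hc
      | coe x₀ =>
        have hx₀ := (hmem (x₀ : OnePoint k)).mpr rfl
        rw [twgf_smul_coe_eq_iff] at hx₀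
        -- the other root
        have hx₁ : g • ((-(g 1 1 - g 0 0) / g 1 0 - x₀ : k) : OnePoint k) =
            ((-(g 1 1 - g 0 0) / g 1 0 - x₀ : k) : OnePoint k) := by
          rw [twgf_smul_coe_eq_iff]
          have hb : g 0 1 = g 1 0 * x₀ ^ 2 + (g 1 1 - g 0 0) * x₀ := by
            linear_combination -hx₀
          rw [hb]
          field_simp
          ring
        have heq := (hmem _).mp hx₁
        rw [coe_eq_coe] at heq
        have hd : g 1 1 = g 0 0 - 2 * g 1 0 * x₀ := by
          have h2 : -(g 1 1 - g 0 0) = (x₀ + x₀) * g 1 0 := by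
            rw [← div_eq_iff hc]
            linear_combination heq
          linear_combination -h2
        have hb : g 0 1 = -(g 1 0 * x₀ ^ 2) := by
          rw [hd] at hx₀
          linear_combination -hx₀
        refine ⟨g 0 0 - g 1 0 * x₀,
          !![g 1 0 * x₀, -(g 1 0 * x₀ ^ 2); g 1 0, -(g 1 0 * x₀)], ?_, ?_⟩
        · ext i j
          fin_cases i <;> fin_cases j <;> simp [hd, hb]
          ring
        · ext i j
          fin_cases i <;> fin_cases j <;> simp [Matrix.mul_apply, Fin.sum_univ_two] <;> ring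
  obtain ⟨l, N, hgN, hN⟩ := key
  have hpow : ((g ^ p : GL (Fin 2) k) : Matrix (Fin 2) (Fin 2) k) = scalar (Fin 2) (l ^ p) := by
    rw [Units.val_pow_eq_pow_val]
    exact twgf_pow_char_of_nilp p _ N l hgN hN
  have hentry : ∀ i j, (g ^ p : GL (Fin 2) k) i j = (scalar (Fin 2) (l ^ p)) i j := by
    intro i j
    rw [← hpow]
  apply twgf_smul_eq_self_of_scalar
  · rw [hentry]; simp
  · rw [hentry]; simp
  · rw [hentry, hentry]; simp

/-- **MX-A2.** an element with exactly one fixed point has order `p` in `twgBar Γ`. -/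
theorem twg_mx_pow (p : ℕ) [Fact p.Prime] [CharP k p] (Γ : Subgroup (GL (Fin 2) k))
    (g : twgBar Γ) (h1 : (fixedBy (OnePoint k) g).ncard = 1) : g ^ p = 1 := by
  obtain ⟨γ, rfl⟩ := twgBarMk_surjective Γ g
  rw [twgf_fixedBy_mk] at h1
  have hpow : twgBarMk Γ γ ^ p = twgBarMk Γ (γ ^ p) := by
    apply Subtype.ext
    simp [twgBarMk, map_pow]
  rw [hpow]
  apply twgf_mk_eq_one
  intro x
  have := twgf_pow_smul p γ.1 h1 x
  simpa using this

/-- **MX-A3.** a `p`-subgroup of `twgBar Γ` has a fixed point (`#ℙ¹(k) = q + 1 ≡ 1 mod p`). -/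
theorem twg_mx_pgroup_fixed (p : ℕ) [Fact p.Prime] [CharP k p] [Finite k]
    (Γ : Subgroup (GL (Fin 2) k)) (S : Subgroup (twgBar Γ)) (hS : IsPGroup p S) :
    ∃ x : OnePoint k, ∀ g ∈ S, g • x = x := by
  have : Fintype k := Fintype.ofFinite k
  have hcard : Nat.card (OnePoint k) = Nat.card k + 1 := by
    show Nat.card (Option k) = _
    exact Finite.card_option
  have hpk : p ∣ Nat.card k := by
    rw [Nat.card_eq_fintype_card, ← CharP.cast_eq_zero_iff k p]
    exact Nat.cast_card_eq_zero k
  have hnd : ¬ p ∣ Nat.card (OnePoint k) := by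
    rw [hcard]
    intro h
    have h1 : p ∣ 1 := (Nat.dvd_add_right hpk).mp h
    exact (Fact.out : p.Prime).one_lt.ne' (Nat.dvd_one.mp h1)
  obtain ⟨x, hx⟩ := hS.nonempty_fixed_point_of_prime_not_dvd_card (OnePoint k) hnd
  refine ⟨x, fun g hg => ?_⟩
  exact hx ⟨g, hg⟩

end Fermat.Agent.S56
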