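/-
S56 / TWG / Case B, row 378 (MX-B): `twg_mx_infty`, VERBATIM from `TW/CaseB/MatSpec.lean`
(origin/helper7 138d742).  Sorry-free, imports `MatDefs` only.

Route.  `twgAff τ β` = the permutation `z ↦ τ z + β`, `∞ ↦ ∞` of `ℙ¹(k)`; an upper triangular `g`
acts as `twgAff (g₀₀/g₁₁) (g₀₁/g₁₁)` (`twg_toPerm_upper`), so every element of `twgBar Γ` fixing `∞`
is affine (`twg_exists_aff`).  `W = twgW Γ = {β | z ↦ z + β ∈ twgBar Γ}` is an additive subgroup,
stable under the multipliers `τ` (conjugation) hence under `(1 - τ)⁻¹` (`k` finite: injective ⟹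
surjective on `W`).  (1) the commutator of two elements with fixed points `a`, `a'` is the
translation by `(1-τ)(1-τ')(a-a')`, so `a' - a ∈ W`.  (2) `U = twgU Γ` = the translations =
kernel of the multiplier homomorphism `twgMult Γ : stab ∞ →* kˣ`; fixed-point characterisation
from the explicit fixed points of `twgAff`.  (3) `|stab ∞| = |U|·|C|`, `C = range (twgMult Γ)`
acts freely on `W \ {0}` by multiplication, `|W| = |U|`.
-/
import Fermat.Agent.S56.TW.CaseB.MatDefs

set_option autoImplicit false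

namespace Fermat.Agent.S56

open Matrix MulAction OnePoint Matrix.GeneralLinearGroup

variable {k : Type*} [Field k]

/-- the affine permutation `z ↦ τ z + β` of `ℙ¹(k)` -/
def twgAff (τ : kˣ) (β : k) : Equiv.Perm (OnePoint k) where
  toFun x := x.elim ∞ (fun z => (((τ : k) * z + β : k) : OnePoint k))
  invFun x := x.elim ∞ (fun z => ((((τ⁻¹ : kˣ) : k) * (z - β) : k) : OnePoint k))
  left_inv := by
    intro x
    cases x with
    | infty => rfl
    | coe z =>
      show ((((τ⁻¹ : kˣ) : k) * (((τ : k) * z + β) - β) : k) : OnePoint k) = z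
      rw [add_sub_cancel_right, ← mul_assoc, Units.inv_mul, one_mul]
  right_inv := by
    intro x
    cases x with
    | infty => rfl
    | coe z =>
      show (((τ : k) * (((τ⁻¹ : kˣ) : k) * (z - β)) + β : k) : OnePoint k) = z
      rw [← mul_assoc, Units.mul_inv, one_mul, sub_add_cancel]

@[simp] theorem twgAff_infty (τ : kˣ) (β : k) : twgAff τ β (∞ : OnePoint k) = ∞ := rfl

@[simp] theorem twgAff_coe (τ : kˣ) (β z : k) :
    twgAff τ β (z : OnePoint k) = (((τ : k) * z + β : k) : OnePoint k) := rfl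

theorem twgAff_mul (τ τ' : kˣ) (β β' : k) :
    twgAff τ β * twgAff τ' β' = twgAff (τ * τ') ((τ : k) * β' + β) := by
  ext x
  cases x with
  | infty => rfl
  | coe z =>
    show twgAff τ β (twgAff τ' β' (z : OnePoint k)) = _
    rw [twgAff_coe, twgAff_coe, twgAff_coe, Units.val_mul]
    congr 1
    ring

theorem twgAff_one_zero : twgAff (1 : kˣ) (0 : k) = 1 := by
  ext x
  cases x with
  | infty => rfl
  | coe z =>
    show twgAff 1 0 (z : OnePoint k) = (z : OnePoint k)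
    rw [twgAff_coe, Units.val_one, one_mul, add_zero]

theorem twgAff_injective (τ τ' : kˣ) (β β' : k) (h : twgAff τ β = twgAff τ' β') :
    τ = τ' ∧ β = β' := by
  have h0 := congrArg (fun σ : Equiv.Perm (OnePoint k) => σ ((0 : k) : OnePoint k)) h
  have h1 := congrArg (fun σ : Equiv.Perm (OnePoint k) => σ ((1 : k) : OnePoint k)) h
  simp only [twgAff_coe, mul_zero, zero_add, mul_one, OnePoint.coe_eq_coe] at h0 h1
  refine ⟨Units.ext ?_, h0⟩
  rw [h0] at h1
  exact add_right_cancel h1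

variable [DecidableEq k]

/-- an upper triangular matrix acts on `ℙ¹(k)` as an affine permutation -/
theorem twg_toPerm_upper (g : GL (Fin 2) k) (hg : g 1 0 = 0) :
    ∃ (τ : kˣ) (β : k), MulAction.toPermHom (GL (Fin 2) k) (OnePoint k) g = twgAff τ β := by
  have hdet : (g : Matrix (Fin 2) (Fin 2) k).det ≠ 0 := g.det_ne_zero
  rw [Matrix.det_fin_two, hg, mul_zero, sub_zero] at hdet
  have h00 : g 0 0 ≠ 0 := left_ne_zero_of_mul hdet
  have h11 : g 1 1 ≠ 0 := right_ne_zero_of_mul hdet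
  refine ⟨Units.mk0 (g 0 0 / g 1 1) (div_ne_zero h00 h11), g 0 1 / g 1 1, ?_⟩
  ext x
  cases x with
  | infty =>
    show g • (∞ : OnePoint k) = ∞
    exact OnePoint.smul_infty_eq_self_iff.2 hg
  | coe z =>
    show g • (z : OnePoint k) = _
    rw [OnePoint.smul_some_eq_ite, twgAff_coe, hg, zero_mul, zero_add, if_neg h11, Units.val_mk0]
    congr 1
    field_simp

/-- the elements of `twgBar Γ` fixing `∞` are affine -/
theorem twg_exists_aff (Γ : Subgroup (GL (Fin 2) k)) (σ : twgBar Γ)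
    (hσ : σ • (∞ : OnePoint k) = ∞) : ∃ (τ : kˣ) (β : k), (σ : Equiv.Perm (OnePoint k)) = twgAff τ β := by
  obtain ⟨σ, g, hg, rfl⟩ := σ
  have h1 : g • (∞ : OnePoint k) = ∞ := hσ
  exact twg_toPerm_upper g (OnePoint.smul_infty_eq_self_iff.1 h1)

theorem twgBar_smul_def (Γ : Subgroup (GL (Fin 2) k)) (σ : twgBar Γ) (x : OnePoint k) :
    σ • x = (σ : Equiv.Perm (OnePoint k)) x := rfl

omit [DecidableEq k] in
/-- the fixed points of an affine permutation with multiplier `≠ 1` -/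
theorem twgAff_fixed_of_ne (τ : kˣ) (β : k) (hτ : τ ≠ 1) (x : OnePoint k) :
    twgAff τ β x = x ↔ x = ∞ ∨ x = ((β / (1 - (τ : k)) : k) : OnePoint k) := by
  have h1 : (1 - (τ : k)) ≠ 0 := by
    intro h
    apply hτ
    apply Units.ext
    rw [Units.val_one]
    exact (sub_eq_zero.1 h).symm
  cases x with
  | infty => simp
  | coe z =>
    rw [twgAff_coe, OnePoint.coe_eq_coe]
    simp only [OnePoint.coe_ne_infty, false_or, OnePoint.coe_eq_coe]
    rw [eq_div_iff h1]
    constructor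
    · intro h; linear_combination -h
    · intro h; linear_combination -h

omit [DecidableEq k] in
/-- the fixed points of a non-trivial translation -/
theorem twgAff_fixed_of_one (β : k) (hβ : β ≠ 0) (x : OnePoint k) :
    twgAff 1 β x = x ↔ x = ∞ := by
  cases x with
  | infty => simp
  | coe z =>
    rw [twgAff_coe, OnePoint.coe_eq_coe, Units.val_one, one_mul]
    simp only [OnePoint.coe_ne_infty, iff_false]
    intro h
    exact hβ (add_eq_left.1 h)

omit [DecidableEq k] in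
theorem twgAff_one_pow (β : k) (n : ℕ) : (twgAff 1 β) ^ n = twgAff 1 (n • β) := by
  induction n with
  | zero => rw [pow_zero, zero_smul, twgAff_one_zero]
  | succ n ih =>
    rw [pow_succ, ih, twgAff_mul, mul_one, Units.val_one, one_mul, succ_nsmul]
    congr 1
    rw [add_comm]

omit [DecidableEq k] in
theorem twgAff_one_inv (β : k) : (twgAff 1 β)⁻¹ = twgAff 1 (-β) := by
  rw [inv_eq_iff_mul_eq_one, twgAff_mul, mul_one, Units.val_one, one_mul, neg_add_cancel,
    twgAff_one_zero]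

omit [DecidableEq k] in
/-- conjugation of a translation by an affine permutation -/
theorem twgAff_conj (τ : kˣ) (β₀ β : k) :
    twgAff τ β₀ * twgAff 1 β * (twgAff τ β₀)⁻¹ = twgAff 1 ((τ : k) * β) := by
  rw [mul_inv_eq_iff_eq_mul, twgAff_mul, twgAff_mul, mul_one, one_mul, Units.val_one, one_mul,
    add_comm]

/-- the translations contained in `twgBar Γ` -/
def twgW (Γ : Subgroup (GL (Fin 2) k)) : AddSubgroup k where
  carrier := {β | twgAff 1 β ∈ twgBar Γ}
  zero_mem' := by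
    show twgAff 1 0 ∈ twgBar Γ
    rw [twgAff_one_zero]
    exact one_mem _
  add_mem' := by
    intro a b ha hb
    have ha' : twgAff 1 a ∈ twgBar Γ := ha
    have hb' : twgAff 1 b ∈ twgBar Γ := hb
    show twgAff 1 (a + b) ∈ twgBar Γ
    have := mul_mem ha' hb'
    rwa [twgAff_mul, mul_one, Units.val_one, one_mul, add_comm] at this
  neg_mem' := by
    intro a ha
    have ha' : twgAff 1 a ∈ twgBar Γ := ha
    show twgAff 1 (-a) ∈ twgBar Γ
    have := inv_mem ha'
    rwa [twgAff_one_inv] at this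

theorem mem_twgW (Γ : Subgroup (GL (Fin 2) k)) (β : k) :
    β ∈ twgW Γ ↔ twgAff 1 β ∈ twgBar Γ := Iff.rfl

theorem twgW_mul_mem (Γ : Subgroup (GL (Fin 2) k)) (τ : kˣ) (β₀ : k)
    (h : twgAff τ β₀ ∈ twgBar Γ) (w : k) (hw : w ∈ twgW Γ) : (τ : k) * w ∈ twgW Γ := by
  rw [mem_twgW, ← twgAff_conj τ β₀ w]
  exact mul_mem (mul_mem h hw) (inv_mem h)

theorem twgW_div_mem [Finite k] (Γ : Subgroup (GL (Fin 2) k)) (τ : kˣ) (β₀ : k)
    (h : twgAff τ β₀ ∈ twgBar Γ) (hτ : τ ≠ 1) (w : k) (hw : w ∈ twgW Γ) :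
    w / (1 - (τ : k)) ∈ twgW Γ := by
  have h1 : (1 - (τ : k)) ≠ 0 := by
    intro h
    apply hτ
    apply Units.ext
    rw [Units.val_one]
    exact (sub_eq_zero.1 h).symm
  let f : ↥(twgW Γ) → ↥(twgW Γ) := fun v =>
    ⟨(1 - (τ : k)) * (v : k), by
      rw [sub_mul, one_mul]
      exact (twgW Γ).sub_mem v.2 (twgW_mul_mem Γ τ β₀ h v v.2)⟩
  have hf : Function.Injective f := by
    intro v v' hvv'
    have := congrArg Subtype.val hvv'
    exact Subtype.ext (mul_left_cancel₀ h1 this)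
  obtain ⟨v, hv⟩ := Finite.surjective_of_injective hf ⟨w, hw⟩
  have hv' : (1 - (τ : k)) * (v : k) = w := congrArg Subtype.val hv
  have : w / (1 - (τ : k)) = v := by
    rw [← hv', mul_div_cancel_left₀ _ h1]
  rw [this]
  exact v.2

/-- a non-trivial element of `twgBar Γ` fixing `∞` and a finite point `a` -/
theorem twg_exists_aff_fix (Γ : Subgroup (GL (Fin 2) k)) (g : twgBar Γ) (hg1 : g ≠ 1)
    (hginf : g • (∞ : OnePoint k) = ∞) (a : k) (hga : g • (a : OnePoint k) = a) :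
    ∃ (τ : kˣ) (β : k), twgAff τ β ∈ twgBar Γ ∧ τ ≠ 1 ∧ β = a * (1 - (τ : k)) := by
  obtain ⟨τ, β, hgτ⟩ := twg_exists_aff Γ g hginf
  have hfix : (τ : k) * a + β = a := by
    have : twgAff τ β (a : OnePoint k) = a := by rw [← hgτ]; exact hga
    rwa [twgAff_coe, OnePoint.coe_eq_coe] at this
  refine ⟨τ, β, by rw [← hgτ]; exact g.2, ?_, by linear_combination hfix⟩
  rintro rfl
  apply hg1
  apply Subtype.ext
  rw [hgτ]
  rw [Units.val_one, one_mul] at hfix
  rw [add_eq_left.1 hfix, twgAff_one_zero]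
  rfl

/-- **MX-B (1).** the stabiliser of `∞` permutes transitively the finite points with
non-trivial two-point stabiliser -/
theorem twg_mx_infty_trans [Finite k] (Γ : Subgroup (GL (Fin 2) k)) :
    ∀ y y' : OnePoint k, y ≠ ∞ → y' ≠ ∞ →
      (∃ g : twgBar Γ, g ≠ 1 ∧ g • (∞ : OnePoint k) = ∞ ∧ g • y = y) →
      (∃ g : twgBar Γ, g ≠ 1 ∧ g • (∞ : OnePoint k) = ∞ ∧ g • y' = y') →
      ∃ u : twgBar Γ, u • (∞ : OnePoint k) = ∞ ∧ u • y = y' := by
  rintro y y' hy hy' ⟨g, hg1, hginf, hgy⟩ ⟨g', hg'1, hg'inf, hg'y'⟩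
  obtain ⟨a, rfl⟩ := OnePoint.ne_infty_iff_exists.1 hy
  obtain ⟨a', rfl⟩ := OnePoint.ne_infty_iff_exists.1 hy'
  obtain ⟨τ, β, hmem, hτ, hβ⟩ := twg_exists_aff_fix Γ g hg1 hginf a hgy
  obtain ⟨τ', β', hmem', hτ', hβ'⟩ := twg_exists_aff_fix Γ g' hg'1 hg'inf a' hg'y'
  -- the commutator is a translation
  have hc : (1 - (τ : k)) * (1 - (τ' : k)) * (a - a') ∈ twgW Γ := by
    rw [mem_twgW]
    have h1 : twgAff 1 ((1 - (τ : k)) * (1 - (τ' : k)) * (a - a')) =
        (twgAff τ β * twgAff τ' β') * (twgAff τ' β' * twgAff τ β)⁻¹ := by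
      rw [eq_mul_inv_iff_mul_eq, twgAff_mul, twgAff_mul, twgAff_mul, one_mul, Units.val_one, one_mul,
        mul_comm τ' τ, hβ, hβ']
      congr 1
      ring
    rw [h1]
    exact mul_mem (mul_mem hmem hmem') (inv_mem (mul_mem hmem' hmem))
  have hc1 := twgW_div_mem Γ τ β hmem hτ _ hc
  have hc2 := twgW_div_mem Γ τ' β' hmem' hτ' _ hc1
  have h1 : (1 - (τ : k)) ≠ 0 := by
    intro h
    apply hτ
    apply Units.ext
    rw [Units.val_one]
    exact (sub_eq_zero.1 h).symm
  have h1' : (1 - (τ' : k)) ≠ 0 := by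
    intro h
    apply hτ'
    apply Units.ext
    rw [Units.val_one]
    exact (sub_eq_zero.1 h).symm
  have hc3 : a' - a ∈ twgW Γ := by
    have : (1 - (τ : k)) * (1 - (τ' : k)) * (a - a') / (1 - (τ : k)) / (1 - (τ' : k)) = a - a' := by
      field_simp
    rw [this] at hc2
    have := (twgW Γ).neg_mem hc2
    rwa [neg_sub] at this
  refine ⟨⟨twgAff 1 (a' - a), hc3⟩, rfl, ?_⟩
  show twgAff 1 (a' - a) (a : OnePoint k) = a'
  rw [twgAff_coe, Units.val_one, one_mul, add_sub_cancel]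

/-- the translations of `twgBar Γ`, as a subgroup -/
def twgU (Γ : Subgroup (GL (Fin 2) k)) : Subgroup (twgBar Γ) where
  carrier := {σ | ∃ β : k, (σ : Equiv.Perm (OnePoint k)) = twgAff 1 β}
  one_mem' := ⟨0, by rw [twgAff_one_zero]; rfl⟩
  mul_mem' := by
    rintro σ σ' ⟨β, h⟩ ⟨β', h'⟩
    exact ⟨β' + β, by rw [Subgroup.coe_mul, h, h', twgAff_mul, mul_one, Units.val_one, one_mul]⟩
  inv_mem' := by
    rintro σ ⟨β, h⟩
    exact ⟨-β, by rw [Subgroup.coe_inv, h, twgAff_one_inv]⟩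

theorem mem_twgU (Γ : Subgroup (GL (Fin 2) k)) (σ : twgBar Γ) :
    σ ∈ twgU Γ ↔ ∃ β : k, (σ : Equiv.Perm (OnePoint k)) = twgAff 1 β := Iff.rfl

/-- **MX-B (2a).** the characterisation of the translation subgroup by fixed points -/
theorem mem_twgU_iff (Γ : Subgroup (GL (Fin 2) k)) (g : twgBar Γ) :
    g ∈ twgU Γ ↔
      g = 1 ∨ (g • (∞ : OnePoint k) = ∞ ∧ (fixedBy (OnePoint k) g).ncard = 1) := by
  constructor
  · rintro ⟨β, h⟩
    by_cases hβ : β = 0
    · left
      apply Subtype.ext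
      rw [h, hβ, twgAff_one_zero]
      rfl
    · right
      refine ⟨by rw [twgBar_smul_def, h]; rfl, ?_⟩
      have : fixedBy (OnePoint k) g = {∞} := by
        ext x
        rw [MulAction.mem_fixedBy, twgBar_smul_def, h, twgAff_fixed_of_one β hβ]
        rfl
      rw [this, Set.ncard_singleton]
  · rintro (rfl | ⟨hinf, hcard⟩)
    · exact (twgU Γ).one_mem
    · obtain ⟨τ, β, h⟩ := twg_exists_aff Γ g hinf
      by_cases hτ : τ = 1
      · exact ⟨β, by rw [h, hτ]⟩
      · exfalso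
        have : fixedBy (OnePoint k) g = {∞, ((β / (1 - (τ : k)) : k) : OnePoint k)} := by
          ext x
          rw [MulAction.mem_fixedBy, twgBar_smul_def, h, twgAff_fixed_of_ne τ β hτ]
          rfl
        rw [this, Set.ncard_pair (OnePoint.infty_ne_coe _)] at hcard
        exact absurd hcard (by norm_num)

/-- **MX-B (2b).** the translation subgroup is a `p`-group -/
theorem twgU_isPGroup (p : ℕ) [Fact p.Prime] [CharP k p] (Γ : Subgroup (GL (Fin 2) k)) :
    IsPGroup p (twgU Γ) := by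
  rintro ⟨σ, β, h⟩
  refine ⟨1, ?_⟩
  apply Subtype.ext
  apply Subtype.ext
  show (σ : Equiv.Perm (OnePoint k)) ^ p ^ 1 = 1
  rw [pow_one, h, twgAff_one_pow, nsmul_eq_mul, CharP.cast_eq_zero, zero_mul, twgAff_one_zero]

/-- the multiplier of an affine permutation (junk value `1` otherwise) -/
noncomputable def twgMultFun (σ : Equiv.Perm (OnePoint k)) : kˣ :=
  open Classical in if h : ∃ (τ : kˣ) (β : k), σ = twgAff τ β then h.choose else 1

omit [DecidableEq k] in
theorem twgMultFun_aff (τ : kˣ) (β : k) : twgMultFun (twgAff τ β) = τ := by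
  have h : ∃ (τ' : kˣ) (β' : k), twgAff τ β = twgAff τ' β' := ⟨τ, β, rfl⟩
  rw [twgMultFun, dif_pos h]
  obtain ⟨β', hβ'⟩ := h.choose_spec
  exact ((twgAff_injective _ _ _ _ hβ').1).symm

/-- the multiplier homomorphism on the stabiliser of `∞` -/
noncomputable def twgMult (Γ : Subgroup (GL (Fin 2) k)) :
    ↥(stabilizer (twgBar Γ) (∞ : OnePoint k)) →* kˣ where
  toFun σ := twgMultFun ((σ : twgBar Γ) : Equiv.Perm (OnePoint k))
  map_one' := by
    show twgMultFun 1 = 1
    rw [← twgAff_one_zero, twgMultFun_aff]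
  map_mul' σ σ' := by
    obtain ⟨τ, β, h⟩ := twg_exists_aff Γ σ.1 σ.2
    obtain ⟨τ', β', h'⟩ := twg_exists_aff Γ σ'.1 σ'.2
    show twgMultFun (((σ.1 * σ'.1 : twgBar Γ)) : Equiv.Perm (OnePoint k)) =
      twgMultFun (σ.1 : Equiv.Perm (OnePoint k)) * twgMultFun (σ'.1 : Equiv.Perm (OnePoint k))
    rw [Subgroup.coe_mul, h, h', twgAff_mul, twgMultFun_aff, twgMultFun_aff, twgMultFun_aff]

theorem twgMult_apply (Γ : Subgroup (GL (Fin 2) k))
    (σ : ↥(stabilizer (twgBar Γ) (∞ : OnePoint k))) :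
    twgMult Γ σ = twgMultFun ((σ : twgBar Γ) : Equiv.Perm (OnePoint k)) := rfl

theorem twgMult_spec (Γ : Subgroup (GL (Fin 2) k))
    (σ : ↥(stabilizer (twgBar Γ) (∞ : OnePoint k))) :
    ∃ β : k, ((σ : twgBar Γ) : Equiv.Perm (OnePoint k)) = twgAff (twgMult Γ σ) β := by
  obtain ⟨τ, β, h⟩ := twg_exists_aff Γ σ.1 σ.2
  refine ⟨β, ?_⟩
  rw [twgMult_apply, h, twgMultFun_aff]

theorem twgMult_mem_ker_iff (Γ : Subgroup (GL (Fin 2) k))
    (σ : ↥(stabilizer (twgBar Γ) (∞ : OnePoint k))) :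
    σ ∈ (twgMult Γ).ker ↔ (σ : twgBar Γ) ∈ twgU Γ := by
  rw [MonoidHom.mem_ker, mem_twgU]
  constructor
  · intro h
    obtain ⟨β, hβ⟩ := twgMult_spec Γ σ
    exact ⟨β, by rw [hβ, h]⟩
  · rintro ⟨β, hβ⟩
    rw [twgMult_apply, hβ, twgMultFun_aff]

theorem twgU_le_stabilizer (Γ : Subgroup (GL (Fin 2) k)) (σ : twgBar Γ) (hσ : σ ∈ twgU Γ) :
    σ ∈ stabilizer (twgBar Γ) (∞ : OnePoint k) := by
  obtain ⟨β, hβ⟩ := hσ
  rw [MulAction.mem_stabilizer_iff, twgBar_smul_def, hβ]
  rfl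

/-- `|stab ∞| = |U| · |C|`, `C` the group of multipliers -/
theorem twg_card_stabilizer (Γ : Subgroup (GL (Fin 2) k)) :
    Nat.card (stabilizer (twgBar Γ) (∞ : OnePoint k)) =
      Nat.card (twgU Γ) * Nat.card (twgMult Γ).range := by
  have e : ↥(twgMult Γ).ker ≃ ↥(twgU Γ) :=
    { toFun := fun σ => ⟨σ.1.1, (twgMult_mem_ker_iff Γ σ.1).1 σ.2⟩
      invFun := fun u =>
        ⟨⟨u.1, twgU_le_stabilizer Γ u.1 u.2⟩, (twgMult_mem_ker_iff Γ _).2 u.2⟩
      left_inv := fun σ => rfl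
      right_inv := fun u => rfl }
  rw [← Nat.card_congr e, ← Subgroup.index_ker, Subgroup.card_mul_index]

/-- every multiplier comes from an affine element of `twgBar Γ` -/
theorem twg_exists_of_mem_range (Γ : Subgroup (GL (Fin 2) k)) (c : kˣ)
    (hc : c ∈ (twgMult Γ).range) : ∃ β₀ : k, twgAff c β₀ ∈ twgBar Γ := by
  obtain ⟨σ, rfl⟩ := hc
  obtain ⟨β, hβ⟩ := twgMult_spec Γ σ
  exact ⟨β, by rw [← hβ]; exact σ.1.2⟩

/-- `|U| = |W|` -/
theorem twg_card_twgU (Γ : Subgroup (GL (Fin 2) k)) :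
    Nat.card (twgU Γ) = Nat.card (twgW Γ) := by
  let f : ↥(twgW Γ) → ↥(twgU Γ) := fun w => ⟨⟨twgAff 1 (w : k), w.2⟩, ⟨w, rfl⟩⟩
  have hf : Function.Bijective f := by
    constructor
    · intro w w' h
      have h' : twgAff 1 (w : k) = twgAff 1 (w' : k) :=
        congrArg (fun u : ↥(twgU Γ) => ((u : twgBar Γ) : Equiv.Perm (OnePoint k))) h
      exact Subtype.ext (twgAff_injective _ _ _ _ h').2
    · rintro ⟨⟨σ, hσ⟩, β, hβ⟩
      have hβ' : σ = twgAff 1 β := hβ
      refine ⟨⟨β, ?_⟩, ?_⟩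
      · rw [mem_twgW, ← hβ']
        exact hσ
      · apply Subtype.ext
        apply Subtype.ext
        exact hβ'.symm
  exact (Nat.card_congr (Equiv.ofBijective f hf)).symm

/-- the multipliers act freely on the non-zero translations -/
theorem twg_card_range_dvd [Finite k] (Γ : Subgroup (GL (Fin 2) k)) :
    Nat.card (twgMult Γ).range ∣ Nat.card (twgU Γ) - 1 := by
  classical
  have hT : Nat.card ↥((twgW Γ : Set k) \ {0}) = Nat.card (twgU Γ) - 1 := by
    rw [Nat.card_coe_set_eq, Set.ncard_sdiff_singleton_of_mem (twgW Γ).zero_mem, twg_card_twgU]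
    rfl
  rw [← hT]
  let act : MulAction ↥(twgMult Γ).range ↥((twgW Γ : Set k) \ {0}) :=
    { smul := fun c w => ⟨((c : kˣ) : k) * (w : k), by
        obtain ⟨β₀, hβ₀⟩ := twg_exists_of_mem_range Γ c.1 c.2
        exact twgW_mul_mem Γ c.1 β₀ hβ₀ w w.2.1, by
        have hw : (w : k) ≠ 0 := w.2.2
        exact mul_ne_zero (Units.ne_zero _) hw⟩
      one_smul := fun w => Subtype.ext (by
        show (((1 : ↥(twgMult Γ).range) : kˣ) : k) * (w : k) = w
        rw [Subgroup.coe_one, Units.val_one, one_mul])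
      mul_smul := fun c c' w => Subtype.ext (by
        show (((c * c' : ↥(twgMult Γ).range) : kˣ) : k) * (w : k) =
          ((c : kˣ) : k) * (((c' : kˣ) : k) * (w : k))
        rw [Subgroup.coe_mul, Units.val_mul, mul_assoc]) }
  have hfree : ∀ w : ↥((twgW Γ : Set k) \ {0}),
      MulAction.stabilizer ↥(twgMult Γ).range w = ⊥ := by
    intro w
    rw [eq_bot_iff]
    intro c hc
    rw [MulAction.mem_stabilizer_iff] at hc
    have h1 : ((c : kˣ) : k) * (w : k) = w := congrArg Subtype.val hc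
    have hw : (w : k) ≠ 0 := w.2.2
    have h2 : ((c : kˣ) : k) = 1 := by
      have : (((c : kˣ) : k) - 1) * (w : k) = 0 := by rw [sub_mul, one_mul, h1, sub_self]
      exact sub_eq_zero.1 ((mul_eq_zero.1 this).resolve_right hw)
    rw [Subgroup.mem_bot]
    apply Subtype.ext
    apply Units.ext
    rw [h2]
    rfl
  have e := MulAction.selfEquivOrbitsQuotientProd hfree
  rw [Nat.card_congr e, Nat.card_prod]
  exact Dvd.intro_left _ rfl

/-- **MX-B.** -/
theorem twg_mx_infty (p : ℕ) [Fact p.Prime] [CharP k p] [Finite k]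
    (Γ : Subgroup (GL (Fin 2) k)) :
    (∀ y y' : OnePoint k, y ≠ ∞ → y' ≠ ∞ →
      (∃ g : twgBar Γ, g ≠ 1 ∧ g • (∞ : OnePoint k) = ∞ ∧ g • y = y) →
      (∃ g : twgBar Γ, g ≠ 1 ∧ g • (∞ : OnePoint k) = ∞ ∧ g • y' = y') →
      ∃ u : twgBar Γ, u • (∞ : OnePoint k) = ∞ ∧ u • y = y') ∧
    ∃ U : Subgroup (twgBar Γ),
      (∀ g : twgBar Γ, g ∈ U ↔
        g = 1 ∨ (g • (∞ : OnePoint k) = ∞ ∧ (fixedBy (OnePoint k) g).ncard = 1)) ∧
      IsPGroup p U ∧
      Nat.card (stabilizer (twgBar Γ) (∞ : OnePoint k)) / Nat.card U ∣ Nat.card U - 1 := by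
  refine ⟨twg_mx_infty_trans Γ, twgU Γ, mem_twgU_iff Γ, twgU_isPGroup p Γ, ?_⟩
  have h1 : Finite (OnePoint k) := inferInstanceAs (Finite (Option k))
  have h2 : Finite (Equiv.Perm (OnePoint k)) := inferInstance
  have : Finite (twgBar Γ) := inferInstance
  rw [twg_card_stabilizer, Nat.mul_div_cancel_left _ Nat.card_pos]
  exact twg_card_range_dvd Γ

end Fermat.Agent.S56
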