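import Mathlib

/-!
# S56 / TW / Case B : the permutation-group leaves PG0, PG1, PG3 (row 375)

`twg_pg_par_mem_orbit` (PG0), `twg_pg_count` (PG1), `twg_pg_swap` (PG3): statements VERBATIM from
`TW/CaseB/PermSpec.lean`.  Pure Mathlib.  Helper lemmas are prefixed `twgp1_`.

Setting: a finite group `G` acting on a set `P` such that every non-identity element has exactly
one or exactly two fixed points.
-/

set_option autoImplicit false
set_option linter.unusedSectionVars false
set_option linter.unusedVariables false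

namespace Fermat.Agent.S56

open MulAction

variable {G P : Type*} [Group G] [Finite G] [MulAction G P]

/-- **PG0.** every parabolic fixed point lies in the orbit of a point fixed by a Sylow `p`-subgroup,
provided parabolic elements have `p`-power order and `p`-subgroups have a fixed point. -/
theorem twg_pg_par_mem_orbit (p : ℕ) [Fact p.Prime]
    (hpow : ∀ g : G, (fixedBy P g).ncard = 1 → g ^ p = 1)
    (S₀ : Sylow p G) (x₀ : P) (hS₀ : ∀ g ∈ S₀, g • x₀ = x₀)
    (g : G) (hg1 : g ≠ 1) (y : P) (hgy : fixedBy P g = {y}) :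
    y ∈ orbit G x₀ := by
  have hgp : g ^ p = 1 := hpow g (by rw [hgy, Set.ncard_singleton])
  -- `⟨g⟩` is a `p`-group
  have hPg : IsPGroup p ↥(Subgroup.zpowers g) := by
    intro x
    obtain ⟨x, k, rfl⟩ := x
    refine ⟨1, Subtype.ext ?_⟩
    show (g ^ k) ^ p ^ 1 = 1
    rw [pow_one, ← zpow_natCast, ← zpow_mul, mul_comm, zpow_mul, zpow_natCast, hgp, one_zpow]
  obtain ⟨Q, hQ⟩ := hPg.exists_le_sylow
  obtain ⟨h, hh⟩ := MulAction.exists_smul_eq G S₀ Q
  have hgQ : g ∈ (Q : Subgroup G) := hQ (Subgroup.mem_zpowers g)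
  rw [← hh, Sylow.coe_subgroup_smul, Subgroup.mem_smul_pointwise_iff_exists] at hgQ
  obtain ⟨s, hs, hsg⟩ := hgQ
  have hsg' : h * s * h⁻¹ = g := hsg
  -- `g` fixes `h • x₀`
  have hfix : h • x₀ ∈ fixedBy P g := by
    rw [mem_fixedBy, ← hsg', mul_smul, mul_smul, inv_smul_smul, hS₀ s hs]
  rw [hgy, Set.mem_singleton_iff] at hfix
  rw [← hfix]
  exact mem_orbit x₀ h

omit [Finite G] in
/-- a non-identity element with at most two fixed points cannot fix three distinct points -/
theorem twgp1_three {g : G} (h : (fixedBy P g).ncard = 1 ∨ (fixedBy P g).ncard = 2)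
    {a b c : P} (hab : a ≠ b) (hac : a ≠ c) (hbc : b ≠ c) (ha : g • a = a) (hb : g • b = b)
    (hc : g • c = c) : False := by
  have hfin : (fixedBy P g).Finite := by
    apply Set.finite_of_ncard_ne_zero
    rcases h with h | h <;> omega
  have hsub : ({a, b, c} : Set P) ⊆ fixedBy P g := by
    intro x hx
    rcases hx with rfl | rfl | rfl
    · exact ha
    · exact hb
    · exact hc
  have h3 : ({a, b, c} : Set P).ncard = 3 := Set.ncard_eq_three.2 ⟨a, b, c, hab, hac, hbc, rfl⟩
  have := Set.ncard_le_ncard hsub hfin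
  rcases h with h | h <;> omega

omit [Finite G] in
/-- the count of the elements without fixed point on the orbit, when non-identity elements fix at
most one point of the orbit -/
theorem twgp1_card_R [Fintype G] [DecidableEq G] (x₀ : P)
    (key1 : ∀ g : G, g ≠ 1 → ∀ x ∈ orbit G x₀, ∀ x' ∈ orbit G x₀, g • x = x → g • x' = x' → x = x')
    [Fintype (orbit G x₀)] [DecidablePred fun g : G => ∀ x ∈ orbit G x₀, g • x ≠ x] :
    (Finset.univ.filter fun g : G => ∀ x ∈ orbit G x₀, g • x ≠ x).card + 1 =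
      Fintype.card (orbit G x₀) := by
  classical
  set R := Finset.univ.filter fun g : G => ∀ x ∈ orbit G x₀, g • x ≠ x with hR
  -- Burnside on the orbit
  have hB := sum_card_fixedBy_eq_card_orbits_mul_card_group G (orbit G x₀)
  have hone : Fintype.card (Quotient (orbitRel G (orbit G x₀))) = 1 := by
    rw [Fintype.card_eq_one_iff_nonempty_unique]
    have hsub : Subsingleton (Quotient (orbitRel G (orbit G x₀))) :=
      (pretransitive_iff_subsingleton_quotient G (orbit G x₀)).1 inferInstance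
    exact ⟨@Unique.mk' _ ⟨Quotient.mk'' ⟨x₀, mem_orbit_self x₀⟩⟩ hsub⟩
  rw [hone, one_mul] at hB
  -- the three kinds of elements
  have h1 : Fintype.card (fixedBy (orbit G x₀) (1 : G)) = Fintype.card (orbit G x₀) := by
    apply Fintype.card_congr
    exact ⟨fun x => x.1, fun x => ⟨x, one_smul G x⟩, fun _ => rfl, fun _ => rfl⟩
  have hRmem : ∀ g : G, g ∈ R ↔ ∀ x ∈ orbit G x₀, g • x ≠ x := fun g => by
    rw [hR, Finset.mem_filter]
    exact ⟨fun h => h.2, fun h => ⟨Finset.mem_univ _, h⟩⟩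
  have h1R : (1 : G) ∉ R := by
    rw [hRmem]
    push Not
    exact ⟨x₀, mem_orbit_self x₀, one_smul G x₀⟩
  have h0 : ∀ g ∈ R, Fintype.card (fixedBy (orbit G x₀) g) = 0 := by
    intro g hg
    rw [Fintype.card_eq_zero_iff]
    refine ⟨fun x => ?_⟩
    have hx : g • (x : orbit G x₀) = x := x.2
    exact (hRmem g).1 hg (x : orbit G x₀) (x : orbit G x₀).2 (by
      have := congrArg Subtype.val hx
      rwa [orbit.coe_smul] at this)
  have h2 : ∀ g : G, g ∉ R → g ≠ 1 → Fintype.card (fixedBy (orbit G x₀) g) = 1 := by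
    intro g hg hg1
    rw [hRmem] at hg
    push Not at hg
    obtain ⟨x, hx, hgx⟩ := hg
    rw [Fintype.card_eq_one_iff]
    refine ⟨⟨⟨x, hx⟩, Subtype.ext (by rw [orbit.coe_smul]; exact hgx)⟩, fun y => ?_⟩
    have hy : g • (y : orbit G x₀) = y := y.2
    have hy' : g • ((y : orbit G x₀) : P) = ((y : orbit G x₀) : P) := by
      have := congrArg Subtype.val hy
      rwa [orbit.coe_smul] at this
    apply Subtype.ext
    apply Subtype.ext
    exact key1 g hg1 _ (y : orbit G x₀).2 _ hx hy' hgx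
  -- split the sum
  have hsplit : ∑ g : G, Fintype.card (fixedBy (orbit G x₀) g) =
      Fintype.card (orbit G x₀) + ((Finset.univ : Finset G).card - 1 - R.card) := by
    rw [← Finset.sum_filter_add_sum_filter_not Finset.univ (fun g : G => g ∈ R)]
    have e1 : ∑ g ∈ Finset.univ.filter (fun g : G => g ∈ R),
        Fintype.card (fixedBy (orbit G x₀) g) = 0 :=
      Finset.sum_eq_zero fun g hg => h0 g (Finset.mem_filter.1 hg).2
    rw [e1, zero_add]
    have h1mem : (1 : G) ∈ Finset.univ.filter (fun g : G => ¬ g ∈ R) :=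
      Finset.mem_filter.2 ⟨Finset.mem_univ _, h1R⟩
    rw [← Finset.add_sum_erase _ _ h1mem, h1]
    congr 1
    rw [Finset.sum_congr rfl (g := fun _ => 1)]
    · rw [Finset.sum_const, smul_eq_mul, mul_one, Finset.card_erase_of_mem h1mem]
      have hc : (Finset.univ.filter (fun g : G => ¬ g ∈ R)).card = (Finset.univ : Finset G).card - R.card := by
        have := Finset.card_filter_add_card_filter_not (s := (Finset.univ : Finset G)) (fun g : G => g ∈ R)
        have h3 : (Finset.univ.filter (fun g : G => g ∈ R)).card = R.card := by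
          congr 1
          ext g
          simp
        omega
      rw [hc]
      omega
    · intro g hg
      rw [Finset.mem_erase, Finset.mem_filter] at hg
      exact h2 g hg.2.2 hg.1
  rw [hsplit] at hB
  have hRle : R.card + 1 ≤ (Finset.univ : Finset G).card := by
    have : R ⊆ Finset.univ.erase 1 := fun g hg => Finset.mem_erase.2 ⟨fun h => h1R (h ▸ hg), Finset.mem_univ _⟩
    have := Finset.card_le_card this
    rw [Finset.card_erase_of_mem (Finset.mem_univ _)] at this
    have hpos : 0 < (Finset.univ : Finset G).card := Finset.card_pos.2 ⟨1, Finset.mem_univ _⟩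
    omega
  rw [Finset.card_univ] at hB hRle
  omega

omit [Finite G] in
/-- the setwise stabiliser of a pair is at most twice the pointwise stabiliser -/
theorem twgp1_card_T [Fintype G] [DecidableEq G] [DecidableEq P] (y z : P) :
    (Finset.univ.filter fun t : G => (t • y = y ∧ t • z = z) ∨ (t • y = z ∧ t • z = y)).card ≤
      2 * (Finset.univ.filter fun a : G => a • y = y ∧ a • z = z).card := by
  classical
  set A := Finset.univ.filter fun a : G => a • y = y ∧ a • z = z with hA
  set T2 := Finset.univ.filter fun t : G => t • y = z ∧ t • z = y with hT2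
  have hsub : (Finset.univ.filter fun t : G => (t • y = y ∧ t • z = z) ∨ (t • y = z ∧ t • z = y)) ⊆
      A ∪ T2 := by
    intro t ht
    rw [Finset.mem_filter] at ht
    rw [Finset.mem_union, hA, hT2, Finset.mem_filter, Finset.mem_filter]
    rcases ht.2 with h | h
    · exact Or.inl ⟨Finset.mem_univ _, h⟩
    · exact Or.inr ⟨Finset.mem_univ _, h⟩
  have h2 : T2.card ≤ A.card := by
    rcases T2.eq_empty_or_nonempty with h | ⟨s₀, hs₀⟩
    · rw [h, Finset.card_empty]
      exact Nat.zero_le _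
    · rw [hT2, Finset.mem_filter] at hs₀
      obtain ⟨-, hs₀y, hs₀z⟩ := hs₀
      refine Finset.card_le_card_of_injOn (fun t => s₀⁻¹ * t) ?_ ?_
      · intro t ht
        rw [Finset.mem_coe, hT2, Finset.mem_filter] at ht
        rw [Finset.mem_coe, hA, Finset.mem_filter]
        refine ⟨Finset.mem_univ _, ?_, ?_⟩
        · rw [mul_smul, ht.2.1, ← hs₀y, inv_smul_smul]
        · rw [mul_smul, ht.2.2, ← hs₀z, inv_smul_smul]
      · intro t _ t' _ h
        exact mul_left_cancel h
  calc _ ≤ (A ∪ T2).card := Finset.card_le_card hsub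
    _ ≤ A.card + T2.card := Finset.card_union_le _ _
    _ ≤ 2 * A.card := by omega

theorem twg_pg_count
    (hfix : ∀ g : G, g ≠ 1 → (fixedBy P g).ncard = 1 ∨ (fixedBy P g).ncard = 2)
    (x₀ : P) (hΩ : ∃ y ∈ orbit G x₀, y ≠ x₀)
    (hpar : ∀ g : G, g ≠ 1 → ∀ y : P, fixedBy P g = {y} → y ∈ orbit G x₀)
    (h4 : 4 ≤ Nat.card (stabilizer G x₀)) :
    ∃ g : G, g ≠ 1 ∧ g • x₀ = x₀ ∧ ∃ y ∈ orbit G x₀, y ≠ x₀ ∧ g • y = y := by
  classical
  by_contra hcon
  push Not at hcon
  have : Fintype G := Fintype.ofFinite G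
  have : Finite (orbit G x₀) := (Set.finite_range fun g : G => g • x₀).to_subtype
  have : Fintype (orbit G x₀) := Fintype.ofFinite _
  -- no non-identity element fixes two points of the orbit
  have key1 : ∀ g : G, g ≠ 1 → ∀ x ∈ orbit G x₀, ∀ x' ∈ orbit G x₀, g • x = x → g • x' = x' →
      x = x' := by
    intro g hg1 x hx x' hx' hgx hgx'
    obtain ⟨h, hh⟩ := hx
    have hh' : h • x₀ = x := hh
    by_contra hne
    have hg' : h⁻¹ * g * h ≠ 1 := by
      intro h1
      apply hg1
      have : g = h * (h⁻¹ * g * h) * h⁻¹ := by group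
      rw [this, h1]
      group
    refine hcon (h⁻¹ * g * h) hg' ?_ (h⁻¹ • x') ?_ ?_ ?_
    · rw [mul_smul, mul_smul, hh', hgx, ← hh', inv_smul_smul]
    · exact mapsTo_smul_orbit h⁻¹ x₀ hx'
    · intro h2
      apply hne
      rw [← hh', ← h2, smul_inv_smul]
    · rw [mul_smul, mul_smul, smul_inv_smul, hgx']
  have hcard := twgp1_card_R x₀ key1
  set R := Finset.univ.filter fun g : G => ∀ x ∈ orbit G x₀, g • x ≠ x with hR
  have hRmem : ∀ g : G, g ∈ R ↔ ∀ x ∈ orbit G x₀, g • x ≠ x := fun g => by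
    rw [hR, Finset.mem_filter]
    exact ⟨fun h => h.2, fun h => ⟨Finset.mem_univ _, h⟩⟩
  -- the orbit has at least two points
  have hN2 : 2 ≤ Fintype.card (orbit G x₀) := by
    obtain ⟨y, hy, hyx⟩ := hΩ
    have : 1 < Fintype.card (orbit G x₀) :=
      Fintype.one_lt_card_iff.2 ⟨⟨y, hy⟩, ⟨x₀, mem_orbit_self x₀⟩, fun h => hyx (congrArg Subtype.val h)⟩
    omega
  -- pick `r ∈ R`
  have hRpos : 0 < R.card := by omega
  obtain ⟨r, hr⟩ := Finset.card_pos.1 hRpos
  have hrR := (hRmem r).1 hr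
  have hr1 : r ≠ 1 := by
    rintro rfl
    exact hrR x₀ (mem_orbit_self x₀) (one_smul G x₀)
  -- `r` has exactly two fixed points, outside the orbit
  obtain ⟨y, z, hyz, hFix⟩ : ∃ y z : P, y ≠ z ∧ fixedBy P r = {y, z} := by
    rcases hfix r hr1 with h | h
    · exfalso
      obtain ⟨y, hy⟩ := Set.ncard_eq_one.1 h
      have hyΩ := hpar r hr1 y hy
      have hry : r • y = y := by
        have : y ∈ fixedBy P r := by rw [hy]; exact Set.mem_singleton y
        exact this
      exact hrR y hyΩ hry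
    · exact Set.ncard_eq_two.1 h
  have hry : r • y = y := by
    have : y ∈ fixedBy P r := by rw [hFix]; exact Set.mem_insert y _
    exact this
  have hrz : r • z = z := by
    have : z ∈ fixedBy P r := by rw [hFix]; exact Set.mem_insert_of_mem y (Set.mem_singleton z)
    exact this
  have hyΩ : y ∉ orbit G x₀ := fun h => hrR y h hry
  have hzΩ : z ∉ orbit G x₀ := fun h => hrR z h hrz
  -- the pointwise stabiliser `A` of `{y, z}` and the setwise stabiliser `T`
  set A := Finset.univ.filter fun a : G => a • y = y ∧ a • z = z with hA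
  set T := Finset.univ.filter fun t : G => (t • y = y ∧ t • z = z) ∨ (t • y = z ∧ t • z = y)
    with hT
  have hTA : T.card ≤ 2 * A.card := twgp1_card_T y z
  have h1A : (1 : G) ∈ A := by
    rw [hA, Finset.mem_filter]
    exact ⟨Finset.mem_univ _, one_smul G y, one_smul G z⟩
  have hrA : r ∈ A := by
    rw [hA, Finset.mem_filter]
    exact ⟨Finset.mem_univ _, hry, hrz⟩
  have hA2 : 2 ≤ A.card := by
    have : ({1, r} : Finset G) ⊆ A := by
      intro g hg
      rw [Finset.mem_insert, Finset.mem_singleton] at hg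
      rcases hg with rfl | rfl
      · exact h1A
      · exact hrA
    have h2 := Finset.card_le_card this
    rwa [Finset.card_pair (Ne.symm hr1)] at h2
  -- conjugates of `A \ {1}` lie in `R`
  set s : Finset (G × G) := (Finset.univ : Finset G) ×ˢ (A.erase 1) with hs
  have hsmem : ∀ x : G × G, x ∈ s ↔ x.2 ≠ 1 ∧ x.2 • y = y ∧ x.2 • z = z := by
    intro x
    rw [hs, Finset.mem_product, Finset.mem_erase, hA, Finset.mem_filter]
    exact ⟨fun h => ⟨h.2.1, h.2.2.2⟩, fun h => ⟨Finset.mem_univ _, h.1, Finset.mem_univ _, h.2⟩⟩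
  have hconj1 : ∀ x : G × G, x.2 ≠ 1 → x.1 * x.2 * x.1⁻¹ ≠ 1 := by
    intro x hx h1
    apply hx
    have : x.2 = x.1⁻¹ * (x.1 * x.2 * x.1⁻¹) * x.1 := by group
    rw [this, h1]
    group
  have hconjfix : ∀ x : G × G, ∀ w : P, x.2 • w = w → (x.1 * x.2 * x.1⁻¹) • (x.1 • w) = x.1 • w := by
    intro x w hw
    rw [mul_smul, mul_smul, inv_smul_smul, hw]
  have hnotΩ : ∀ (g : G) (w : P), w ∉ orbit G x₀ → g • w ∉ orbit G x₀ := fun g w hw h => by
    have h' : g⁻¹ • (g • w) ∈ orbit G x₀ := mapsTo_smul_orbit g⁻¹ x₀ h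
    rw [inv_smul_smul] at h'
    exact hw h'
  have hfR : ∀ x ∈ s, x.1 * x.2 * x.1⁻¹ ∈ R := by
    intro x hx
    rw [hsmem] at hx
    rw [hRmem]
    intro w hw hgw
    have hρ1 := hconj1 x hx.1
    refine twgp1_three (hfix _ hρ1) (a := x.1 • y) (b := x.1 • z) (c := w) ?_ ?_ ?_
      (hconjfix x y hx.2.1) (hconjfix x z hx.2.2) hgw
    · exact fun h => hyz (smul_left_cancel _ h)
    · exact fun h => hnotΩ x.1 y hyΩ (h ▸ hw)
    · exact fun h => hnotΩ x.1 z hzΩ (h ▸ hw)
  -- the fibres of the conjugation map have at most `|T|` elements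
  have hfib : ∀ b ∈ s.image (fun x : G × G => x.1 * x.2 * x.1⁻¹),
      (s.filter fun x : G × G => x.1 * x.2 * x.1⁻¹ = b).card ≤ T.card := by
    intro b hb
    obtain ⟨x₁, hx₁, rfl⟩ := Finset.mem_image.1 hb
    have hx₁' := (hsmem x₁).1 hx₁
    refine Finset.card_le_card_of_injOn (fun x : G × G => x₁.1⁻¹ * x.1) ?_ ?_
    · intro x hx
      rw [Finset.mem_coe, Finset.mem_filter] at hx
      obtain ⟨hxs, hxe⟩ := hx
      have hx' := (hsmem x).1 hxs
      have hρ1 := hconj1 x hx'.1
      -- the four fixed points of `ρ`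
      have f1 := hconjfix x y hx'.2.1
      have f2 := hconjfix x z hx'.2.2
      have f3 := hconjfix x₁ y hx₁'.2.1
      have f4 := hconjfix x₁ z hx₁'.2.2
      rw [← hxe] at f3 f4
      have hne : x.1 • y ≠ x.1 • z := fun h => hyz (smul_left_cancel _ h)
      have hne₁ : x₁.1 • y ≠ x₁.1 • z := fun h => hyz (smul_left_cancel _ h)
      have hy_or : x.1 • y = x₁.1 • y ∨ x.1 • y = x₁.1 • z := by
        by_contra hcon'
        push Not at hcon'
        exact twgp1_three (hfix _ hρ1) hcon'.1 hcon'.2 hne₁ f1 f3 f4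
      have hz_or : x.1 • z = x₁.1 • y ∨ x.1 • z = x₁.1 • z := by
        by_contra hcon'
        push Not at hcon'
        exact twgp1_three (hfix _ hρ1) hcon'.1 hcon'.2 hne₁ f2 f3 f4
      rw [Finset.mem_coe, hT, Finset.mem_filter]
      refine ⟨Finset.mem_univ _, ?_⟩
      rcases hy_or with hy1 | hy1 <;> rcases hz_or with hz1 | hz1
      · exact absurd (hy1.trans hz1.symm) hne
      · left
        exact ⟨by rw [mul_smul, hy1, inv_smul_smul], by rw [mul_smul, hz1, inv_smul_smul]⟩
      · right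
        exact ⟨by rw [mul_smul, hy1, inv_smul_smul], by rw [mul_smul, hz1, inv_smul_smul]⟩
      · exact absurd (hy1.trans hz1.symm) hne
    · intro x hx x' hx' hxx'
      rw [Finset.mem_coe, Finset.mem_filter] at hx hx'
      have h1 : x.1 = x'.1 := mul_left_cancel hxx'
      have h2 : x.2 = x'.2 := by
        have e := hx.2.trans hx'.2.symm
        rw [h1] at e
        exact mul_left_cancel (mul_right_cancel e)
      exact Prod.ext h1 h2
  have hcount := Finset.card_le_mul_card_image s T.card hfib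
  have himg : (s.image fun x : G × G => x.1 * x.2 * x.1⁻¹).card ≤ R.card := by
    apply Finset.card_le_card
    intro b hb
    obtain ⟨x, hx, rfl⟩ := Finset.mem_image.1 hb
    exact hfR x hx
  have hscard : s.card = Fintype.card G * (A.card - 1) := by
    rw [hs, Finset.card_product, Finset.card_univ, Finset.card_erase_of_mem h1A]
  -- orbit-stabiliser
  have hos := card_orbit_mul_card_stabilizer_eq_card_group G x₀
  rw [Nat.card_eq_fintype_card] at h4
  -- arithmetic
  have h5 : Fintype.card G * (A.card - 1) ≤ T.card * R.card :=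
    hscard ▸ hcount.trans (Nat.mul_le_mul_left _ himg)
  have h6 : T.card * R.card ≤ 2 * A.card * R.card := Nat.mul_le_mul_right _ hTA
  have h7 : R.card + 1 = Fintype.card (orbit G x₀) := hcard
  obtain ⟨a, ha⟩ : ∃ a, A.card = a + 2 := ⟨A.card - 2, by omega⟩
  obtain ⟨m, hm⟩ : ∃ m, Fintype.card (stabilizer G x₀) = m + 4 :=
    ⟨Fintype.card (stabilizer G x₀) - 4, by omega⟩
  rw [ha] at h5 h6
  rw [hm, ← h7] at hos
  have h8 : Fintype.card G * (a + 1) ≤ 2 * (a + 2) * R.card := by
    have : a + 2 - 1 = a + 1 := by omega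
    rw [this] at h5
    exact h5.trans h6
  rw [← hos] at h8
  nlinarith [Nat.zero_le (R.card * m * a), Nat.zero_le (R.card * a), Nat.zero_le (m * a),
    Nat.zero_le (R.card * m)]

/-- **PG3 (Weyl element).** If the stabiliser of `x₀` permutes transitively the points `y ≠ x₀`
with non-trivial two-point stabiliser `G_{x₀,y}` (`htrans`), then for every `y ≠ x₀` in the orbit of
`x₀` with `G_{x₀,y} ≠ 1` some element of `G` swaps `x₀` and `y`. -/
theorem twg_pg_swap (x₀ : P)
    (htrans : ∀ y y' : P, y ≠ x₀ → y' ≠ x₀ →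
      (∃ g : G, g ≠ 1 ∧ g • x₀ = x₀ ∧ g • y = y) → (∃ g : G, g ≠ 1 ∧ g • x₀ = x₀ ∧ g • y' = y') →
      ∃ u : G, u • x₀ = x₀ ∧ u • y = y')
    (y : P) (hy : y ∈ orbit G x₀) (hyx : y ≠ x₀) (t : G) (ht1 : t ≠ 1) (htx : t • x₀ = x₀)
    (hty : t • y = y) :
    ∃ s : G, s • x₀ = y ∧ s • y = x₀ := by
  obtain ⟨g₁, hg₁⟩ := hy
  have hg₁' : g₁ • x₀ = y := hg₁
  have hy' : g₁⁻¹ • x₀ ≠ x₀ := by
    intro h
    apply hyx
    rw [← hg₁', ← h, smul_inv_smul, h]
  have hconj : ∃ g : G, g ≠ 1 ∧ g • x₀ = x₀ ∧ g • (g₁⁻¹ • x₀) = g₁⁻¹ • x₀ := by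
    refine ⟨g₁⁻¹ * t * g₁, ?_, ?_, ?_⟩
    · intro h
      apply ht1
      have : t = g₁ * (g₁⁻¹ * t * g₁) * g₁⁻¹ := by group
      rw [this, h]
      group
    · rw [mul_smul, mul_smul, hg₁', hty, ← hg₁', inv_smul_smul]
    · rw [mul_smul, mul_smul, smul_inv_smul, htx]
  obtain ⟨u, hux, huy⟩ := htrans y (g₁⁻¹ • x₀) hyx hy' ⟨t, ht1, htx, hty⟩ hconj
  refine ⟨g₁ * u, ?_, ?_⟩
  · rw [mul_smul, hux, hg₁']
  · rw [mul_smul, huy, smul_inv_smul]

end Fermat.Agent.S56
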