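import Fermat.Agent.S56.TW.CaseB.MatSwapCore
import Fermat.Agent.S56.TW.CaseB.Perm1
import Fermat.Agent.S56.TW.CaseB.MatInfty

/-!
# S56 / TW / Case B : MX-C (Weyl elements, Frattini, `det² = 1`)

`twg_mx_swap`, `twg_mx_frattini`, `twg_mx_det_sq`, assembled from `MatSwapCore` with the PG lemmas
(`Perm1`), MX-A (`MatFix`) and MX-B (`MatInfty`).
-/

set_option autoImplicit false

namespace Fermat.Agent.S56

open Matrix MulAction OnePoint Matrix.GeneralLinearGroup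

variable {k : Type*} [Field k] [DecidableEq k]

/-- **MX-C1 (Weyl element).** If `t ∈ Γ` fixes `∞` and a finite point `y` and acts non-trivially,
then some `s ∈ Γ` swaps `∞` and `y`. (PG0 + PG1 + PG3 applied to `twgBar Γ` with MX-A, MX-B; the
stabiliser of `∞` has `≥ 3·2` elements.) -/
theorem twg_mx_swap (p : ℕ) [Fact p.Prime] [CharP k p] [Finite k] (hp2 : p ≠ 2)
    (Γ : Subgroup (GL (Fin 2) k))
    (hsplit : ∀ g ∈ Γ, ∃ x : OnePoint k, g • x = x)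
    (hirr : ¬ ∃ x : OnePoint k, ∀ g ∈ Γ, g • x = x)
    (S : Sylow p (twgBar Γ)) (hS1 : (S : Subgroup (twgBar Γ)) ≠ ⊥)
    (hS : ∀ g ∈ S, g • (∞ : OnePoint k) = ∞)
    (t : GL (Fin 2) k) (ht : t ∈ Γ) (htinf : t • (∞ : OnePoint k) = ∞) (y : k)
    (hty : t • (y : OnePoint k) = y) (htne : ∃ x : OnePoint k, t • x ≠ x) :
    ∃ s ∈ Γ, s • (∞ : OnePoint k) = (y : OnePoint k) ∧ s • (y : OnePoint k) = ∞ := by
  have := twgs_finite_onePoint (k := k)
  have hpar : ∀ g : twgBar Γ, g ≠ 1 → ∀ y : OnePoint k, fixedBy (OnePoint k) g = {y} →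
      y ∈ orbit (twgBar Γ) (∞ : OnePoint k) := fun g hg1 y hgy =>
    twg_pg_par_mem_orbit p (fun g h => twg_mx_pow p Γ g h) S ∞ hS g hg1 y hgy
  have htrans := (twg_mx_infty p Γ).1
  exact twgs_swap_core p hp2 Γ hirr S hS1 hS
    (fun hΩ h4 => twg_pg_count (twg_mx_fix Γ hsplit) ∞ hΩ hpar h4)
    htrans
    (fun y hy hy' t ht1 htx hty => twg_pg_swap ∞ htrans y hy hy' t ht1 htx hty)
    t ht htinf y hty htne

/-- **MX-C0 (Frattini).** every value of `det` on `Γ` is taken on the stabiliser of `∞`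
(`Γ₁ = ker det ∩ Γ` contains all `p`-elements since `kˣ` has no `p`-torsion; Sylow's theorem in the image
of `Γ₁`; the normaliser of `S` fixes the unique fixed point `∞` of `S`). -/
theorem twg_mx_frattini (p : ℕ) [Fact p.Prime] [CharP k p] [Finite k]
    (Γ : Subgroup (GL (Fin 2) k))
    (hdetscal : ∀ g ∈ Γ, (∀ x : OnePoint k, g • x = x) → det g = 1)
    (S : Sylow p (twgBar Γ)) (hS1 : (S : Subgroup (twgBar Γ)) ≠ ⊥)
    (hS : ∀ g ∈ S, g • (∞ : OnePoint k) = ∞) :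
    ∀ g ∈ Γ, ∃ h ∈ Γ, h • (∞ : OnePoint k) = ∞ ∧ det h = det g :=
  twgs_frattini p Γ hdetscal S hS1 hS

/-- **MX-C2.** If the scalars of `Γ` have determinant `1`, then `det² = 1` on `Γ`.
(Frattini: `Γ = Γ₁ · Γ_∞` with `Γ₁ = ker det ∩ Γ ⊇` all `p`-elements; for `t ∈ Γ_∞`: either `t` is
scalar·unipotent, then `t^p` is a scalar of `Γ` and `det t = 1`; or `t` fixes a finite `y` and with
the Weyl element `s` of MX-C1 the product `t · s t s⁻¹` is the scalar `det t`.) -/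
theorem twg_mx_det_sq (p : ℕ) [Fact p.Prime] [CharP k p] [Finite k] (hp2 : p ≠ 2)
    (Γ : Subgroup (GL (Fin 2) k))
    (hsplit : ∀ g ∈ Γ, ∃ x : OnePoint k, g • x = x)
    (hirr : ¬ ∃ x : OnePoint k, ∀ g ∈ Γ, g • x = x)
    (hdetscal : ∀ g ∈ Γ, (∀ x : OnePoint k, g • x = x) → det g = 1)
    (S : Sylow p (twgBar Γ)) (hS1 : (S : Subgroup (twgBar Γ)) ≠ ⊥)
    (hS : ∀ g ∈ S, g • (∞ : OnePoint k) = ∞) :
    ∀ g ∈ Γ, det g ^ 2 = 1 :=
  twgs_det_sq_core p Γ hdetscal (twgs_frattini p Γ hdetscal S hS1 hS)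
    (fun t ht htinf y hty htne => twg_mx_swap p hp2 Γ hsplit hirr S hS1 hS t ht htinf y hty htne)

end Fermat.Agent.S56
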