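/-
S56 / TW / Case B, leaf PG2 (helper4): class equation ⟹ `|Ω| = Q + 1`.
Statement `twg_pg_two_transitive` VERBATIM from `TW/CaseB/PermSpec.lean` (helper7 138d742).
Uses PG1 `twg_pg_count` from `TW/CaseB/Perm1.lean` (helper28 815b266, row 375); no black boxes.
Helper names are prefixed `twgp2_`.
-/
import Fermat.Agent.S56.TW.CaseB.Perm1

set_option autoImplicit false

namespace Fermat.Agent.S56

open MulAction
open scoped Pointwise

/-! ### (d) the arithmetic -/

section Arith

/-- the Diophantine core: `(1 + sQ) c = d (1 + sQ - 2s)`, `c ∣ Q - 1`, `c ≥ 2`, `Q ≥ 3`, `s ≥ 1`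
force `s = 1` or `(Q, s, c, d) = (3, 3, 2, 5)`. -/
theorem twgp2_arith (Q s c d : ℕ) (hQ : 3 ≤ Q) (hs : 1 ≤ s) (hc : 2 ≤ c) (hcd : c ∣ Q - 1)
    (h : (1 + s * Q) * c + 2 * d * s = d * (1 + s * Q)) :
    s = 1 ∨ (Q = 3 ∧ s = 3 ∧ c = 2 ∧ d = 5) := by
  have hcle : c ≤ Q - 1 := Nat.le_of_dvd (by omega) hcd
  have hd0 : 0 < d := by
    rcases Nat.eq_zero_or_pos d with h0 | h0
    · subst h0
      simp only [mul_zero, zero_mul, add_zero] at h
      rcases Nat.mul_eq_zero.mp h with h1 | h1 <;> omega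
    · exact h0
  -- `M := 1 + sQ` divides `2d`
  have hMdvd : (1 + s * Q) ∣ 2 * d := by
    have h1 : (1 + s * Q) ∣ 2 * d * s := by
      have h2 : (1 + s * Q) ∣ d * (1 + s * Q) := Dvd.intro_left _ rfl
      rw [← h] at h2
      exact (Nat.dvd_add_right (Dvd.intro _ rfl)).mp h2
    -- `2d = 2d (1 + sQ) - Q (2ds)`
    have h3 : (1 + s * Q) ∣ 2 * d * (1 + s * Q) := Dvd.intro_left _ rfl
    have h4 : 2 * d * (1 + s * Q) = 2 * d + Q * (2 * d * s) := by ring
    rw [h4] at h3
    exact (Nat.dvd_add_left (Dvd.dvd.mul_left h1 Q)).mp h3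
  have hMle : 1 + s * Q ≤ 2 * d := Nat.le_of_dvd (by omega) hMdvd
  -- hence `1 + s (Q - 2) ≤ 2 c`
  have hkey2 : 1 + s * Q ≤ 2 * c + 2 * s := by
    obtain ⟨f, hf⟩ : ∃ f, 1 + s * Q = 2 * s + f := by
      have h1 : 2 * s ≤ 1 + s * Q := by nlinarith
      exact ⟨1 + s * Q - 2 * s, by omega⟩
    rw [hf] at h hMle ⊢
    have h5 : (2 * s + f) * c = d * f := by nlinarith [h]
    have h6 : (2 * s + f) * f ≤ (2 * s + f) * (2 * c) := by
      calc (2 * s + f) * f ≤ (2 * d) * f := Nat.mul_le_mul_right f hMle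
        _ = 2 * (d * f) := by ring
        _ = 2 * ((2 * s + f) * c) := by rw [h5]
        _ = (2 * s + f) * (2 * c) := by ring
    have h7 : f ≤ 2 * c := Nat.le_of_mul_le_mul_left h6 (by omega)
    omega
  -- so `(s - 2)(Q - 2) ≤ 1`
  have hbound : s * Q + 3 ≤ 2 * Q + 2 * s := by omega
  by_cases hs1 : s = 1
  · exact Or.inl hs1
  right
  have hs2 : 2 ≤ s := by omega
  by_cases hs2' : s = 2
  · -- `s = 2` is impossible
    exfalso
    subst hs2'
    -- `M = 1 + 2Q` is odd, so `M ∣ d`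
    have hcop : Nat.Coprime (1 + 2 * Q) 2 := by
      rw [Nat.coprime_two_right]
      exact ⟨Q, by ring⟩
    have hMd : (1 + 2 * Q) ∣ d := hcop.dvd_of_dvd_mul_left hMdvd
    obtain ⟨t, rfl⟩ := hMd
    have ht : 1 ≤ t := by
      rcases Nat.eq_zero_or_pos t with h0 | h0
      · subst h0; simp at hd0
      · exact h0
    have h8 : (1 + 2 * Q) * (c + 4 * t) = (1 + 2 * Q) * (t * (1 + 2 * Q)) := by
      nlinarith [h]
    have h9 : c + 4 * t = t * (1 + 2 * Q) := Nat.eq_of_mul_eq_mul_left (by omega) h8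
    have h10 : Q ≤ t * Q := Nat.le_mul_of_pos_left Q ht
    have h11 : t * (1 + 2 * Q) = t + 2 * (t * Q) := by ring
    have h12 : t * 3 ≤ t * Q := Nat.mul_le_mul_left t hQ
    omega
  · -- `s ≥ 3`: then `Q = 3`, `s = 3`
    have hs3 : 3 ≤ s := by omega
    have hQ3 : Q = 3 := by nlinarith
    subst hQ3
    have hs3' : s = 3 := by omega
    subst hs3'
    have hc2 : c = 2 := by omega
    subst hc2
    refine ⟨rfl, rfl, rfl, ?_⟩
    omega

end Arith

/-! ### (c) conjugates of a two-point stabiliser -/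

section Blocks

variable {G P : Type*} [Group G] [Fintype G] [MulAction G P]

/-- **block count**: the non-identity elements whose fixed-point set is a translate of `π` are
`|G| · |D| / |N|` in number, `D` the non-identity elements with fixed-point set `π`, `N` the
setwise stabiliser of `π`.  No hypothesis on the action. -/
theorem twgp2_block_count [DecidableEq G] (π : Set P)
    [DecidablePred fun a : G => a ≠ 1 ∧ fixedBy P a = π]
    [DecidablePred fun r : G => r ≠ 1 ∧ ∃ g : G, fixedBy P r = g • π]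
    [DecidablePred fun n : G => n • π = π] :
    Fintype.card G * (Finset.univ.filter fun a : G => a ≠ 1 ∧ fixedBy P a = π).card
      = (Finset.univ.filter fun r : G => r ≠ 1 ∧ ∃ g : G, fixedBy P r = g • π).card
        * (Finset.univ.filter fun n : G => n • π = π).card := by
  classical
  set D := Finset.univ.filter fun a : G => a ≠ 1 ∧ fixedBy P a = π with hD
  set C := Finset.univ.filter fun r : G => r ≠ 1 ∧ ∃ g : G, fixedBy P r = g • π with hC
  set N := Finset.univ.filter fun n : G => n • π = π with hN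
  have hmap : ∀ x ∈ (Finset.univ : Finset G) ×ˢ D, x.1 * x.2 * x.1⁻¹ ∈ C := by
    rintro ⟨g, a⟩ hx
    rw [Finset.mem_product, hD, Finset.mem_filter] at hx
    rw [hC, Finset.mem_filter]
    refine ⟨Finset.mem_univ _, ?_, g, ?_⟩
    · intro h1
      apply hx.2.2.1
      have : a = g⁻¹ * (g * a * g⁻¹) * g := by group
      rw [this, h1]; group
    · rw [← smul_fixedBy, hx.2.2.2]
  have h1 := Finset.card_eq_sum_card_fiberwise hmap
  rw [Finset.card_product, Finset.card_univ] at h1
  rw [h1, Finset.sum_const_nat (m := N.card), mul_comm]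
  intro c hc
  rw [hC, Finset.mem_filter] at hc
  obtain ⟨-, hc1, g₀, hg₀⟩ := hc
  -- the fibre over `c` is in bijection with `{g | g • π = Fix c}`, a left coset of `N`
  have h2 : (((Finset.univ : Finset G) ×ˢ D).filter fun x => x.1 * x.2 * x.1⁻¹ = c).card
      = (Finset.univ.filter fun g : G => g • π = fixedBy P c).card := by
    refine Finset.card_nbij' (fun x => x.1) (fun g => (g, g⁻¹ * c * g)) ?_ ?_ ?_ ?_
    · rintro ⟨g, a⟩ hx
      simp only [Finset.coe_filter, Finset.mem_product, Finset.mem_univ, true_and,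
        Set.mem_ofPred_eq, hD, Finset.mem_filter] at hx ⊢
      rw [← hx.2, ← smul_fixedBy, hx.1.2]
    · intro g hg
      simp only [Finset.coe_filter, Finset.mem_product, Finset.mem_univ, true_and,
        Set.mem_ofPred_eq, hD, Finset.mem_filter] at hg ⊢
      refine ⟨⟨?_, ?_⟩, by group⟩
      · intro h3
        apply hc1
        have : c = g * (g⁻¹ * c * g) * g⁻¹ := by group
        rw [this, h3]; group
      · have h4 := smul_fixedBy P c g⁻¹
        rw [inv_inv] at h4
        rw [← h4, ← hg, inv_smul_smul]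
    · rintro ⟨g, a⟩ hx
      simp only [Finset.coe_filter, Finset.mem_product, Finset.mem_univ, true_and,
        Set.mem_ofPred_eq] at hx
      ext
      · rfl
      · show g⁻¹ * c * g = a
        rw [← hx.2]; group
    · intro g _
      rfl
  rw [h2]
  -- left coset of `N`
  refine Finset.card_nbij' (fun g => g₀⁻¹ * g) (fun n => g₀ * n) ?_ ?_ ?_ ?_
  · intro g hg
    simp only [Finset.coe_filter, Finset.mem_univ, true_and, Set.mem_ofPred_eq, hN] at hg ⊢
    rw [mul_smul, hg, hg₀, inv_smul_smul]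
  · intro n hn
    simp only [Finset.coe_filter, Finset.mem_univ, true_and, Set.mem_ofPred_eq, hN] at hn ⊢
    rw [mul_smul, hn, hg₀]
  · intro g _
    simp
  · intro n _
    simp

/-- the two-point stabiliser `A` of `π`, its setwise stabiliser `N`: `|A| ∣ |N| ≤ 2 |A|`, and the
non-identity elements of `A` are exactly those with fixed-point set `π`. -/
theorem twgp2_block_bounds [DecidableEq G]
    (hfix : ∀ g : G, g ≠ 1 → (fixedBy P g).ncard = 1 ∨ (fixedBy P g).ncard = 2)
    (π : Set P) (hπ : π.ncard = 2)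
    [DecidablePred fun a : G => a ≠ 1 ∧ fixedBy P a = π]
    [DecidablePred fun n : G => n • π = π] :
    ((Finset.univ.filter fun a : G => a ≠ 1 ∧ fixedBy P a = π).card + 1)
        ∣ (Finset.univ.filter fun n : G => n • π = π).card ∧
      (Finset.univ.filter fun n : G => n • π = π).card
        ≤ 2 * ((Finset.univ.filter fun a : G => a ≠ 1 ∧ fixedBy P a = π).card + 1) ∧
      ∀ a : G, a ≠ 1 → fixedBy P a = π →
        a ^ ((Finset.univ.filter fun a : G => a ≠ 1 ∧ fixedBy P a = π).card + 1) = 1 := by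
  classical
  set D := Finset.univ.filter fun a : G => a ≠ 1 ∧ fixedBy P a = π with hD
  set N := Finset.univ.filter fun n : G => n • π = π with hN
  -- membership in `A`
  have hA : ∀ a : G, a ∈ fixingSubgroup G π ↔ a = 1 ∨ (a ≠ 1 ∧ fixedBy P a = π) := by
    intro a
    rw [mem_fixingSubgroup_iff]
    constructor
    · intro ha
      by_cases h1 : a = 1
      · exact Or.inl h1
      · refine Or.inr ⟨h1, ?_⟩
        have hsub : π ⊆ fixedBy P a := fun y hy => ha y hy
        have hfin : (fixedBy P a).Finite := by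
          apply Set.finite_of_ncard_ne_zero
          rcases hfix a h1 with h | h <;> omega
        have hle : (fixedBy P a).ncard ≤ π.ncard := by
          rcases hfix a h1 with h | h <;> omega
        exact (Set.eq_of_subset_of_ncard_le hsub hle hfin).symm
    · rintro (rfl | ⟨-, h⟩) y hy
      · exact one_smul _ y
      · rw [← h] at hy
        exact hy
  -- `|A| = |D| + 1`
  have hAcard : Nat.card (fixingSubgroup G π) = D.card + 1 := by
    rw [Nat.card_eq_fintype_card, Fintype.card_subtype]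
    have : (Finset.univ.filter fun a : G => a ∈ fixingSubgroup G π) = insert 1 D := by
      ext a
      rw [Finset.mem_filter, Finset.mem_insert, hD, Finset.mem_filter, hA]
      simp
    rw [this, Finset.card_insert_of_notMem, add_comm]
    rw [hD, Finset.mem_filter]
    simp
  -- `N` as a subgroup
  have hNcard : Nat.card (stabilizer G π) = N.card := by
    rw [Nat.card_eq_fintype_card, Fintype.card_subtype]
    congr 1
    ext n
    rw [hN, Finset.mem_filter, Finset.mem_filter, mem_stabilizer_iff]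
  have hAN : fixingSubgroup G π ≤ stabilizer G π := by
    intro a ha
    rw [mem_stabilizer_iff]
    rw [mem_fixingSubgroup_iff] at ha
    ext y
    rw [Set.mem_smul_set]
    constructor
    · rintro ⟨z, hz, rfl⟩
      rw [ha z hz]; exact hz
    · intro hy
      exact ⟨y, hy, ha y hy⟩
  refine ⟨?_, ?_, ?_⟩
  · rw [← hAcard, ← hNcard]
    exact Subgroup.card_dvd_of_le hAN
  · -- index at most two
    obtain ⟨y, z, hyz, rfl⟩ := Set.ncard_eq_two.mp hπ
    have hNmem : ∀ n : G, n ∈ N → (n • y = y ∧ n • z = z) ∨ (n • y = z ∧ n • z = y) := by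
      intro n hn
      rw [hN, Finset.mem_filter] at hn
      have hn' := hn.2
      have hy : n • y ∈ ({y, z} : Set P) := by
        rw [← hn']; exact Set.smul_mem_smul_set (Set.mem_insert _ _)
      have hz : n • z ∈ ({y, z} : Set P) := by
        rw [← hn']; exact Set.smul_mem_smul_set (Set.mem_insert_of_mem _ rfl)
      have hne : n • y ≠ n • z := fun h => hyz (smul_left_cancel n h)
      rcases hy with hy | hy <;> rcases hz with hz | hz
      · exact absurd (hy.trans hz.symm) hne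
      · exact Or.inl ⟨hy, hz⟩
      · exact Or.inr ⟨hy, hz⟩
      · exact absurd (hy.trans hz.symm) hne
    set Af := Finset.univ.filter fun a : G => a ∈ fixingSubgroup G ({y, z} : Set P) with hAf
    have hAfcard : Af.card = D.card + 1 := by
      rw [← hAcard, Nat.card_eq_fintype_card, Fintype.card_subtype]
    have hAfmem : ∀ a : G, a ∈ Af ↔ a • y = y ∧ a • z = z := by
      intro a
      rw [hAf, Finset.mem_filter, mem_fixingSubgroup_iff]
      simp
    by_cases hall : ∀ n ∈ N, n ∈ Af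
    · have : N.card ≤ Af.card := Finset.card_le_card hall
      omega
    · simp only [not_forall] at hall
      obtain ⟨n₁, hn₁, hn₁A⟩ := hall
      have hn₁' : n₁ • y = z ∧ n₁ • z = y := by
        rcases hNmem n₁ hn₁ with h | h
        · exact absurd ((hAfmem n₁).mpr h) hn₁A
        · exact h
      have hsub : N ⊆ Af ∪ Af.image (fun a => n₁ * a) := by
        intro n hn
        rw [Finset.mem_union]
        rcases hNmem n hn with h | h
        · exact Or.inl ((hAfmem n).mpr h)
        · right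
          rw [Finset.mem_image]
          refine ⟨n₁⁻¹ * n, (hAfmem _).mpr ⟨?_, ?_⟩, by group⟩
          · rw [mul_smul, h.1, inv_smul_eq_iff, hn₁'.1]
          · rw [mul_smul, h.2, inv_smul_eq_iff, hn₁'.2]
      have h1 := Finset.card_le_card hsub
      have h2 := Finset.card_union_le Af (Af.image (fun a => n₁ * a))
      have h3 : (Af.image (fun a => n₁ * a)).card ≤ Af.card := Finset.card_image_le
      omega
  · intro a ha1 haπ
    have haA : a ∈ fixingSubgroup G π := (hA a).mpr (Or.inr ⟨ha1, haπ⟩)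
    rw [← hAcard]
    have := pow_card_eq_one' (G := fixingSubgroup G π) (x := ⟨a, haA⟩)
    exact congrArg Subtype.val this

/-- summary for one class of conjugate two-point stabilisers: with `d = |A|` either
`|C| d = |G| (d - 1)` or `|C| 2d = |G| (d - 1)`, and every element of `C` has `c ^ d = 1`. -/
theorem twgp2_block_summary [DecidableEq G]
    (hfix : ∀ g : G, g ≠ 1 → (fixedBy P g).ncard = 1 ∨ (fixedBy P g).ncard = 2)
    (r : G) (hr1 : r ≠ 1) (hr2 : (fixedBy P r).ncard = 2)
    [DecidablePred fun c : G => c ≠ 1 ∧ ∃ g : G, fixedBy P c = g • fixedBy P r] :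
    ∃ d : ℕ, 2 ≤ d ∧
      ((Finset.univ.filter fun c : G => c ≠ 1 ∧ ∃ g : G, fixedBy P c = g • fixedBy P r).card * d
          = Fintype.card G * (d - 1) ∨
        (Finset.univ.filter fun c : G => c ≠ 1 ∧ ∃ g : G, fixedBy P c = g • fixedBy P r).card
          * (2 * d) = Fintype.card G * (d - 1)) ∧
      ∀ c : G, c ≠ 1 → (∃ g : G, fixedBy P c = g • fixedBy P r) → c ^ d = 1 := by
  classical
  obtain ⟨hdvd, hle, hpow⟩ := twgp2_block_bounds hfix (fixedBy P r) hr2
  have hcount := twgp2_block_count (G := G) (fixedBy P r)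
  set D := Finset.univ.filter fun a : G => a ≠ 1 ∧ fixedBy P a = fixedBy P r with hD
  set N := Finset.univ.filter fun n : G => n • fixedBy P r = fixedBy P r with hN
  have hrD : r ∈ D := by
    rw [hD, Finset.mem_filter]
    exact ⟨Finset.mem_univ _, hr1, rfl⟩
  have hDpos : 1 ≤ D.card := Finset.card_pos.mpr ⟨r, hrD⟩
  have hNpos : 1 ≤ N.card := by
    apply Finset.card_pos.mpr
    refine ⟨1, ?_⟩
    rw [hN, Finset.mem_filter]
    exact ⟨Finset.mem_univ _, one_smul _ _⟩
  refine ⟨D.card + 1, by omega, ?_, ?_⟩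
  · obtain ⟨t, ht⟩ := hdvd
    have ht1 : t = 1 ∨ t = 2 := by
      have h1 : 1 ≤ t := by
        rcases Nat.eq_zero_or_pos t with h0 | h0
        · rw [h0, mul_zero] at ht; omega
        · exact h0
      have h2 : t ≤ 2 := by
        by_contra h3
        have h4 : 3 ≤ t := by omega
        have : (D.card + 1) * 3 ≤ (D.card + 1) * t := Nat.mul_le_mul_left _ h4
        omega
      omega
    rw [Nat.add_sub_cancel]
    rcases ht1 with rfl | rfl
    · left
      rw [mul_one] at ht
      rw [← ht, ← hcount]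
    · right
      rw [mul_comm 2, ← ht, ← hcount]
  · rintro c hc1 ⟨g, hg⟩
    have h1 : fixedBy P (g⁻¹ * c * g) = fixedBy P r := by
      have h2 := smul_fixedBy P c g⁻¹
      rw [inv_inv] at h2
      rw [← h2, hg, inv_smul_smul]
    have h3 : g⁻¹ * c * g ≠ 1 := by
      intro h4
      apply hc1
      have : c = g * (g⁻¹ * c * g) * g⁻¹ := by group
      rw [this, h4]; group
    have h5 := hpow _ h3 h1
    have h6 : c = g * (g⁻¹ * c * g) * g⁻¹ := by group
    rw [h6, conj_pow, h5]
    group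

end Blocks

/-! ### (a) fixed points of elements fixing a point of `Ω` -/

section Orbit

variable {G P : Type*} [Group G] [Finite G] [MulAction G P]

/-- (a): a non-identity element fixing a point of `Ω` has all its fixed points in `Ω`. -/
theorem twgp2_fix_in_orbit
    (hfix : ∀ g : G, g ≠ 1 → (fixedBy P g).ncard = 1 ∨ (fixedBy P g).ncard = 2)
    (x₀ : P) (hΩ : ∃ y ∈ orbit G x₀, y ≠ x₀)
    (hpar : ∀ g : G, g ≠ 1 → ∀ y : P, fixedBy P g = {y} → y ∈ orbit G x₀)
    (htrans : ∀ y y' : P, y ≠ x₀ → y' ≠ x₀ →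
      (∃ g : G, g ≠ 1 ∧ g • x₀ = x₀ ∧ g • y = y) → (∃ g : G, g ≠ 1 ∧ g • x₀ = x₀ ∧ g • y' = y') →
      ∃ u : G, u • x₀ = x₀ ∧ u • y = y')
    (h4 : 4 ≤ Nat.card (stabilizer G x₀))
    (g : G) (hg : g ≠ 1) (x : P) (hx : x ∈ orbit G x₀) (hgx : g • x = x)
    (y : P) (hyx : y ≠ x) (hgy : g • y = y) : y ∈ orbit G x₀ := by
  obtain ⟨g₀, hg₀1, hg₀x, y₀, hy₀Ω, hy₀x, hg₀y⟩ := twg_pg_count hfix x₀ hΩ hpar h4
  obtain ⟨h, rfl⟩ := mem_orbit_iff.mp hx
  have h1 : h⁻¹ * g * h ≠ 1 := by
    intro h2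
    apply hg
    have : g = h * (h⁻¹ * g * h) * h⁻¹ := by group
    rw [this, h2]; group
  have h2 : (h⁻¹ * g * h) • x₀ = x₀ := by
    rw [mul_smul, mul_smul, hgx, inv_smul_smul]
  have h3 : h⁻¹ • y ≠ x₀ := by
    intro h4
    apply hyx
    rw [← h4, smul_inv_smul]
  have h5 : (h⁻¹ * g * h) • (h⁻¹ • y) = h⁻¹ • y := by
    rw [mul_smul, mul_smul, smul_inv_smul, hgy]
  obtain ⟨u, -, huy⟩ := htrans y₀ (h⁻¹ • y) hy₀x h3 ⟨g₀, hg₀1, hg₀x, hg₀y⟩
    ⟨h⁻¹ * g * h, h1, h2, h5⟩
  obtain ⟨t, rfl⟩ := mem_orbit_iff.mp hy₀Ω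
  refine mem_orbit_iff.mpr ⟨h * u * t, ?_⟩
  rw [mul_smul, mul_smul, huy, smul_inv_smul]

end Orbit

/-! ### (b) counting fixed points in a stable finite set -/

section Count

variable {G P : Type*} [Group G] [Fintype G] [MulAction G P]

open Classical in
/-- the number of fixed points of `g` in the finite set `Ωf`. -/
noncomputable def twgp2K (Ωf : Finset P) (g : G) : ℕ := (Ωf.filter fun x => g • x = x).card

omit [Fintype G] in
open Classical in
theorem twgp2K_def (Ωf : Finset P) (g : G) :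
    twgp2K Ωf g = (Ωf.filter fun x => g • x = x).card := rfl

omit [Fintype G] in
/-- a parabolic element has exactly one fixed point in `Ωf`. -/
theorem twgp2K_eq_one (Ωf : Finset P) (g : G) (h1 : (fixedBy P g).ncard = 1)
    (hpar : ∀ y : P, fixedBy P g = {y} → y ∈ Ωf) : twgp2K Ωf g = 1 := by
  classical
  obtain ⟨y, hy⟩ := Set.ncard_eq_one.mp h1
  have hyΩ := hpar y hy
  rw [twgp2K_def]
  have : (Ωf.filter fun x => g • x = x) = {y} := by
    ext x
    rw [Finset.mem_filter, Finset.mem_singleton]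
    constructor
    · rintro ⟨-, hx⟩
      have : x ∈ fixedBy P g := hx
      rw [hy] at this
      exact this
    · rintro rfl
      refine ⟨hyΩ, ?_⟩
      have : x ∈ fixedBy P g := by rw [hy]; rfl
      exact this
  rw [this, Finset.card_singleton]

omit [Fintype G] in
/-- an element with two fixed points has none or both of them in `Ωf`. -/
theorem twgp2K_eq_zero_or_two (Ωf : Finset P) (g : G) (h2 : (fixedBy P g).ncard = 2)
    (hin : ∀ x ∈ Ωf, g • x = x → ∀ y : P, y ≠ x → g • y = y → y ∈ Ωf) :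
    twgp2K Ωf g = 0 ∨ twgp2K Ωf g = 2 := by
  classical
  obtain ⟨y, z, hyz, hF⟩ := Set.ncard_eq_two.mp h2
  have hy : g • y = y := by
    have : y ∈ fixedBy P g := by rw [hF]; exact Set.mem_insert _ _
    exact this
  have hz : g • z = z := by
    have : z ∈ fixedBy P g := by rw [hF]; exact Set.mem_insert_of_mem _ rfl
    exact this
  have hmem : ∀ x : P, g • x = x → x = y ∨ x = z := by
    intro x hx
    have : x ∈ fixedBy P g := hx
    rw [hF] at this
    exact this
  rw [twgp2K_def]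
  by_cases hyΩ : y ∈ Ωf
  · have hzΩ : z ∈ Ωf := hin y hyΩ hy z (Ne.symm hyz) hz
    right
    have : (Ωf.filter fun x => g • x = x) = {y, z} := by
      ext x
      rw [Finset.mem_filter, Finset.mem_insert, Finset.mem_singleton]
      constructor
      · rintro ⟨-, hx⟩
        exact hmem x hx
      · rintro (rfl | rfl)
        · exact ⟨hyΩ, hy⟩
        · exact ⟨hzΩ, hz⟩
    rw [this, Finset.card_pair hyz]
  · by_cases hzΩ : z ∈ Ωf
    · exact absurd (hin z hzΩ hz y hyz hy) hyΩ
    · left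
      rw [Finset.card_eq_zero, Finset.filter_eq_empty_iff]
      intro x hxΩ hx
      rcases hmem x hx with rfl | rfl
      · exact hyΩ hxΩ
      · exact hzΩ hxΩ

end Count

section Count2

variable {G P : Type*} [Group G] [Fintype G] [MulAction G P]

/-- **double count** for a conjugation-invariant predicate `p`: the fixed points in the orbit `Ωf`
of `x₀` of the elements satisfying `p` are `|Ωf| · |{g | p g ∧ g x₀ = x₀}|` in number. -/
theorem twgp2_sum_K_class (x₀ : P) (Ωf : Finset P) (hΩf : ∀ x, x ∈ Ωf ↔ x ∈ orbit G x₀)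
    (p : G → Prop) [DecidablePred p] [DecidablePred fun g : G => p g ∧ g • x₀ = x₀]
    (hp : ∀ g h : G, p g → p (h * g * h⁻¹)) :
    ∑ g ∈ Finset.univ.filter p, twgp2K Ωf g
      = Ωf.card * (Finset.univ.filter fun g : G => p g ∧ g • x₀ = x₀).card := by
  classical
  have h1 : ∑ g ∈ Finset.univ.filter p, twgp2K Ωf g
      = ∑ g ∈ Finset.univ.filter p, (Ωf.bipartiteAbove (fun (g : G) (x : P) => g • x = x) g).card := by
    rfl
  rw [h1, Finset.sum_card_bipartiteAbove_eq_sum_card_bipartiteBelow, Finset.sum_const_nat]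
  intro x hx
  obtain ⟨h, rfl⟩ := mem_orbit_iff.mp ((hΩf x).mp hx)
  refine Finset.card_nbij' (fun g => h⁻¹ * g * h) (fun g => h * g * h⁻¹) ?_ ?_ ?_ ?_
  · intro g hg
    simp only [Finset.coe_filter, Finset.mem_univ, true_and, Set.mem_ofPred_eq,
      Finset.bipartiteBelow, Finset.mem_filter] at hg ⊢
    refine ⟨?_, ?_⟩
    · have := hp g h⁻¹ hg.1
      rwa [inv_inv] at this
    · rw [mul_smul, mul_smul, hg.2, inv_smul_smul]
  · intro g hg
    simp only [Finset.coe_filter, Finset.mem_univ, true_and, Set.mem_ofPred_eq,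
      Finset.bipartiteBelow, Finset.mem_filter] at hg ⊢
    refine ⟨hp g h hg.1, ?_⟩
    rw [mul_smul, mul_smul, inv_smul_smul, hg.2]
  · intro g _
    group
  · intro g _
    group

end Count2

section Count3

variable {G P : Type*} [Group G] [Fintype G] [MulAction G P]

omit [Fintype G] in
theorem twgp2K_eq_zero_iff (Ωf : Finset P) (g : G) :
    twgp2K Ωf g = 0 ↔ ∀ x ∈ Ωf, g • x ≠ x := by
  classical
  rw [twgp2K_def, Finset.card_eq_zero, Finset.filter_eq_empty_iff]

omit [Fintype G] in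
theorem twgp2K_one (Ωf : Finset P) : twgp2K Ωf (1 : G) = Ωf.card := by
  classical
  rw [twgp2K_def]
  congr 1
  apply Finset.filter_true_of_mem
  intro x _
  exact one_smul _ x

omit [Fintype G] in
theorem twgp2_conj_ne_one {g : G} (hg : g ≠ 1) (h : G) : h * g * h⁻¹ ≠ 1 := by
  intro h1
  apply hg
  have : g = h⁻¹ * (h * g * h⁻¹) * h := by group
  rw [this, h1]; group

omit [Fintype G] in
theorem twgp2_ncard_fixedBy_conj (g h : G) :
    (fixedBy P (h * g * h⁻¹)).ncard = (fixedBy P g).ncard := by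
  rw [← smul_fixedBy, Set.ncard_smul_set]

open Classical in
/-- **the class equation**. -/
theorem twgp2_class_eq
    (hfix : ∀ g : G, g ≠ 1 → (fixedBy P g).ncard = 1 ∨ (fixedBy P g).ncard = 2)
    (x₀ : P) (Ωf : Finset P) (hΩf : ∀ x, x ∈ Ωf ↔ x ∈ orbit G x₀)
    (hpar : ∀ g : G, g ≠ 1 → ∀ y : P, fixedBy P g = {y} → y ∈ orbit G x₀)
    (hin : ∀ g : G, g ≠ 1 → ∀ x ∈ Ωf, g • x = x → ∀ y : P, y ≠ x → g • y = y → y ∈ Ωf)
    (U : Subgroup G)
    (hU : ∀ g : G, g ∈ U ↔ g = 1 ∨ (g • x₀ = x₀ ∧ (fixedBy P g).ncard = 1)) :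
    Fintype.card G = Ωf.card * Nat.card (stabilizer G x₀) ∧
    (Finset.univ.filter fun g : G => g ≠ 1 ∧ (fixedBy P g).ncard = 1).card
      = Ωf.card * (Nat.card U - 1) ∧
    2 * (Finset.univ.filter fun g : G => g ≠ 1 ∧ twgp2K Ωf g = 0).card
        + Ωf.card * Nat.card U + 2
      = Ωf.card * Nat.card (stabilizer G x₀) + 2 * Ωf.card := by
  set n := Nat.card (stabilizer G x₀) with hn
  set Q := Nat.card U with hQ
  set Par := Finset.univ.filter fun g : G => g ≠ 1 ∧ (fixedBy P g).ncard = 1 with hPar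
  set R := Finset.univ.filter fun g : G => g ≠ 1 ∧ twgp2K Ωf g = 0 with hR
  -- the orbit
  have hΩcoe : (Ωf : Set P) = orbit G x₀ := by
    ext x; exact hΩf x
  have hNΩ : (orbit G x₀).ncard = Ωf.card := by
    rw [← hΩcoe, Set.ncard_coe_finset]
  -- `|G| = N_Ω n`
  have hG : Fintype.card G = Ωf.card * n := by
    rw [← hNΩ, ← index_stabilizer, hn, Subgroup.index_mul_card, Nat.card_eq_fintype_card]
  -- `n` as a filter
  have hncard : (Finset.univ.filter fun g : G => True ∧ g • x₀ = x₀).card = n := by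
    rw [hn, Nat.card_eq_fintype_card, Fintype.card_subtype]
    congr 1
    ext g
    rw [Finset.mem_filter, Finset.mem_filter, mem_stabilizer_iff, true_and]
  -- `Q` as a filter
  have hQcard : (Finset.univ.filter
      fun g : G => (g ≠ 1 ∧ (fixedBy P g).ncard = 1) ∧ g • x₀ = x₀).card + 1 = Q := by
    rw [hQ, Nat.card_eq_fintype_card, Fintype.card_subtype]
    have : (Finset.univ.filter fun g : G => g ∈ U)
        = insert 1 (Finset.univ.filter
          fun g : G => (g ≠ 1 ∧ (fixedBy P g).ncard = 1) ∧ g • x₀ = x₀) := by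
      ext g
      rw [Finset.mem_filter, Finset.mem_insert, Finset.mem_filter, hU]
      constructor
      · rintro ⟨-, h | h⟩
        · exact Or.inl h
        · by_cases h1 : g = 1
          · exact Or.inl h1
          · exact Or.inr ⟨Finset.mem_univ _, ⟨h1, h.2⟩, h.1⟩
      · rintro (h | ⟨-, h, h'⟩)
        · exact ⟨Finset.mem_univ _, Or.inl h⟩
        · exact ⟨Finset.mem_univ _, Or.inr ⟨h', h.2⟩⟩
    rw [this, Finset.card_insert_of_notMem]
    rw [Finset.mem_filter]
    simp
  -- the values of `K`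
  have hK1 : ∀ g : G, g ≠ 1 → (fixedBy P g).ncard = 1 → twgp2K Ωf g = 1 := by
    intro g hg h1
    exact twgp2K_eq_one Ωf g h1 fun y hy => (hΩf y).mpr (hpar g hg y hy)
  have hK2 : ∀ g : G, g ≠ 1 → (fixedBy P g).ncard = 2 → twgp2K Ωf g = 0 ∨ twgp2K Ωf g = 2 := by
    intro g hg h2
    exact twgp2K_eq_zero_or_two Ωf g h2 (hin g hg)
  -- (I1) all elements
  have hS1 := twgp2_sum_K_class x₀ Ωf hΩf (fun _ : G => True) (fun _ _ _ => trivial)
  rw [hncard, Finset.filter_true_of_mem (fun _ _ => trivial)] at hS1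
  -- (I5) parabolic elements
  have hS2 := twgp2_sum_K_class x₀ Ωf hΩf (fun g : G => g ≠ 1 ∧ (fixedBy P g).ncard = 1)
    (fun g h hg => ⟨twgp2_conj_ne_one hg.1 h, by rw [twgp2_ncard_fixedBy_conj]; exact hg.2⟩)
  have hParcard : Par.card = Ωf.card * (Q - 1) := by
    have h1 : ∑ g ∈ Par, twgp2K Ωf g = Par.card := by
      rw [Finset.card_eq_sum_ones]
      apply Finset.sum_congr rfl
      intro g hg
      rw [hPar, Finset.mem_filter] at hg
      exact hK1 g hg.2.1 hg.2.2
    rw [← h1, hPar, hS2, ← hQcard, Nat.add_sub_cancel]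
  refine ⟨hG, hParcard, ?_⟩
  -- the pointwise identity `K g + 2 [g ∈ R] + [g ∈ Par] = 2` for `g ≠ 1`
  have hpt : ∀ g ∈ Finset.univ.erase (1 : G),
      twgp2K Ωf g + (2 * (if twgp2K Ωf g = 0 then 1 else 0)
        + (if (fixedBy P g).ncard = 1 then 1 else 0)) = 2 := by
    intro g hg
    have hg1 : g ≠ 1 := (Finset.mem_erase.mp hg).1
    rcases hfix g hg1 with h | h
    · rw [hK1 g hg1 h, if_neg one_ne_zero, if_pos h]
    · rcases hK2 g hg1 h with h' | h'
      · rw [h', if_pos rfl, if_neg (by omega)]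
      · rw [h', if_neg (by omega), if_neg (by omega)]
  have hsum := Finset.sum_congr rfl hpt
  rw [Finset.sum_add_distrib, Finset.sum_add_distrib, ← Finset.mul_sum, Finset.sum_const,
    ← Finset.card_filter, ← Finset.card_filter, Finset.card_erase_of_mem (Finset.mem_univ _),
    Finset.card_univ, smul_eq_mul] at hsum
  have hRe : (Finset.univ.erase (1 : G)).filter (fun g => twgp2K Ωf g = 0) = R := by
    ext g
    rw [hR, Finset.mem_filter, Finset.mem_filter, Finset.mem_erase]
    tauto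
  have hPe : (Finset.univ.erase (1 : G)).filter (fun g => (fixedBy P g).ncard = 1) = Par := by
    ext g
    rw [hPar, Finset.mem_filter, Finset.mem_filter, Finset.mem_erase]
    tauto
  rw [hRe, hPe] at hsum
  have hS1' : ∑ g ∈ Finset.univ.erase (1 : G), twgp2K Ωf g + Ωf.card = Ωf.card * n := by
    rw [← hS1, ← twgp2K_one (G := G) Ωf, Finset.sum_erase_add _ _ (Finset.mem_univ _)]
  have hGpos : 1 ≤ Fintype.card G := Fintype.card_pos
  have hQpos : 1 ≤ Q := by omega
  have h3 : Ωf.card * Q = Ωf.card * (Q - 1) + Ωf.card := by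
    obtain ⟨q, hq⟩ : ∃ q, Q = q + 1 := ⟨Q - 1, by omega⟩
    rw [hq, Nat.add_sub_cancel]; ring
  rw [hG] at hsum hGpos
  rw [hParcard] at hsum
  omega

end Count3

section Count4

variable {G P : Type*} [Group G] [Fintype G] [MulAction G P]

/-- (I6): a subgroup `U` fixing `x₀` and acting freely on `Ωf ∖ {x₀}` has `|U| ∣ |Ωf| - 1`. -/
theorem twgp2_card_mod (x₀ : P) (Ωf : Finset P) (hx₀ : x₀ ∈ Ωf)
    (U : Subgroup G)
    (hstab : ∀ u ∈ U, ∀ x ∈ Ωf, u • x ∈ Ωf)
    (hUx₀ : ∀ u ∈ U, u • x₀ = x₀)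
    (hfree : ∀ u ∈ U, u ≠ 1 → ∀ x ∈ Ωf, u • x = x → x = x₀) :
    ∃ s : ℕ, Ωf.card = 1 + s * Nat.card U := by
  classical
  set T := Ωf.erase x₀ with hT
  set Uf := Finset.univ.filter fun g : G => g ∈ U with hUf
  have hUfcard : Uf.card = Nat.card U := by
    rw [Nat.card_eq_fintype_card, Fintype.card_subtype]
  have hmemUf : ∀ g, g ∈ Uf ↔ g ∈ U := by
    intro g; rw [hUf, Finset.mem_filter]; simp
  let f : P → Finset P := fun y => Uf.image (fun u => u • y)
  have hTstab : ∀ u ∈ U, ∀ y ∈ T, u • y ∈ T := by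
    intro u hu y hy
    rw [hT, Finset.mem_erase] at hy ⊢
    refine ⟨?_, hstab u hu y hy.2⟩
    intro h
    apply hy.1
    rw [← inv_smul_smul u y, h]
    exact hUx₀ u⁻¹ (U.inv_mem hu)
  have hfcard : ∀ y ∈ T, (f y).card = Nat.card U := by
    intro y hy
    rw [← hUfcard]
    apply Finset.card_image_of_injOn
    intro u hu u' hu' huu'
    simp only at huu'
    by_contra hne
    have h1 : u'⁻¹ * u ∈ U :=
      U.mul_mem (U.inv_mem ((hmemUf u').mp hu')) ((hmemUf u).mp hu)
    have h2 : u'⁻¹ * u ≠ 1 := by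
      intro h
      apply hne
      exact (inv_mul_eq_one.mp h).symm
    have h3 : (u'⁻¹ * u) • y = y := by rw [mul_smul, huu', inv_smul_smul]
    have hy' := Finset.mem_erase.mp hy
    exact hy'.1 (hfree _ h1 h2 y hy'.2 h3)
  have hfib : ∀ y ∈ T, T.filter (fun y' => f y' = f y) = f y := by
    intro y hy
    ext y'
    rw [Finset.mem_filter]
    constructor
    · rintro ⟨-, h⟩
      rw [← h]
      exact Finset.mem_image.mpr ⟨1, (hmemUf 1).mpr U.one_mem, one_smul _ _⟩
    · intro h
      obtain ⟨u, hu, rfl⟩ := Finset.mem_image.mp h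
      have huU := (hmemUf u).mp hu
      refine ⟨hTstab u huU y hy, ?_⟩
      ext z
      simp only [f, Finset.mem_image]
      constructor
      · rintro ⟨v, hv, rfl⟩
        exact ⟨v * u, (hmemUf _).mpr (U.mul_mem ((hmemUf v).mp hv) huU), mul_smul _ _ _⟩
      · rintro ⟨v, hv, rfl⟩
        exact ⟨v * u⁻¹, (hmemUf _).mpr (U.mul_mem ((hmemUf v).mp hv) (U.inv_mem huU)),
          by rw [mul_smul, inv_smul_smul]⟩
  have hcard : T.card = (T.image f).card * Nat.card U := by
    rw [Finset.card_eq_sum_card_fiberwise (f := f) (t := T.image f)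
      (fun x hx => Finset.mem_image_of_mem f hx)]
    rw [Finset.sum_const_nat]
    intro b hb
    obtain ⟨y, hy, rfl⟩ := Finset.mem_image.mp hb
    rw [hfib y hy, hfcard y hy]
  refine ⟨(T.image f).card, ?_⟩
  rw [← hcard, hT, Finset.card_erase_of_mem hx₀]
  have := Finset.card_pos.mpr ⟨x₀, hx₀⟩
  omega

/-- no subgroup of index two when more than half of the elements have odd order. -/
theorem twgp2_no_index_two (φ : G →* ℤˣ) (hφ : Function.Surjective φ) (A : Finset G)
    (hA : ∀ g ∈ A, ∃ m : ℕ, Odd m ∧ g ^ m = 1) : 2 * A.card ≤ Fintype.card G := by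
  classical
  have hker : ∀ g ∈ A, φ g = 1 := by
    intro g hg
    obtain ⟨m, hm, hgm⟩ := hA g hg
    have h1 : (φ g) ^ m = 1 := by rw [← map_pow, hgm, map_one]
    rcases Int.units_eq_one_or (φ g) with h | h
    · exact h
    · rw [h, hm.neg_one_pow] at h1
      exact absurd h1 (by decide)
  obtain ⟨g₀, hg₀⟩ := hφ (-1)
  have hdisj : Disjoint A (A.image (g₀ * ·)) := by
    rw [Finset.disjoint_left]
    intro g hg hg'
    obtain ⟨a, ha, rfl⟩ := Finset.mem_image.mp hg'
    have := hker _ hg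
    rw [map_mul, hg₀, hker a ha] at this
    exact absurd this (by decide)
  have hcard : (A.image (g₀ * ·)).card = A.card :=
    Finset.card_image_of_injective _ (mul_right_injective g₀)
  have := Finset.card_le_univ (A ∪ A.image (g₀ * ·))
  rw [Finset.card_union_of_disjoint hdisj, hcard] at this
  omega

end Count4

section Count5

variable {G P : Type*} [Group G] [Fintype G] [MulAction G P]

open Classical in
/-- (C): the elements without fixed point in `Ωf` form a single class of conjugates of a two-point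
stabiliser, whose normaliser has index two over it. -/
theorem twgp2_one_class
    (hfix : ∀ g : G, g ≠ 1 → (fixedBy P g).ncard = 1 ∨ (fixedBy P g).ncard = 2)
    (Ωf : Finset P) (hstab : ∀ g : G, ∀ x ∈ Ωf, g • x ∈ Ωf)
    (hK1 : ∀ g : G, g ≠ 1 → (fixedBy P g).ncard = 1 → twgp2K Ωf g ≠ 0)
    (hRpos : 0 < (Finset.univ.filter fun g : G => g ≠ 1 ∧ twgp2K Ωf g = 0).card)
    (hRlt : 2 * (Finset.univ.filter fun g : G => g ≠ 1 ∧ twgp2K Ωf g = 0).card
      < Fintype.card G) :
    ∃ d : ℕ, 2 ≤ d ∧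
      (Finset.univ.filter fun g : G => g ≠ 1 ∧ twgp2K Ωf g = 0).card * (2 * d)
        = Fintype.card G * (d - 1) ∧
      ∀ r : G, r ≠ 1 → twgp2K Ωf r = 0 → r ^ d = 1 := by
  set R := Finset.univ.filter fun g : G => g ≠ 1 ∧ twgp2K Ωf g = 0 with hR
  have hRmem : ∀ g, g ∈ R ↔ g ≠ 1 ∧ twgp2K Ωf g = 0 := by
    intro g; rw [hR, Finset.mem_filter]; simp
  have hR2 : ∀ r ∈ R, (fixedBy P r).ncard = 2 := by
    intro r hr
    obtain ⟨h1, h0⟩ := (hRmem r).mp hr
    rcases hfix r h1 with h | h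
    · exact absurd h0 (hK1 r h1 h)
    · exact h
  -- the class of `r`
  let C : G → Finset G := fun r =>
    Finset.univ.filter fun c : G => c ≠ 1 ∧ ∃ g : G, fixedBy P c = g • fixedBy P r
  have hCmem : ∀ r c, c ∈ C r ↔ c ≠ 1 ∧ ∃ g : G, fixedBy P c = g • fixedBy P r := by
    intro r c; simp only [C, Finset.mem_filter, Finset.mem_univ, true_and]
  have hCR : ∀ r ∈ R, C r ⊆ R := by
    intro r hr c hc
    obtain ⟨hc1, g, hg⟩ := (hCmem r c).mp hc
    rw [hRmem]
    refine ⟨hc1, ?_⟩
    rw [twgp2K_eq_zero_iff]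
    intro x hx hcx
    have h1 : x ∈ fixedBy P c := hcx
    rw [hg, Set.mem_smul_set_iff_inv_smul_mem] at h1
    have h2 := ((hRmem r).mp hr).2
    rw [twgp2K_eq_zero_iff] at h2
    exact h2 (g⁻¹ • x) (hstab g⁻¹ x hx) h1
  have hC4 : ∀ r ∈ R, ∃ d : ℕ, 2 ≤ d ∧
      ((C r).card * d = Fintype.card G * (d - 1) ∨
        (C r).card * (2 * d) = Fintype.card G * (d - 1)) ∧ (∀ c ∈ C r, c ^ d = 1) := by
    intro r hr
    obtain ⟨d, hd, halt, hpow⟩ := twgp2_block_summary hfix r ((hRmem r).mp hr).1 (hR2 r hr)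
    exact ⟨d, hd, halt, fun c hc => hpow c ((hCmem r c).mp hc).1 ((hCmem r c).mp hc).2⟩
  have hC4' : ∀ r ∈ R, Fintype.card G ≤ 4 * (C r).card := by
    intro r hr
    obtain ⟨d, hd, halt, -⟩ := hC4 r hr
    obtain ⟨e, rfl⟩ : ∃ e, d = e + 1 := ⟨d - 1, by omega⟩
    rw [Nat.add_sub_cancel] at halt
    have he : 1 ≤ e := by omega
    rcases halt with h | h <;> nlinarith
  obtain ⟨r₀, hr₀⟩ := Finset.card_pos.mp hRpos
  have hsub : R ⊆ C r₀ := by
    intro r₁ hr₁
    by_contra hnot
    have hdisj : Disjoint (C r₀) (C r₁) := by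
      rw [Finset.disjoint_left]
      intro c hc0 hc1
      apply hnot
      obtain ⟨-, g, hg⟩ := (hCmem r₀ c).mp hc0
      obtain ⟨-, g', hg'⟩ := (hCmem r₁ c).mp hc1
      rw [hCmem]
      refine ⟨((hRmem r₁).mp hr₁).1, g'⁻¹ * g, ?_⟩
      rw [mul_smul, ← hg, hg', inv_smul_smul]
    have h1 : (C r₀ ∪ C r₁).card ≤ R.card :=
      Finset.card_le_card (Finset.union_subset (hCR r₀ hr₀) (hCR r₁ hr₁))
    rw [Finset.card_union_of_disjoint hdisj] at h1
    have h2 := hC4' r₀ hr₀
    have h3 := hC4' r₁ hr₁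
    omega
  have hRC : R = C r₀ := Finset.Subset.antisymm hsub (hCR r₀ hr₀)
  obtain ⟨d, hd, halt, hpow⟩ := hC4 r₀ hr₀
  refine ⟨d, hd, ?_, ?_⟩
  · rw [← hRC] at halt
    rcases halt with h | h
    · exfalso
      obtain ⟨e, rfl⟩ : ∃ e, d = e + 1 := ⟨d - 1, by omega⟩
      rw [Nat.add_sub_cancel] at h
      have he : 1 ≤ e := by omega
      nlinarith
    · exact h
  · intro r hr1 hr0
    apply hpow
    rw [← hRC, hRmem]
    exact ⟨hr1, hr0⟩

end Count5

section Main

variable {G P : Type*} [Group G] [Finite G] [MulAction G P]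

theorem twg_pg_two_transitive
    (hfix : ∀ g : G, g ≠ 1 → (fixedBy P g).ncard = 1 ∨ (fixedBy P g).ncard = 2)
    (x₀ : P) (hΩ : ∃ y ∈ orbit G x₀, y ≠ x₀)
    (hpar : ∀ g : G, g ≠ 1 → ∀ y : P, fixedBy P g = {y} → y ∈ orbit G x₀)
    (htrans : ∀ y y' : P, y ≠ x₀ → y' ≠ x₀ →
      (∃ g : G, g ≠ 1 ∧ g • x₀ = x₀ ∧ g • y = y) → (∃ g : G, g ≠ 1 ∧ g • x₀ = x₀ ∧ g • y' = y') →
      ∃ u : G, u • x₀ = x₀ ∧ u • y = y')
    (U : Subgroup G)
    (hU : ∀ g : G, g ∈ U ↔ g = 1 ∨ (g • x₀ = x₀ ∧ (fixedBy P g).ncard = 1))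
    (hQ3 : 3 ≤ Nat.card U)
    (hc2 : Nat.card U < Nat.card (stabilizer G x₀))
    (hcdvd : Nat.card (stabilizer G x₀) / Nat.card U ∣ Nat.card U - 1)
    (φ : G →* ℤˣ) (hφ : Function.Surjective φ) :
    (orbit G x₀).ncard = Nat.card U + 1 := by
  classical
  have : Fintype G := Fintype.ofFinite G
  -- the orbit as a finset
  have hfin : (orbit G x₀).Finite := Set.finite_range _
  set Ωf := hfin.toFinset with hΩfdef
  have hΩf : ∀ x, x ∈ Ωf ↔ x ∈ orbit G x₀ := fun x => hfin.mem_toFinset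
  have hNΩ : (orbit G x₀).ncard = Ωf.card := Set.ncard_eq_toFinset_card _ hfin
  set n := Nat.card (stabilizer G x₀) with hn
  set Q := Nat.card U with hQ
  -- `U ≤ G_{x₀}`
  have hUle : U ≤ stabilizer G x₀ := by
    intro u hu
    rw [mem_stabilizer_iff]
    rcases (hU u).mp hu with rfl | h
    · exact one_smul _ _
    · exact h.1
  obtain ⟨c, hc⟩ : Q ∣ n := Subgroup.card_dvd_of_le hUle
  have hQpos : 0 < Q := by omega
  have hcdiv : n / Q = c := by rw [hc]; exact Nat.mul_div_cancel_left c hQpos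
  rw [hcdiv] at hcdvd
  have hc2' : 2 ≤ c := by
    by_contra h
    have h1 : c ≤ 1 := by omega
    have h2 : Q * c ≤ Q * 1 := Nat.mul_le_mul_left Q h1
    omega
  have hn4 : 4 ≤ n := by nlinarith
  -- (a)
  have hin : ∀ g : G, g ≠ 1 → ∀ x ∈ Ωf, g • x = x → ∀ y : P, y ≠ x → g • y = y → y ∈ Ωf := by
    intro g hg x hx hgx y hyx hgy
    exact (hΩf y).mpr (twgp2_fix_in_orbit hfix x₀ hΩ hpar htrans hn4 g hg x ((hΩf x).mp hx)
      hgx y hyx hgy)
  -- the class equation
  obtain ⟨hG, hPar, hclass⟩ := twgp2_class_eq hfix x₀ Ωf hΩf hpar hin U hU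
  rw [← hn] at hG hclass
  rw [← hQ] at hPar hclass
  have hstab : ∀ g : G, ∀ x ∈ Ωf, g • x ∈ Ωf := by
    intro g x hx
    rw [hΩf] at hx ⊢
    exact mem_orbit_of_mem_orbit g hx
  have hx₀ : x₀ ∈ Ωf := (hΩf x₀).mpr (mem_orbit_self x₀)
  -- (I6)
  obtain ⟨s, hs⟩ := twgp2_card_mod x₀ Ωf hx₀ U (fun u _ x hx => hstab u x hx)
    (fun u hu => mem_stabilizer_iff.mp (hUle hu))
    (by
      intro u hu hu1 x _ hux
      rcases (hU u).mp hu with h | h
      · exact absurd h hu1
      · obtain ⟨y, hy⟩ := Set.ncard_eq_one.mp h.2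
        have h1 : x ∈ fixedBy P u := hux
        have h2 : x₀ ∈ fixedBy P u := h.1
        rw [hy, Set.mem_singleton_iff] at h1 h2
        rw [h1, h2])
  rw [← hQ] at hs
  have hN2 : 2 ≤ Ωf.card := by
    obtain ⟨y, hy, hyx⟩ := hΩ
    have hsub : ({x₀, y} : Finset P) ⊆ Ωf := by
      intro z hz
      rw [Finset.mem_insert, Finset.mem_singleton] at hz
      rcases hz with rfl | rfl
      · exact hx₀
      · exact (hΩf _).mpr hy
    have h2 := Finset.card_le_card hsub
    rwa [Finset.card_pair (Ne.symm hyx)] at h2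
  have hs1 : 1 ≤ s := by
    rcases Nat.eq_zero_or_pos s with h | h
    · rw [h] at hs; omega
    · exact h
  set R := Finset.univ.filter fun g : G => g ≠ 1 ∧ twgp2K Ωf g = 0 with hR
  set Par := Finset.univ.filter fun g : G => g ≠ 1 ∧ (fixedBy P g).ncard = 1 with hPardef
  have hK1 : ∀ g : G, g ≠ 1 → (fixedBy P g).ncard = 1 → twgp2K Ωf g = 1 := by
    intro g hg h1
    exact twgp2K_eq_one Ωf g h1 fun y hy => (hΩf y).mpr (hpar g hg y hy)
  have hRpos : 0 < R.card := by
    by_contra h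
    have h0 : R.card = 0 := by omega
    rw [h0, hc] at hclass
    nlinarith
  have hRlt : 2 * R.card < Fintype.card G := by
    rw [hG]
    nlinarith
  obtain ⟨d, hd, hRd, hpow⟩ := twgp2_one_class hfix Ωf hstab
    (fun g hg h1 => by rw [hK1 g hg h1]; exact one_ne_zero) hRpos hRlt
  -- the arithmetic
  have harith : (1 + s * Q) * c + 2 * d * s = d * (1 + s * Q) := by
    obtain ⟨e, rfl⟩ : ∃ e, d = e + 1 := ⟨d - 1, by omega⟩
    rw [Nat.add_sub_cancel, hG, hc, hs] at hRd
    rw [hc, hs] at hclass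
    apply Nat.eq_of_mul_eq_mul_left hQpos
    generalize R.card = ρ at hRd hclass
    zify at hRd hclass ⊢
    linear_combination hRd - ((e : ℤ) + 1) * hclass
  rcases twgp2_arith Q s c d hQ3 hs1 hc2' hcdvd harith with h | ⟨hQ3', hs3, hc2'', hd5⟩
  · rw [hNΩ, hs, h]; ring
  · exfalso
    rw [hQ3', hc2''] at hc
    rw [hs3, hQ3'] at hs
    rw [hs, hc] at hG
    rw [hs, hc, hQ3'] at hclass
    rw [hs, hQ3'] at hPar
    have hRcard : R.card = 24 := by omega
    have hParcard : Par.card = 20 := by omega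
    have hGcard : Fintype.card G = 60 := by omega
    -- parabolic elements have order dividing `Q`
    have hParpow : ∀ g ∈ Par, g ^ 3 = 1 := by
      intro g hg
      rw [hPardef, Finset.mem_filter] at hg
      obtain ⟨-, hg1, hg2⟩ := hg
      obtain ⟨y, hy⟩ := Set.ncard_eq_one.mp hg2
      obtain ⟨h, rfl⟩ := mem_orbit_iff.mp (hpar g hg1 y hy)
      have hgy : g • h • x₀ = h • x₀ := by
        have : h • x₀ ∈ fixedBy P g := by rw [hy]; rfl
        exact this
      have hu : h⁻¹ * g * h ∈ U := by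
        rw [hU]
        right
        refine ⟨by rw [mul_smul, mul_smul, hgy, inv_smul_smul], ?_⟩
        have := twgp2_ncard_fixedBy_conj (P := P) g h⁻¹
        rw [inv_inv] at this
        rw [this, hg2]
      have h3 : (⟨h⁻¹ * g * h, hu⟩ : U) ^ Nat.card U = 1 := pow_card_eq_one'
      rw [← hQ, hQ3'] at h3
      have h4 : (h⁻¹ * g * h) ^ 3 = 1 := congrArg Subtype.val h3
      have h5 : g = h * (h⁻¹ * g * h) * h⁻¹ := by group
      rw [h5, conj_pow, h4]
      group
    set A := insert (1 : G) (Par ∪ R) with hAdef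
    have hdisj : Disjoint Par R := by
      rw [Finset.disjoint_left]
      intro g hg hg'
      rw [hPardef, Finset.mem_filter] at hg
      rw [hR, Finset.mem_filter] at hg'
      have := hK1 g hg.2.1 hg.2.2
      omega
    have hAcard : A.card = 45 := by
      rw [hAdef, Finset.card_insert_of_notMem, Finset.card_union_of_disjoint hdisj, hParcard,
        hRcard]
      rw [Finset.mem_union, hPardef, hR, Finset.mem_filter, Finset.mem_filter]
      simp
    have hA : ∀ g ∈ A, ∃ m : ℕ, Odd m ∧ g ^ m = 1 := by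
      intro g hg
      rw [hAdef, Finset.mem_insert, Finset.mem_union] at hg
      rcases hg with rfl | hg | hg
      · exact ⟨1, odd_one, one_pow _⟩
      · exact ⟨3, by decide, hParpow g hg⟩
      · rw [hR, Finset.mem_filter] at hg
        refine ⟨5, by decide, ?_⟩
        rw [← hd5]
        exact hpow g hg.2.1 hg.2.2
    have := twgp2_no_index_two φ hφ A hA
    omega

end Main

end Fermat.Agent.S56
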