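/-
S56 / TWG / Case B, row 380 (MX-D1): `twg_mx_normal_form`, VERBATIM from `TW/CaseB/MatSpec.lean`
(origin/helper7 138d742).  No sorry in this file; black boxes: MX-C1 `twg_mx_swap` and MX-C0
`twg_mx_frattini` (`MatSwapSpec.lean`, row 379); real inputs: PG0 (`Perm1`, helper28), PG2 (`Perm2`,
helper4), MX-A (`MatFix`, helper23), MX-B (`MatInfty`).

Route.  `det : Γ → {±1}` descends to a surjective character of `twgBar Γ` (`twgn_exists_sign`).  A
non-trivial element of `S` is a translation `z ↦ z + w₁` (`kˣ` has no `p`-torsion), so `|U| ≥ p ≥ 3`;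
Frattini gives `t ∈ Γ` fixing `∞` with `det t = -1`; `t̄ ∉ U` (else `t^p` is a scalar of determinant
`-1`), so `|U| < |stab ∞|`; PG2: `|orbit ∞| = |U| + 1`.  `t̄ = (z ↦ τ z + β)`, `τ ≠ 1`, fixes
`y₀ = β/(1-τ)`; MX-C1 gives `s` swapping `∞` and `y₀`; `y₀ + W ⊆ orbit ∖ {∞}` has `|U|` elements,
hence equality (`twgn_structure`).  Scalar removal: if `λ u(w) ∈ Γ` then `u(w) ∈ Γ`
(`(λ u(w))^(q-1) = u(-w)`, `twgn_upperRight_mem`).  Conjugate by `γ = (z ↦ (z - y₀)/w₁)`.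
-/
import Fermat.Agent.S56.TW.CaseB.MatInfty
import Fermat.Agent.S56.TW.CaseB.MatFix
import Fermat.Agent.S56.TW.CaseB.Perm2
import Fermat.Agent.S56.TW.CaseB.MatSwap

set_option autoImplicit false

namespace Fermat.Agent.S56

open Matrix MulAction OnePoint Matrix.GeneralLinearGroup

variable {k : Type*} [Field k] [DecidableEq k]

/-- the action of an upper triangular matrix on a finite point -/
theorem twgn_upper_smul_coe (g : GL (Fin 2) k) (hg : g 1 0 = 0) (z : k) :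
    g • (z : OnePoint k) = (((g 0 0 * z + g 0 1) / g 1 1 : k) : OnePoint k) := by
  have hdet : (g : Matrix (Fin 2) (Fin 2) k).det ≠ 0 := g.det_ne_zero
  rw [Matrix.det_fin_two, hg, mul_zero, sub_zero] at hdet
  have h11 : g 1 1 ≠ 0 := right_ne_zero_of_mul hdet
  rw [OnePoint.smul_some_eq_ite, hg, zero_mul, zero_add, if_neg h11]

omit [DecidableEq k] in
theorem twgn_upper_diag_ne_zero (g : GL (Fin 2) k) (hg : g 1 0 = 0) : g 0 0 ≠ 0 ∧ g 1 1 ≠ 0 := by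
  have hdet : (g : Matrix (Fin 2) (Fin 2) k).det ≠ 0 := g.det_ne_zero
  rw [Matrix.det_fin_two, hg, mul_zero, sub_zero] at hdet
  exact ⟨left_ne_zero_of_mul hdet, right_ne_zero_of_mul hdet⟩

omit [DecidableEq k] in
/-- powers of `λ · u(w)` -/
theorem twgn_scalar_unip_pow (g : GL (Fin 2) k) (hg : g 1 0 = 0) (h : g 0 0 = g 1 1) (w : k)
    (hw : g 0 1 = g 1 1 * w) (n : ℕ) :
    (g ^ n) 1 0 = 0 ∧ (g ^ n) 0 0 = g 1 1 ^ n ∧ (g ^ n) 1 1 = g 1 1 ^ n ∧
      (g ^ n) 0 1 = n * g 1 1 ^ n * w := by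
  induction n with
  | zero => simp
  | succ n ih =>
    obtain ⟨h1, h2, h3, h4⟩ := ih
    rw [pow_succ, pow_succ]
    simp only [Units.val_mul, Matrix.mul_apply, Fin.sum_univ_two]
    rw [h1, h2, h3, h4, hg, h, hw]
    refine ⟨by ring, by ring, by ring, ?_⟩
    push_cast
    ring

/-- **scalar removal**: if `twgBar Γ` contains the translation by `w`, then `u(w) ∈ Γ` -/
theorem twgn_upperRight_mem [Finite k] (Γ : Subgroup (GL (Fin 2) k)) (w : k)
    (hw : w ∈ twgW Γ) : upperRightHom w ∈ Γ := by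
  classical
  have : Fintype k := Fintype.ofFinite k
  obtain ⟨g, hg, hgw⟩ := Subgroup.mem_map.1 ((mem_twgW Γ w).1 hw)
  have hsm : ∀ x : OnePoint k, g • x = twgAff 1 w x := by
    intro x
    rw [← hgw]
    rfl
  have hg10 : g 1 0 = 0 := OnePoint.smul_infty_eq_self_iff.1 (by rw [hsm]; rfl)
  obtain ⟨h00, h11⟩ := twgn_upper_diag_ne_zero g hg10
  have e0 := hsm ((0 : k) : OnePoint k)
  have e1 := hsm ((1 : k) : OnePoint k)
  rw [twgn_upper_smul_coe g hg10, twgAff_coe, OnePoint.coe_eq_coe, Units.val_one] at e0 e1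
  have hw01 : g 0 1 = g 1 1 * w := by
    rw [div_eq_iff h11] at e0
    linear_combination e0
  have hw00 : g 0 0 = g 1 1 := by
    rw [div_eq_iff h11] at e1
    linear_combination e1 - hw01
  obtain ⟨p1, p2, p3, p4⟩ := twgn_scalar_unip_pow g hg10 hw00 w hw01 (Fintype.card k - 1)
  have hlam : g 1 1 ^ (Fintype.card k - 1) = 1 := FiniteField.pow_card_sub_one_eq_one _ h11
  have hq : ((Fintype.card k - 1 : ℕ) : k) = -1 := by
    rw [Nat.cast_sub Fintype.card_pos, FiniteField.cast_card_eq_zero, Nat.cast_one, zero_sub]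
  have hpow : g ^ (Fintype.card k - 1) = upperRightHom (-w) := by
    apply Units.ext
    rw [upperRightHom_apply]
    ext i j
    fin_cases i <;> fin_cases j
    · show (g ^ (Fintype.card k - 1)) 0 0 = 1
      rw [p2, hlam]
    · show (g ^ (Fintype.card k - 1)) 0 1 = -w
      rw [p4, hlam, hq]; ring
    · show (g ^ (Fintype.card k - 1)) 1 0 = 0
      exact p1
    · show (g ^ (Fintype.card k - 1)) 1 1 = 1
      rw [p3, hlam]
  have hmem : upperRightHom (-w) ∈ Γ := by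
    rw [← hpow]
    exact Γ.pow_mem hg _
  have := Γ.inv_mem hmem
  rwa [← AddChar.map_neg_eq_inv, neg_neg] at this

/-- conjugation of a translation by an upper triangular matrix -/
theorem twgn_conj_upperRight (γ : GL (Fin 2) k) (hγ : γ 1 0 = 0) (b : k) :
    γ * upperRightHom b * γ⁻¹ = upperRightHom (γ 0 0 / γ 1 1 * b) := by
  obtain ⟨-, h11⟩ := twgn_upper_diag_ne_zero γ hγ
  rw [mul_inv_eq_iff_eq_mul]
  apply Units.ext
  rw [Units.val_mul, Units.val_mul]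
  ext i j
  fin_cases i <;> fin_cases j <;>
    (simp [upperRightHom_apply, Matrix.mul_apply, Fin.sum_univ_two, hγ]; try (field_simp); try ring)

/-- the sign of the determinant, on `Γ` -/
noncomputable def twgnSign (Γ : Subgroup (GL (Fin 2) k)) (hne : (-1 : kˣ) ≠ 1)
    (hdetsq : ∀ g ∈ Γ, det g = 1 ∨ det g = -1) : ↥Γ →* ℤˣ where
  toFun g := open Classical in if det g.1 = 1 then 1 else -1
  map_one' := by
    rw [Subgroup.coe_one, map_one, if_pos rfl]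
  map_mul' g h := by
    classical
    rw [Subgroup.coe_mul, map_mul]
    rcases hdetsq g.1 g.2 with h1 | h1 <;> rcases hdetsq h.1 h.2 with h2 | h2
    · rw [h1, h2, one_mul, if_pos rfl, one_mul]
    · rw [h1, h2, one_mul, if_pos rfl, if_neg hne, one_mul]
    · rw [h1, h2, mul_one, if_pos rfl, if_neg hne, mul_one]
    · rw [h1, h2, neg_mul_neg, one_mul, if_pos rfl, if_neg hne, neg_mul_neg, one_mul]

theorem twgnSign_apply (Γ : Subgroup (GL (Fin 2) k)) (hne : (-1 : kˣ) ≠ 1)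
    (hdetsq : ∀ g ∈ Γ, det g = 1 ∨ det g = -1) (g : ↥Γ) :
    twgnSign Γ hne hdetsq g = open Classical in if det g.1 = 1 then 1 else -1 := rfl

/-- the sign of the determinant descends to a surjective character of `twgBar Γ` -/
theorem twgn_exists_sign (Γ : Subgroup (GL (Fin 2) k)) (hne : (-1 : kˣ) ≠ 1)
    (hdetscal : ∀ g ∈ Γ, (∀ x : OnePoint k, g • x = x) → det g = 1)
    (hdetsq : ∀ g ∈ Γ, det g = 1 ∨ det g = -1) (hdetne : ∃ g ∈ Γ, det g ≠ 1) :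
    ∃ φ : twgBar Γ →* ℤˣ, Function.Surjective φ := by
  classical
  let f : ↥Γ →* ↥(twgBar Γ) := (MulAction.toPermHom (GL (Fin 2) k) (OnePoint k)).subgroupMap Γ
  have hf : Function.Surjective f := MonoidHom.subgroupMap_surjective _ _
  have hker : f.ker ≤ (twgnSign Γ hne hdetsq).ker := by
    intro g hg
    rw [MonoidHom.mem_ker] at hg ⊢
    have h1 : MulAction.toPermHom (GL (Fin 2) k) (OnePoint k) g.1 = 1 :=
      congrArg Subtype.val hg
    have h2 : ∀ x : OnePoint k, g.1 • x = x := by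
      intro x
      have := congrArg (fun σ : Equiv.Perm (OnePoint k) => σ x) h1
      exact this
    rw [twgnSign_apply, if_pos (hdetscal g.1 g.2 h2)]
  refine ⟨f.liftOfSurjective hf ⟨twgnSign Γ hne hdetsq, hker⟩, ?_⟩
  have hcomp : ∀ g : ↥Γ, (f.liftOfSurjective hf ⟨twgnSign Γ hne hdetsq, hker⟩) (f g) =
      twgnSign Γ hne hdetsq g := fun g => MonoidHom.liftOfRightInverse_comp_apply _ _ _ _ g
  obtain ⟨g₀, hg₀, hg₀1⟩ := hdetne
  intro u
  rcases Int.units_eq_one_or u with rfl | rfl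
  · exact ⟨1, map_one _⟩
  · refine ⟨f ⟨g₀, hg₀⟩, ?_⟩
    rw [hcomp, twgnSign_apply, if_neg hg₀1]

omit [DecidableEq k] in
/-- `kˣ` has no `p`-torsion in characteristic `p` -/
theorem twgn_units_eq_one_of_pow (p : ℕ) [Fact p.Prime] [CharP k p] (x : kˣ) (n : ℕ)
    (hx : x ^ p ^ n = 1) : x = 1 := by
  apply Units.ext
  have hx' : (x : k) ^ p ^ n = 1 := by
    rw [← Units.val_pow_eq_pow_val, hx, Units.val_one]
  have h := sub_pow_char_pow (R := k) (p := p) (n := n) (x := (x : k)) (y := 1)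
  rw [hx', one_pow, sub_self] at h
  have hp0 : p ^ n ≠ 0 := pow_ne_zero n (Fact.out : p.Prime).ne_zero
  rw [Units.val_one]
  exact sub_eq_zero.1 ((pow_eq_zero_iff hp0).1 h)

/-- an element of `p`-power order fixing `∞` is a translation -/
theorem twgn_mem_twgU_of_pow (p : ℕ) [Fact p.Prime] [CharP k p] (Γ : Subgroup (GL (Fin 2) k))
    (g : twgBar Γ) (hg : g • (∞ : OnePoint k) = ∞) (n : ℕ) (hn : g ^ p ^ n = 1) :
    g ∈ twgU Γ := by
  have hmem : g ∈ stabilizer (twgBar Γ) (∞ : OnePoint k) := hg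
  have h1 : (⟨g, hmem⟩ : ↥(stabilizer (twgBar Γ) (∞ : OnePoint k))) ^ p ^ n = 1 :=
    Subtype.ext hn
  have h2 : twgMult Γ ⟨g, hmem⟩ ^ p ^ n = 1 := by rw [← map_pow, h1, map_one]
  have h3 := twgn_units_eq_one_of_pow p _ n h2
  exact (twgMult_mem_ker_iff Γ ⟨g, hmem⟩).1 (MonoidHom.mem_ker.2 h3)

/-- an element of determinant `-1` does not act as a translation -/
theorem twgn_not_mem_twgU (p : ℕ) [Fact p.Prime] [CharP k p] (hp2 : p ≠ 2)
    (Γ : Subgroup (GL (Fin 2) k)) (hne : (-1 : kˣ) ≠ 1)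
    (hdetscal : ∀ g ∈ Γ, (∀ x : OnePoint k, g • x = x) → det g = 1)
    (t : GL (Fin 2) k) (ht : t ∈ Γ) (hdet : det t = -1) :
    twgBarMk Γ ⟨t, ht⟩ ∉ twgU Γ := by
  rintro ⟨β, hβ⟩
  have h1 : MulAction.toPermHom (GL (Fin 2) k) (OnePoint k) t = twgAff 1 β := hβ
  have h2 : MulAction.toPermHom (GL (Fin 2) k) (OnePoint k) (t ^ p) = 1 := by
    rw [map_pow, h1, twgAff_one_pow, nsmul_eq_mul, CharP.cast_eq_zero, zero_mul, twgAff_one_zero]
  have h3 : ∀ x : OnePoint k, (t ^ p) • x = x := by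
    intro x
    exact congrArg (fun σ : Equiv.Perm (OnePoint k) => σ x) h2
  have h4 := hdetscal (t ^ p) (Γ.pow_mem ht p) h3
  rw [map_pow, hdet, ((Fact.out : p.Prime).odd_of_ne_two hp2).neg_one_pow] at h4
  exact hne h4

/-- the structure of the orbit of `∞`: it is `{∞} ∪ (y₀ + W)`, and `y₀` is swapped with `∞` -/
theorem twgn_structure (p : ℕ) [Fact p.Prime] [CharP k p] [Finite k] (hp2 : p ≠ 2)
    (Γ : Subgroup (GL (Fin 2) k))
    (hsplit : ∀ g ∈ Γ, ∃ x : OnePoint k, g • x = x)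
    (hirr : ¬ ∃ x : OnePoint k, ∀ g ∈ Γ, g • x = x)
    (hdetscal : ∀ g ∈ Γ, (∀ x : OnePoint k, g • x = x) → det g = 1)
    (hdetsq : ∀ g ∈ Γ, det g ^ 2 = 1) (hdetne : ∃ g ∈ Γ, det g ≠ 1)
    (S : Sylow p (twgBar Γ)) (hS1 : (S : Subgroup (twgBar Γ)) ≠ ⊥)
    (hS : ∀ g ∈ S, g • (∞ : OnePoint k) = ∞) :
    ∃ (y₀ w₁ : k) (s : GL (Fin 2) k), w₁ ≠ 0 ∧ w₁ ∈ twgW Γ ∧ s ∈ Γ ∧
      s • (∞ : OnePoint k) = (y₀ : OnePoint k) ∧ s • (y₀ : OnePoint k) = ∞ ∧
      ∀ g ∈ Γ, g 1 0 ≠ 0 → g 0 0 / g 1 0 - y₀ ∈ twgW Γ := by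
  classical
  have hp : p.Prime := Fact.out
  have hne : (-1 : kˣ) ≠ 1 := by
    intro h
    have h1 : ((-1 : kˣ) : k) = 1 := by rw [h, Units.val_one]
    rw [Units.val_neg, Units.val_one] at h1
    have h2 : ((2 : ℕ) : k) = 0 := by
      push_cast
      linear_combination -h1
    have h3 := (CharP.cast_eq_zero_iff k p 2).1 h2
    exact hp2 ((Nat.prime_dvd_prime_iff_eq hp Nat.prime_two).1 h3)
  have hpm : ∀ g ∈ Γ, det g = 1 ∨ det g = -1 := by
    intro g hg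
    have h := hdetsq g hg
    have h' : ((det g : kˣ) : k) * ((det g : kˣ) : k) = 1 := by
      rw [← pow_two, ← Units.val_pow_eq_pow_val, h, Units.val_one]
    rcases mul_self_eq_one_iff.1 h' with h1 | h1
    · exact Or.inl (Units.ext h1)
    · exact Or.inr (Units.ext (by rw [h1, Units.val_neg, Units.val_one]))
  have hfin1 : Finite (OnePoint k) := inferInstanceAs (Finite (Option k))
  have hfin2 : Finite (Equiv.Perm (OnePoint k)) := inferInstance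
  have hfin3 : Finite (twgBar Γ) := inferInstance
  -- the hypotheses of the PG package
  have hfix := twg_mx_fix Γ hsplit
  have hpow : ∀ g : twgBar Γ, (fixedBy (OnePoint k) g).ncard = 1 → g ^ p = 1 :=
    fun g h1 => twg_mx_pow p Γ g h1
  have hpar : ∀ g : twgBar Γ, g ≠ 1 → ∀ y : OnePoint k, fixedBy (OnePoint k) g = {y} →
      y ∈ orbit (twgBar Γ) (∞ : OnePoint k) :=
    fun g hg1 y hgy => twg_pg_par_mem_orbit p hpow S ∞ hS g hg1 y hgy
  have htrans := twg_mx_infty_trans Γ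
  -- a non-trivial element of `S` is a translation
  obtain ⟨⟨g₁, hg₁S⟩, hg₁1⟩ := (Subgroup.ne_bot_iff_exists_ne_one).1 hS1
  have hg₁1' : g₁ ≠ 1 := fun h => hg₁1 (Subtype.ext h)
  obtain ⟨n₁, hn₁⟩ := S.isPGroup' ⟨g₁, hg₁S⟩
  have hn₁' : g₁ ^ p ^ n₁ = 1 := by
    have := congrArg Subtype.val hn₁
    simpa using this
  have hg₁U : g₁ ∈ twgU Γ := twgn_mem_twgU_of_pow p Γ g₁ (hS g₁ hg₁S) n₁ hn₁'
  obtain ⟨w₁, hw₁⟩ := hg₁U
  have hw₁0 : w₁ ≠ 0 := by
    rintro rfl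
    apply hg₁1'
    apply Subtype.ext
    rw [hw₁, twgAff_one_zero]
    rfl
  have hw₁W : w₁ ∈ twgW Γ := by
    rw [mem_twgW, ← hw₁]
    exact g₁.2
  -- `|U| ≥ 3`
  have hQ3 : 3 ≤ Nat.card (twgU Γ) := by
    have hp3 : 3 ≤ p := by
      have := hp.two_le
      omega
    rcases (twgU_isPGroup p Γ).card_eq_or_dvd with h | h
    · exfalso
      have := (Nat.card_eq_one_iff_unique.1 h).1
      have h1 : (⟨g₁, ⟨w₁, hw₁⟩⟩ : ↥(twgU Γ)) = 1 := Subsingleton.elim _ _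
      exact hg₁1' (congrArg Subtype.val h1)
    · exact hp3.trans (Nat.le_of_dvd Nat.card_pos h)
  -- an element of determinant `-1` fixing `∞`
  obtain ⟨g₀, hg₀, hg₀1⟩ := hdetne
  obtain ⟨t, ht, htinf, htdet⟩ := twg_mx_frattini p Γ hdetscal S hS1 hS g₀ hg₀
  have htdet' : det t = -1 := by
    rcases hpm t ht with h | h
    · exact absurd (htdet ▸ h) hg₀1
    · exact h
  have htU : twgBarMk Γ ⟨t, ht⟩ ∉ twgU Γ := twgn_not_mem_twgU p hp2 Γ hne hdetscal t ht htdet'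
  have htstab : twgBarMk Γ ⟨t, ht⟩ ∈ stabilizer (twgBar Γ) (∞ : OnePoint k) := htinf
  -- `|U| < |stab ∞|`
  have hc2 : Nat.card (twgU Γ) < Nat.card (stabilizer (twgBar Γ) (∞ : OnePoint k)) := by
    rw [twg_card_stabilizer]
    have hrange : (twgMult Γ).range ≠ ⊥ := by
      intro h
      have h1 : twgMult Γ ⟨_, htstab⟩ ∈ (twgMult Γ).range := ⟨_, rfl⟩
      rw [h, Subgroup.mem_bot] at h1
      exact htU ((twgMult_mem_ker_iff Γ ⟨_, htstab⟩).1 (MonoidHom.mem_ker.2 h1))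
    have h1 : 1 < Nat.card (twgMult Γ).range := (Subgroup.one_lt_card_iff_ne_bot _).2 hrange
    exact lt_mul_of_one_lt_right Nat.card_pos h1
  have hcdvd : Nat.card (stabilizer (twgBar Γ) (∞ : OnePoint k)) / Nat.card (twgU Γ) ∣
      Nat.card (twgU Γ) - 1 := by
    rw [twg_card_stabilizer, Nat.mul_div_cancel_left _ Nat.card_pos]
    exact twg_card_range_dvd Γ
  obtain ⟨φ, hφ⟩ := twgn_exists_sign Γ hne hdetscal hpm ⟨g₀, hg₀, hg₀1⟩
  have hΩ : ∃ y ∈ orbit (twgBar Γ) (∞ : OnePoint k), y ≠ ∞ := by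
    by_contra hcon
    apply hirr
    refine ⟨∞, fun g hg => ?_⟩
    by_contra hginf
    exact hcon ⟨g • (∞ : OnePoint k), ⟨twgBarMk Γ ⟨g, hg⟩, rfl⟩, hginf⟩
  have hN := twg_pg_two_transitive hfix (∞ : OnePoint k) hΩ hpar htrans (twgU Γ) (mem_twgU_iff Γ)
    hQ3 hc2 hcdvd φ hφ
  -- the finite fixed point of `t`
  obtain ⟨τ, β, hτβ⟩ := twg_exists_aff Γ (twgBarMk Γ ⟨t, ht⟩) htinf
  have hτ : τ ≠ 1 := by
    rintro rfl
    exact htU ⟨β, hτβ⟩
  have htsm : ∀ x : OnePoint k, t • x = twgAff τ β x := by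
    intro x
    rw [← hτβ]
    rfl
  have hty : t • ((β / (1 - (τ : k)) : k) : OnePoint k) = ((β / (1 - (τ : k)) : k) : OnePoint k) := by
    rw [htsm]
    exact (twgAff_fixed_of_ne τ β hτ _).2 (Or.inr rfl)
  have htne : ∃ x : OnePoint k, t • x ≠ x := by
    by_contra hcon
    have hcon' : ∀ x : OnePoint k, t • x = x := by
      intro x
      by_contra hx
      exact hcon ⟨x, hx⟩
    have := hdetscal t ht hcon'
    rw [htdet'] at this
    exact hne this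
  obtain ⟨s, hs, hs1, hs2⟩ := twg_mx_swap p hp2 Γ hsplit hirr S hS1 hS t ht htinf _ hty htne
  refine ⟨β / (1 - (τ : k)), w₁, s, hw₁0, hw₁W, hs, hs1, hs2, ?_⟩
  -- the orbit of `∞`
  set y₀ : k := β / (1 - (τ : k)) with hy₀
  have hy₀orb : (y₀ : OnePoint k) ∈ orbit (twgBar Γ) (∞ : OnePoint k) :=
    ⟨twgBarMk Γ ⟨s, hs⟩, hs1⟩
  set A : Set (OnePoint k) := (fun w : k => ((y₀ + w : k) : OnePoint k)) '' (twgW Γ : Set k) with hA
  have hAsub : A ⊆ orbit (twgBar Γ) (∞ : OnePoint k) \ {∞} := by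
    rintro _ ⟨w, hw, rfl⟩
    refine ⟨?_, OnePoint.coe_ne_infty _⟩
    show ((y₀ + w : k) : OnePoint k) ∈ orbit (twgBar Γ) (∞ : OnePoint k)
    have h1 : (⟨twgAff 1 w, hw⟩ : twgBar Γ) • (y₀ : OnePoint k) = ((y₀ + w : k) : OnePoint k) := by
      show twgAff 1 w (y₀ : OnePoint k) = _
      rw [twgAff_coe, Units.val_one, one_mul]
    rw [← h1]
    exact MulAction.mem_orbit_of_mem_orbit _ hy₀orb
  have hAcard : A.ncard = Nat.card (twgU Γ) := by
    rw [hA, Set.ncard_image_of_injective, twg_card_twgU]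
    · rfl
    · intro w w' h
      simpa using h
  have hBcard : (orbit (twgBar Γ) (∞ : OnePoint k) \ {∞}).ncard = Nat.card (twgU Γ) := by
    rw [Set.ncard_sdiff_singleton_of_mem (MulAction.mem_orbit_self _), hN, Nat.add_sub_cancel]
  have hAeq : A = orbit (twgBar Γ) (∞ : OnePoint k) \ {∞} :=
    Set.eq_of_subset_of_ncard_le hAsub (by rw [hAcard, hBcard]) (Set.toFinite _)
  intro g hg hg10
  have h1 : g • (∞ : OnePoint k) = ((g 0 0 / g 1 0 : k) : OnePoint k) := by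
    rw [OnePoint.smul_infty_eq_ite, if_neg hg10]
  have h2 : ((g 0 0 / g 1 0 : k) : OnePoint k) ∈ A := by
    rw [hAeq, ← h1]
    refine ⟨⟨twgBarMk Γ ⟨g, hg⟩, rfl⟩, ?_⟩
    rw [h1]
    exact OnePoint.coe_ne_infty _
  obtain ⟨w, hw, hwe⟩ := h2
  have h3 : y₀ + w = g 0 0 / g 1 0 := OnePoint.coe_eq_coe.1 hwe
  have h4 : g 0 0 / g 1 0 - y₀ = w := by rw [← h3, add_sub_cancel_left]
  rw [h4]
  exact hw

/-- the normalising matrix `z ↦ (z - y₀) / w₁` -/
noncomputable def twgnGamma (y₀ w₁ : k) (hw₁ : w₁ ≠ 0) : GL (Fin 2) k :=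
  ⟨!![1 / w₁, -y₀ / w₁; 0, 1], !![w₁, y₀; 0, 1], by
    ext i j
    fin_cases i <;> fin_cases j <;>
      (simp [Matrix.mul_apply, Fin.sum_univ_two]; try field_simp; try ring), by
    ext i j
    fin_cases i <;> fin_cases j <;>
      (simp [Matrix.mul_apply, Fin.sum_univ_two]; try field_simp; try ring)⟩

omit [DecidableEq k] in
theorem twgnGamma_10 (y₀ w₁ : k) (hw₁ : w₁ ≠ 0) : twgnGamma y₀ w₁ hw₁ 1 0 = 0 := rfl

omit [DecidableEq k] in
theorem twgnGamma_00 (y₀ w₁ : k) (hw₁ : w₁ ≠ 0) : twgnGamma y₀ w₁ hw₁ 0 0 = 1 / w₁ := rfl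

omit [DecidableEq k] in
theorem twgnGamma_01 (y₀ w₁ : k) (hw₁ : w₁ ≠ 0) : twgnGamma y₀ w₁ hw₁ 0 1 = -y₀ / w₁ := rfl

omit [DecidableEq k] in
theorem twgnGamma_11 (y₀ w₁ : k) (hw₁ : w₁ ≠ 0) : twgnGamma y₀ w₁ hw₁ 1 1 = 1 := rfl

theorem twgnGamma_smul_infty (y₀ w₁ : k) (hw₁ : w₁ ≠ 0) :
    twgnGamma y₀ w₁ hw₁ • (∞ : OnePoint k) = ∞ :=
  OnePoint.smul_infty_eq_self_iff.2 (twgnGamma_10 y₀ w₁ hw₁)

theorem twgnGamma_smul_coe (y₀ w₁ : k) (hw₁ : w₁ ≠ 0) (z : k) :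
    twgnGamma y₀ w₁ hw₁ • (z : OnePoint k) = (((z - y₀) / w₁ : k) : OnePoint k) := by
  rw [twgn_upper_smul_coe _ (twgnGamma_10 y₀ w₁ hw₁), twgnGamma_00, twgnGamma_01, twgnGamma_11,
    div_one]
  congr 1
  field_simp
  ring

theorem twgnGamma_conj (y₀ w₁ : k) (hw₁ : w₁ ≠ 0) (b : k) :
    twgnGamma y₀ w₁ hw₁ * upperRightHom (w₁ * b) * (twgnGamma y₀ w₁ hw₁)⁻¹ = upperRightHom b := by
  rw [twgn_conj_upperRight _ (twgnGamma_10 y₀ w₁ hw₁), twgnGamma_00, twgnGamma_11, div_one]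
  congr 1
  field_simp

omit [DecidableEq k] in
theorem twgn_mem_map_conj (Γ : Subgroup (GL (Fin 2) k)) (γ g : GL (Fin 2) k) (hg : g ∈ Γ) :
    γ * g * γ⁻¹ ∈ Γ.map (MulAut.conj γ).toMonoidHom :=
  Subgroup.mem_map.2 ⟨g, hg, rfl⟩

/-- **MX-D1 (normal form).** -/
theorem twg_mx_normal_form (p : ℕ) [Fact p.Prime] [CharP k p] [Finite k] (hp2 : p ≠ 2)
    (Γ : Subgroup (GL (Fin 2) k))
    (hsplit : ∀ g ∈ Γ, ∃ x : OnePoint k, g • x = x)
    (hirr : ¬ ∃ x : OnePoint k, ∀ g ∈ Γ, g • x = x)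
    (hdetscal : ∀ g ∈ Γ, (∀ x : OnePoint k, g • x = x) → det g = 1)
    (hdetsq : ∀ g ∈ Γ, det g ^ 2 = 1) (hdetne : ∃ g ∈ Γ, det g ≠ 1)
    (S : Sylow p (twgBar Γ)) (hS1 : (S : Subgroup (twgBar Γ)) ≠ ⊥)
    (hS : ∀ g ∈ S, g • (∞ : OnePoint k) = ∞) :
    ∃ γ : GL (Fin 2) k, γ 1 0 = 0 ∧
      upperRightHom (1 : k) ∈ Γ.map (MulAut.conj γ).toMonoidHom ∧
      (∃ s ∈ Γ.map (MulAut.conj γ).toMonoidHom, s 0 0 = 0 ∧ s 1 1 = 0) ∧
      ∀ g ∈ Γ.map (MulAut.conj γ).toMonoidHom, g 1 0 ≠ 0 →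
        upperRightHom (g 0 0 / g 1 0) ∈ Γ.map (MulAut.conj γ).toMonoidHom := by
  obtain ⟨y₀, w₁, s, hw₁0, hw₁W, hs, hs1, hs2, horb⟩ :=
    twgn_structure p hp2 Γ hsplit hirr hdetscal hdetsq hdetne S hS1 hS
  set γ := twgnGamma y₀ w₁ hw₁0 with hγ
  have hγinf : γ • (∞ : OnePoint k) = ∞ := twgnGamma_smul_infty y₀ w₁ hw₁0
  have hγinf' : γ⁻¹ • (∞ : OnePoint k) = ∞ := by rw [inv_smul_eq_iff, hγinf]
  refine ⟨γ, twgnGamma_10 y₀ w₁ hw₁0, ?_, ?_, ?_⟩
  · -- `u(1)`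
    have h1 := twgnGamma_conj y₀ w₁ hw₁0 1
    rw [mul_one] at h1
    rw [← h1]
    exact twgn_mem_map_conj Γ γ _ (twgn_upperRight_mem Γ w₁ hw₁W)
  · -- the anti-diagonal element
    refine ⟨γ * s * γ⁻¹, twgn_mem_map_conj Γ γ s hs, ?_, ?_⟩
    · have h1 : (γ * s * γ⁻¹) • (∞ : OnePoint k) = ((0 : k) : OnePoint k) := by
        rw [mul_smul, mul_smul, hγinf', hs1, twgnGamma_smul_coe, sub_self, zero_div]
      rw [OnePoint.smul_infty_eq_ite] at h1
      by_cases h10 : (γ * s * γ⁻¹) 1 0 = 0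
      · rw [if_pos h10] at h1
        exact absurd h1 (OnePoint.infty_ne_coe _)
      · rw [if_neg h10, OnePoint.coe_eq_coe] at h1
        exact (div_eq_zero_iff.1 h1).resolve_right h10
    · have h0 : γ⁻¹ • ((0 : k) : OnePoint k) = (y₀ : OnePoint k) := by
        rw [inv_smul_eq_iff, twgnGamma_smul_coe, sub_self, zero_div]
      have h1 : (γ * s * γ⁻¹) • ((0 : k) : OnePoint k) = ∞ := by
        rw [mul_smul, mul_smul, h0, hs2, hγinf]
      rw [OnePoint.smul_some_eq_ite, mul_zero, zero_add] at h1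
      by_contra h11
      rw [if_neg h11] at h1
      exact OnePoint.coe_ne_infty _ h1
  · -- the orbit condition
    intro g' hg' hg'10
    obtain ⟨g, hg, rfl⟩ := Subgroup.mem_map.1 hg'
    have hconj : (MulAut.conj γ).toMonoidHom g = γ * g * γ⁻¹ := rfl
    rw [hconj] at hg'10 ⊢
    have h1 : (γ * g * γ⁻¹) • (∞ : OnePoint k) =
        (((γ * g * γ⁻¹) 0 0 / (γ * g * γ⁻¹) 1 0 : k) : OnePoint k) := by
      rw [OnePoint.smul_infty_eq_ite, if_neg hg'10]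
    have h2 : (γ * g * γ⁻¹) • (∞ : OnePoint k) = γ • (g • (∞ : OnePoint k)) := by
      rw [mul_smul, mul_smul, hγinf']
    have hg10 : g 1 0 ≠ 0 := by
      intro h
      rw [OnePoint.smul_infty_eq_self_iff.2 h, hγinf] at h2
      rw [h2] at h1
      exact OnePoint.infty_ne_coe _ h1
    have hw := horb g hg hg10
    have hginf2 : g • (∞ : OnePoint k) = ((g 0 0 / g 1 0 : k) : OnePoint k) := by
      rw [OnePoint.smul_infty_eq_ite, if_neg hg10]
    rw [hginf2, twgnGamma_smul_coe, h1, OnePoint.coe_eq_coe] at h2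
    rw [h2]
    have h3 := twgnGamma_conj y₀ w₁ hw₁0 ((g 0 0 / g 1 0 - y₀) / w₁)
    rw [mul_div_cancel₀ _ hw₁0] at h3
    rw [← h3]
    exact twgn_mem_map_conj Γ γ _ (twgn_upperRight_mem Γ _ hw)

end Fermat.Agent.S56
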