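import Fermat.Agent.S56.TW.Bridge
import Fermat.Agent.S56.TW.CaseB.MatNormal
import Fermat.Agent.S56.TW.CaseB.MatHua
import Fermat.Agent.S56.TW.CaseB.Coh3

/-!
# S56 / TW / Case B : assembly of `twg_caseB` from the leaves
-/

set_option autoImplicit false
set_option linter.unusedSectionVars false

namespace Fermat.Agent.S56

open Matrix MulAction OnePoint Matrix.GeneralLinearGroup

variable {k : Type*} [Field k] [DecidableEq k]

/-! ### conjugation: transfer of the hypotheses -/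

theorem twgt_mem_conj {Γ : Subgroup (GL (Fin 2) k)} {γ g' : GL (Fin 2) k} :
    g' ∈ Γ.map (MulAut.conj γ).toMonoidHom ↔ ∃ g ∈ Γ, γ * g * γ⁻¹ = g' := by
  rw [Subgroup.mem_map]
  rfl

theorem twgt_conj_smul (γ g : GL (Fin 2) k) (x : OnePoint k) :
    (γ * g * γ⁻¹) • x = γ • g • γ⁻¹ • x := by
  rw [mul_smul, mul_smul]

theorem twgt_conj_fix_iff (γ g : GL (Fin 2) k) (x : OnePoint k) :
    (γ * g * γ⁻¹) • x = x ↔ g • (γ⁻¹ • x) = γ⁻¹ • x := by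
  rw [twgt_conj_smul]
  constructor
  · intro h
    have := congrArg (fun y => γ⁻¹ • y) h
    simpa using this
  · intro h
    rw [h, smul_inv_smul]

theorem twgt_conj_det (γ g : GL (Fin 2) k) : det (γ * g * γ⁻¹) = det g := by
  rw [map_mul, map_mul, map_inv, mul_comm, ← mul_assoc, inv_mul_cancel, one_mul]

theorem twgt_conj_split {Γ : Subgroup (GL (Fin 2) k)} (γ : GL (Fin 2) k)
    (hsplit : ∀ g ∈ Γ, ∃ x : OnePoint k, g • x = x) :
    ∀ g ∈ Γ.map (MulAut.conj γ).toMonoidHom, ∃ x : OnePoint k, g • x = x := by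
  intro g' hg'
  obtain ⟨g, hg, rfl⟩ := twgt_mem_conj.1 hg'
  obtain ⟨x, hx⟩ := hsplit g hg
  refine ⟨γ • x, ?_⟩
  rw [twgt_conj_fix_iff, inv_smul_smul, hx]

theorem twgt_conj_irr {Γ : Subgroup (GL (Fin 2) k)} (γ : GL (Fin 2) k)
    (hirr : ¬ ∃ x : OnePoint k, ∀ g ∈ Γ, g • x = x) :
    ¬ ∃ x : OnePoint k, ∀ g ∈ Γ.map (MulAut.conj γ).toMonoidHom, g • x = x := by
  rintro ⟨x, hx⟩
  apply hirr
  refine ⟨γ⁻¹ • x, fun g hg => ?_⟩
  rw [← twgt_conj_fix_iff]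
  exact hx _ (twgt_mem_conj.2 ⟨g, hg, rfl⟩)

theorem twgt_conj_detscal {Γ : Subgroup (GL (Fin 2) k)} (γ : GL (Fin 2) k)
    (hdetscal : ∀ g ∈ Γ, (∀ x : OnePoint k, g • x = x) → det g = 1) :
    ∀ g ∈ Γ.map (MulAut.conj γ).toMonoidHom, (∀ x : OnePoint k, g • x = x) → det g = 1 := by
  intro g' hg' hfix
  obtain ⟨g, hg, rfl⟩ := twgt_mem_conj.1 hg'
  rw [twgt_conj_det]
  apply hdetscal g hg
  intro x
  have := (twgt_conj_fix_iff γ g (γ • x)).1 (hfix _)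
  rwa [inv_smul_smul] at this

theorem twgt_conj_detsq {Γ : Subgroup (GL (Fin 2) k)} (γ : GL (Fin 2) k)
    (hdetsq : ∀ g ∈ Γ, det g ^ 2 = 1) :
    ∀ g ∈ Γ.map (MulAut.conj γ).toMonoidHom, det g ^ 2 = 1 := by
  intro g' hg'
  obtain ⟨g, hg, rfl⟩ := twgt_mem_conj.1 hg'
  rw [twgt_conj_det]
  exact hdetsq g hg

theorem twgt_conj_detsurj {Γ : Subgroup (GL (Fin 2) k)} (γ : GL (Fin 2) k) (p : ℕ)
    (hdetsurj : ∀ a : kˣ, a ^ (p - 1) = 1 → ∃ g ∈ Γ, det g = a) :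
    ∀ a : kˣ, a ^ (p - 1) = 1 → ∃ g ∈ Γ.map (MulAut.conj γ).toMonoidHom, det g = a := by
  intro a ha
  obtain ⟨g, hg, hga⟩ := hdetsurj a ha
  exact ⟨γ * g * γ⁻¹, twgt_mem_conj.2 ⟨g, hg, rfl⟩, by rw [twgt_conj_det, hga]⟩

/-! ### the image in `Perm ℙ¹` -/

theorem twgt_bar_smul {Γ : Subgroup (GL (Fin 2) k)} (σ : twgBar Γ) :
    ∃ g : Γ, twgBarMk Γ g = σ := twgBarMk_surjective Γ σ

/-- conjugation by `γ` as a surjective homomorphism `twgBar Γ → twgBar (γ Γ γ⁻¹)` -/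
def twgtConjBar (Γ : Subgroup (GL (Fin 2) k)) (γ : GL (Fin 2) k) :
    twgBar Γ →* twgBar (Γ.map (MulAut.conj γ).toMonoidHom) where
  toFun σ := ⟨MulAction.toPermHom (GL (Fin 2) k) (OnePoint k) γ * σ.1 *
      (MulAction.toPermHom (GL (Fin 2) k) (OnePoint k) γ)⁻¹, by
    obtain ⟨_, g, hg, rfl⟩ := σ
    refine ⟨γ * g * γ⁻¹, twgt_mem_conj.2 ⟨g, hg, rfl⟩, ?_⟩
    rw [map_mul, map_mul, map_inv]⟩
  map_one' := by
    apply Subtype.ext
    simp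
  map_mul' σ τ := by
    apply Subtype.ext
    simp only [Subgroup.coe_mul, MulMemClass.mk_mul_mk]
    group

theorem twgtConjBar_smul (Γ : Subgroup (GL (Fin 2) k)) (γ : GL (Fin 2) k) (σ : twgBar Γ)
    (x : OnePoint k) : twgtConjBar Γ γ σ • x = γ • σ • γ⁻¹ • x := by
  show (MulAction.toPermHom (GL (Fin 2) k) (OnePoint k) γ * σ.1 *
      (MulAction.toPermHom (GL (Fin 2) k) (OnePoint k) γ)⁻¹) x = _
  rw [← map_inv]
  rfl

theorem twgtConjBar_surjective (Γ : Subgroup (GL (Fin 2) k)) (γ : GL (Fin 2) k) :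
    Function.Surjective (twgtConjBar Γ γ) := by
  rintro ⟨_, g', hg', rfl⟩
  obtain ⟨g, hg, rfl⟩ := twgt_mem_conj.1 hg'
  refine ⟨twgBarMk Γ ⟨g, hg⟩, ?_⟩
  apply Subtype.ext
  show MulAction.toPermHom (GL (Fin 2) k) (OnePoint k) γ *
      MulAction.toPermHom (GL (Fin 2) k) (OnePoint k) g *
      (MulAction.toPermHom (GL (Fin 2) k) (OnePoint k) γ)⁻¹ =
      MulAction.toPermHom (GL (Fin 2) k) (OnePoint k) (γ * g * γ⁻¹)
  rw [map_mul, map_mul, map_inv]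

theorem twgtConjBar_injective (Γ : Subgroup (GL (Fin 2) k)) (γ : GL (Fin 2) k) :
    Function.Injective (twgtConjBar Γ γ) := by
  intro σ τ h
  apply Subtype.ext
  have h1 : MulAction.toPermHom (GL (Fin 2) k) (OnePoint k) γ * σ.1 *
      (MulAction.toPermHom (GL (Fin 2) k) (OnePoint k) γ)⁻¹ =
      MulAction.toPermHom (GL (Fin 2) k) (OnePoint k) γ * τ.1 *
      (MulAction.toPermHom (GL (Fin 2) k) (OnePoint k) γ)⁻¹ := congrArg Subtype.val h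
  exact mul_left_cancel (mul_right_cancel h1)

variable [Finite k]

instance twgt_finite_onePoint : Finite (OnePoint k) := inferInstanceAs (Finite (Option k))

/-- transport of a non-trivial Sylow subgroup with a fixed point along conjugation -/
theorem twgt_conj_sylow (p : ℕ) [Fact p.Prime] (Γ : Subgroup (GL (Fin 2) k)) (γ : GL (Fin 2) k)
    (S : Sylow p (twgBar Γ)) (hS1 : (S : Subgroup (twgBar Γ)) ≠ ⊥) (x₀ : OnePoint k)
    (hS : ∀ g ∈ S, g • x₀ = x₀) :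
    ∃ S' : Sylow p (twgBar (Γ.map (MulAut.conj γ).toMonoidHom)),
      (S' : Subgroup (twgBar (Γ.map (MulAut.conj γ).toMonoidHom))) ≠ ⊥ ∧
      ∀ g ∈ S', g • (γ • x₀) = γ • x₀ := by
  refine ⟨S.mapSurjective (twgtConjBar_surjective Γ γ), ?_, ?_⟩
  · rw [Sylow.coe_mapSurjective]
    intro h
    apply hS1
    rw [Subgroup.eq_bot_iff_forall] at h ⊢
    intro σ hσ
    apply twgtConjBar_injective Γ γ
    rw [map_one]
    exact h _ (Subgroup.mem_map_of_mem _ hσ)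
  · intro g hg
    have hg' : g ∈ (S : Subgroup (twgBar Γ)).map (twgtConjBar Γ γ) := hg
    obtain ⟨σ, hσ, rfl⟩ := Subgroup.mem_map.1 hg'
    rw [twgtConjBar_smul, inv_smul_smul, hS σ hσ]

/-- the stabiliser of `∞` in `Γ` has index prime to `p` when a Sylow subgroup fixes `∞` -/
theorem twgt_index_stab (p : ℕ) [Fact p.Prime] (Γ : Subgroup (GL (Fin 2) k))
    (S : Sylow p (twgBar Γ)) (hS : ∀ g ∈ S, g • (∞ : OnePoint k) = ∞) :
    ¬ p ∣ ((Γ ⊓ stabilizer (GL (Fin 2) k) (∞ : OnePoint k)).subgroupOf Γ).index := by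
  have h1 : (Γ ⊓ stabilizer (GL (Fin 2) k) (∞ : OnePoint k)).subgroupOf Γ =
      stabilizer Γ (∞ : OnePoint k) := by
    ext g
    rw [Subgroup.mem_subgroupOf, Subgroup.mem_inf, mem_stabilizer_iff, mem_stabilizer_iff]
    constructor
    · rintro ⟨_, h⟩
      exact h
    · intro h
      exact ⟨g.2, h⟩
  have h2 : orbit Γ (∞ : OnePoint k) = orbit (twgBar Γ) (∞ : OnePoint k) := by
    ext x
    constructor
    · rintro ⟨g, rfl⟩
      exact ⟨twgBarMk Γ g, rfl⟩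
    · rintro ⟨σ, rfl⟩
      obtain ⟨g, rfl⟩ := twgBarMk_surjective Γ σ
      exact ⟨g, rfl⟩
  rw [h1, index_stabilizer, h2, ← index_stabilizer]
  have hle : (S : Subgroup (twgBar Γ)) ≤ stabilizer (twgBar Γ) (∞ : OnePoint k) := by
    intro g hg
    exact hS g hg
  intro hdvd
  exact S.not_dvd_index (hdvd.trans (Subgroup.index_dvd_of_le hle))

/-! ### Case 1 : trivial Sylow subgroup -/

/-- the canonical homomorphism `Γ → twgBar Γ` -/
def twgtBarHom (Γ : Subgroup (GL (Fin 2) k)) : Γ →* twgBar Γ :=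
  (MulAction.toPermHom (GL (Fin 2) k) (OnePoint k)).subgroupMap Γ

theorem twgtBarHom_smul (Γ : Subgroup (GL (Fin 2) k)) (g : Γ) (x : OnePoint k) :
    twgtBarHom Γ g • x = g.1 • x := rfl

theorem twgt_not_dvd_card (p : ℕ) [Fact p.Prime] [CharP k p] (Γ : Subgroup (GL (Fin 2) k))
    (S : Sylow p (twgBar Γ)) (hS : (S : Subgroup (twgBar Γ)) = ⊥) : ¬ p ∣ Nat.card Γ := by
  intro hdvd
  have hp : p.Prime := Fact.out
  obtain ⟨g, hg⟩ := exists_prime_orderOf_dvd_card' p hdvd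
  have hgp : g ^ p = 1 := by rw [← hg]; exact pow_orderOf_eq_one g
  have hbar : twgtBarHom Γ g = 1 := by
    by_contra hne
    have h1 : (twgtBarHom Γ g) ^ p = 1 := by rw [← map_pow, hgp, map_one]
    have h2 : orderOf (twgtBarHom Γ g) = p := by
      rcases (Nat.dvd_prime hp).1 (orderOf_dvd_of_pow_eq_one h1) with h | h
      · exact absurd (orderOf_eq_one_iff.1 h) hne
      · exact h
    have h3 : p ∣ Nat.card (twgBar Γ) := by
      rw [← h2]; exact orderOf_dvd_natCard _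
    exact S.ne_bot_of_dvd_card h3 hS
  have hfix : ∀ x : OnePoint k, g.1 • x = x := by
    intro x
    rw [← twgtBarHom_smul, hbar, one_smul]
  obtain ⟨a, ha⟩ := twg_scalar_of_fix_all g.1 hfix
  have hgp' : (g.1.1) ^ p = 1 := by
    have := congrArg (fun h : Γ => ((h : GL (Fin 2) k) : Matrix (Fin 2) (Fin 2) k)) hgp
    simpa using this
  rw [ha, smul_pow, one_pow] at hgp'
  have hap : a ^ p = 1 := by
    have := congrFun (congrFun hgp' 0) 0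
    simpa using this
  have ha1 : a = 1 := by
    have h4 : (a - 1) ^ p = 0 := by rw [sub_pow_char, hap, one_pow, sub_self]
    have := pow_eq_zero_iff (hp.ne_zero) |>.1 h4
    exact sub_eq_zero.1 this
  have hg1 : g = 1 := by
    apply Subtype.ext
    apply Units.ext
    rw [ha, ha1, one_smul]
    rfl
  rw [hg1, orderOf_one] at hg
  exact hp.one_lt.ne hg

theorem twgt_case1 (p : ℕ) [Fact p.Prime] [CharP k p] (Γ : Subgroup (GL (Fin 2) k))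
    (S : Sylow p (twgBar Γ)) (hS : (S : Subgroup (twgBar Γ)) = ⊥)
    (ψ : Γ → Matrix (Fin 2) (Fin 2) k) (hψ : TwgIsCocycle Γ ψ) : TwgIsCoboundary Γ ψ := by
  refine twg_restrict p Γ ⊥ bot_le ?_ ψ hψ ?_
  · rw [Subgroup.bot_subgroupOf, Subgroup.index_bot]
    exact twgt_not_dvd_card p Γ S hS
  · refine ⟨0, Matrix.trace_zero (Fin 2) k, fun h => ?_⟩
    have h1 : (⟨h.1, (bot_le : (⊥ : Subgroup (GL (Fin 2) k)) ≤ Γ) h.2⟩ : Γ) = 1 := by
      apply Subtype.ext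
      exact Subgroup.mem_bot.1 h.2
    have h2 : ψ 1 = 0 := by
      have := hψ.2 1 1
      rw [mul_one] at this
      have h3 : twgMAct ((1 : Γ) : GL (Fin 2) k) (ψ 1) = ψ 1 := twgx_mact_one _
      rw [h3] at this
      exact left_eq_add.1 this
    show ψ ⟨h.1, (bot_le : (⊥ : Subgroup (GL (Fin 2) k)) ≤ Γ) h.2⟩ = _
    rw [h1, h2, twgx_mact_zero, sub_zero]

/-! ### `p = 3` -/

theorem twgt_p_eq_three (p : ℕ) [Fact p.Prime] [CharP k p] (hp2 : p ≠ 2)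
    (Γ : Subgroup (GL (Fin 2) k)) (hdetsq : ∀ g ∈ Γ, det g ^ 2 = 1)
    (hdetsurj : ∀ a : kˣ, a ^ (p - 1) = 1 → ∃ g ∈ Γ, det g = a) :
    p = 3 ∧ ∃ g ∈ Γ, det g ≠ 1 := by
  have hp : p.Prime := Fact.out
  have h2 : (2 : k) ≠ 0 := by
    intro h
    have h2' : ((2 : ℕ) : k) = 0 := by exact_mod_cast h
    rw [CharP.cast_eq_zero_iff k p] at h2'
    exact hp2 ((Nat.prime_dvd_prime_iff_eq hp Nat.prime_two).1 h2')
  have h2z : (2 : ZMod p) ≠ 0 := by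
    intro h
    have h2' : ((2 : ℕ) : ZMod p) = 0 := by exact_mod_cast h
    rw [ZMod.natCast_eq_zero_iff] at h2'
    exact hp2 ((Nat.prime_dvd_prime_iff_eq hp Nat.prime_two).1 h2')
  have hpow : (2 : k) ^ (p - 1) = 1 := by
    have := congrArg (ZMod.castHom (dvd_refl p) k) (ZMod.pow_card_sub_one_eq_one h2z)
    rwa [map_pow, map_ofNat, map_one] at this
  obtain ⟨g, hg, hgdet⟩ := hdetsurj (Units.mk0 2 h2) (by
    apply Units.ext
    rw [Units.val_pow_eq_pow_val, Units.val_mk0, hpow, Units.val_one])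
  have hsq := hdetsq g hg
  rw [hgdet] at hsq
  have hsq' : (2 : k) ^ 2 = 1 := by
    have := congrArg Units.val hsq
    rwa [Units.val_pow_eq_pow_val, Units.val_mk0, Units.val_one] at this
  refine ⟨?_, g, hg, ?_⟩
  · have h3 : ((3 : ℕ) : k) = 0 := by
      push_cast
      linear_combination hsq'
    rw [CharP.cast_eq_zero_iff k p] at h3
    exact (Nat.prime_dvd_prime_iff_eq hp Nat.prime_three).1 h3
  · rw [hgdet]
    intro h
    have := congrArg Units.val h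
    rw [Units.val_mk0, Units.val_one] at this
    -- 2 = 1 in k
    have h1 : (1 : k) = 0 := by linear_combination this
    exact one_ne_zero h1

/-! ### the core : normal form -/

theorem twgt_core [CharP k 3] (Γ : Subgroup (GL (Fin 2) k))
    (hdetscal : ∀ g ∈ Γ, (∀ x : OnePoint k, g • x = x) → det g = 1)
    (hdetsq : ∀ g ∈ Γ, det g ^ 2 = 1)
    (hdetne : ∃ g ∈ Γ, g 1 0 = 0 ∧ det g ≠ 1)
    (hu1 : upperRightHom (1 : k) ∈ Γ)
    (hs : ∃ s ∈ Γ, s 0 0 = 0 ∧ s 1 1 = 0)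
    (horb : ∀ g ∈ Γ, g 1 0 ≠ 0 → upperRightHom (g 0 0 / g 1 0) ∈ Γ)
    (hidx : ¬ 3 ∣ ((Γ ⊓ stabilizer (GL (Fin 2) k) (∞ : OnePoint k)).subgroupOf Γ).index)
    (ψ : Γ → Matrix (Fin 2) (Fin 2) k) (hψ : TwgIsCocycle Γ ψ) : TwgIsCoboundary Γ ψ := by
  have : Fact (Nat.Prime 3) := ⟨Nat.prime_three⟩
  obtain ⟨F, hF1, hF2, hF3⟩ :=
    twg_mx_hua 3 (by norm_num) Γ hdetscal hdetsq hdetne hu1 hs horb
  set H := Γ ⊓ stabilizer (GL (Fin 2) k) (∞ : OnePoint k) with hH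
  have hHΓ : H ≤ Γ := inf_le_left
  have hmem : ∀ g, g ∈ H ↔ g ∈ Γ ∧ g 1 0 = 0 := by
    intro g
    rw [hH, Subgroup.mem_inf, mem_stabilizer_iff, smul_infty_eq_self_iff]
  refine twg_restrict 3 Γ H hHΓ hidx ψ hψ ?_
  refine twg_coh_affine3 F H ?_ ?_ ?_ ?_ _ ?_
  · intro g hg
    obtain ⟨hgΓ, hg10⟩ := (hmem g).1 hg
    obtain ⟨h1, h2, _⟩ := hF2 g hgΓ hg10
    exact ⟨hg10, h1, h2⟩
  · intro w hw
    rw [hmem]
    exact ⟨(hF1 w).1 hw, by simp⟩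
  · intro t ht ht0
    obtain ⟨g, hgΓ, hg10, hgt⟩ := hF3 t ht ht0
    exact ⟨g, (hmem g).2 ⟨hgΓ, hg10⟩, hgt⟩
  · intro g hg
    obtain ⟨hgΓ, hg10⟩ := (hmem g).1 hg
    exact ⟨hdetsq g hgΓ, (hF2 g hgΓ hg10).2.2⟩
  · exact ⟨fun h => hψ.1 _, fun g h => hψ.2 ⟨g.1, hHΓ g.2⟩ ⟨h.1, hHΓ h.2⟩⟩

/-! ### Case 2 : a non-trivial Sylow subgroup fixing `∞` -/

theorem twgt_caseB_infty (p : ℕ) [Fact p.Prime] [CharP k p] (hp2 : p ≠ 2)
    (Γ : Subgroup (GL (Fin 2) k))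
    (hsplit : ∀ g ∈ Γ, ∃ x : OnePoint k, g • x = x)
    (hirr : ¬ ∃ x : OnePoint k, ∀ g ∈ Γ, g • x = x)
    (hdetscal : ∀ g ∈ Γ, (∀ x : OnePoint k, g • x = x) → det g = 1)
    (hdetsurj : ∀ a : kˣ, a ^ (p - 1) = 1 → ∃ g ∈ Γ, det g = a)
    (S : Sylow p (twgBar Γ)) (hS1 : (S : Subgroup (twgBar Γ)) ≠ ⊥)
    (hS : ∀ g ∈ S, g • (∞ : OnePoint k) = ∞)
    (ψ : Γ → Matrix (Fin 2) (Fin 2) k) (hψ : TwgIsCocycle Γ ψ) : TwgIsCoboundary Γ ψ := by
  have hdetsq := twg_mx_det_sq p hp2 Γ hsplit hirr hdetscal S hS1 hS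
  obtain ⟨hp3, g₀, hg₀, hg₀det⟩ := twgt_p_eq_three p hp2 Γ hdetsq hdetsurj
  subst hp3
  obtain ⟨γ, hγ10, hu1, hs, horb⟩ := twg_mx_normal_form 3 hp2 Γ hsplit hirr hdetscal hdetsq
    ⟨g₀, hg₀, hg₀det⟩ S hS1 hS
  obtain ⟨h, hhΓ, hhinf, hhdet⟩ := twg_mx_frattini 3 Γ hdetscal S hS1 hS g₀ hg₀
  have hγinf : γ • (∞ : OnePoint k) = ∞ := smul_infty_eq_self_iff.2 hγ10
  refine twg_conj Γ γ (fun ψ' hψ' => ?_) ψ hψ
  obtain ⟨S', hS'1, hS'⟩ := twgt_conj_sylow 3 Γ γ S hS1 ∞ hS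
  rw [hγinf] at hS'
  refine twgt_core _ (twgt_conj_detscal γ hdetscal) (twgt_conj_detsq γ hdetsq) ?_ hu1 hs horb
    (twgt_index_stab 3 _ S' hS') ψ' hψ'
  refine ⟨γ * h * γ⁻¹, twgt_mem_conj.2 ⟨h, hhΓ, rfl⟩, ?_, ?_⟩
  · rw [← smul_infty_eq_self_iff, twgt_conj_fix_iff]
    have : γ⁻¹ • (∞ : OnePoint k) = ∞ := by rw [inv_smul_eq_iff, hγinf]
    rw [this, hhinf]
  · rw [twgt_conj_det, hhdet]
    exact hg₀det

/-! ### TOP -/

theorem twgt_exists_to_infty (x₀ : OnePoint k) : ∃ γ : GL (Fin 2) k, γ • x₀ = ∞ := by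
  cases x₀ with
  | infty => exact ⟨1, one_smul _ _⟩
  | coe z =>
    refine ⟨Matrix.GeneralLinearGroup.mkOfDetNeZero !![0, 1; 1, -z] (by simp [Matrix.det_fin_two]),
      ?_⟩
    rw [smul_some_eq_ite]
    simp [Matrix.GeneralLinearGroup.mkOfDetNeZero]

/-- **Case B.** -/
theorem twg_caseB (p : ℕ) [Fact p.Prime] [CharP k p] (hp2 : p ≠ 2)
    (Γ : Subgroup (GL (Fin 2) k))
    (hsplit : ∀ g ∈ Γ, ∃ x : OnePoint k, g • x = x)
    (hirr : ¬ ∃ x : OnePoint k, ∀ g ∈ Γ, g • x = x)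
    (hdetscal : ∀ g ∈ Γ, (∀ x : OnePoint k, g • x = x) → det g = 1)
    (hdetsurj : ∀ a : kˣ, a ^ (p - 1) = 1 → ∃ g ∈ Γ, det g = a)
    (ψ : Γ → Matrix (Fin 2) (Fin 2) k) (hψ : TwgIsCocycle Γ ψ) : TwgIsCoboundary Γ ψ := by
  obtain ⟨S⟩ : Nonempty (Sylow p (twgBar Γ)) := inferInstance
  by_cases hS1 : (S : Subgroup (twgBar Γ)) = ⊥
  · exact twgt_case1 p Γ S hS1 ψ hψ
  · obtain ⟨x₀, hx₀⟩ := twg_mx_pgroup_fixed p Γ S S.isPGroup'
    obtain ⟨γ, hγ⟩ := twgt_exists_to_infty x₀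
    refine twg_conj Γ γ (fun ψ' hψ' => ?_) ψ hψ
    obtain ⟨S', hS'1, hS'⟩ := twgt_conj_sylow p Γ γ S hS1 x₀ hx₀
    rw [hγ] at hS'
    exact twgt_caseB_infty p hp2 _ (twgt_conj_split γ hsplit) (twgt_conj_irr γ hirr)
      (twgt_conj_detscal γ hdetscal) (twgt_conj_detsurj γ p hdetsurj) S' hS'1 hS' ψ' hψ'

end Fermat.Agent.S56
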