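import Fermat.Agent.S56.TW.CaseB.MatFix

/-!
# S56 / TW / Case B : MX-C core (Weyl elements, Frattini, `det² = 1`)

Everything here is free of black boxes: the PG lemmas and MX-B enter `twgs_swap_core` as explicit
hypotheses (instantiated at `twgBar Γ` acting on `OnePoint k`), `twgs_frattini` needs none, and
`twgs_det_sq_core` takes the Weyl element statement as a hypothesis.
-/

set_option autoImplicit false

namespace Fermat.Agent.S56

open Matrix MulAction OnePoint Matrix.GeneralLinearGroup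

variable {k : Type*} [Field k] [DecidableEq k]

omit [Field k] [DecidableEq k] in
theorem twgs_finite_onePoint [Finite k] : Finite (OnePoint k) :=
  inferInstanceAs (Finite (Option k))

/-- the class map `Γ → twgBar Γ` as a homomorphism -/
def twgsHom (Γ : Subgroup (GL (Fin 2) k)) : Γ →* twgBar Γ :=
  (MulAction.toPermHom (GL (Fin 2) k) (OnePoint k)).subgroupMap Γ

theorem twgsHom_apply (Γ : Subgroup (GL (Fin 2) k)) (g : Γ) : twgsHom Γ g = twgBarMk Γ g := rfl

theorem twgsHom_surjective (Γ : Subgroup (GL (Fin 2) k)) : Function.Surjective (twgsHom Γ) :=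
  twgBarMk_surjective Γ

theorem twgs_mk_eq_one_iff (Γ : Subgroup (GL (Fin 2) k)) (γ : Γ) :
    twgBarMk Γ γ = 1 ↔ ∀ x : OnePoint k, γ.1 • x = x := by
  constructor
  · intro h x
    have h' : (twgBarMk Γ γ) • x = x := by rw [h, one_smul]
    rwa [twgBarMk_smul] at h'
  · exact twgf_mk_eq_one Γ γ

omit [DecidableEq k] in
/-- `kˣ` has no `p`-torsion -/
theorem twgs_units_pow_eq_one (p : ℕ) [Fact p.Prime] [CharP k p] (a : kˣ) (m : ℕ)
    (h : a ^ (p ^ m) = 1) : a = 1 := by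
  have : ExpChar k p := ExpChar.prime Fact.out
  apply Units.ext
  have h' : (a : k) ^ (p ^ m * 1) = 1 := by
    rw [mul_one, ← Units.val_pow_eq_pow_val, h, Units.val_one]
  have h'' := (ExpChar.pow_prime_pow_mul_eq_one_iff p m 1 (a : k)).mp h'
  simpa using h''

omit [DecidableEq k] in
/-- `#ℙ¹(k) ≡ 1 mod p` -/
theorem twgs_card_onePoint (p : ℕ) [Fact p.Prime] [CharP k p] [Finite k] :
    ∃ r : ℕ, Nat.card (OnePoint k) = p * r + 1 := by
  have : Fintype k := Fintype.ofFinite k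
  have hcard : Nat.card (OnePoint k) = Nat.card k + 1 := by
    show Nat.card (Option k) = _
    exact Finite.card_option
  have hpk : p ∣ Nat.card k := by
    rw [Nat.card_eq_fintype_card, ← CharP.cast_eq_zero_iff k p]
    exact Nat.cast_card_eq_zero k
  obtain ⟨r, hr⟩ := hpk
  exact ⟨r, by rw [hcard, hr]⟩

/-- a non-identity element of a `p`-subgroup fixing `∞` has `∞` as its only fixed point -/
theorem twgs_pelem_fixed (p : ℕ) [Fact p.Prime] [CharP k p] [Finite k]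
    (Γ : Subgroup (GL (Fin 2) k)) (S : Subgroup (twgBar Γ)) (hSp : IsPGroup p S)
    (g : twgBar Γ) (hg : g ∈ S) (hg1 : g ≠ 1) (hginf : g • (∞ : OnePoint k) = ∞) :
    fixedBy (OnePoint k) g = {∞} := by
  have := twgs_finite_onePoint (k := k)
  have hZ : IsPGroup p (Subgroup.zpowers g) := hSp.to_le (Subgroup.zpowers_le.mpr hg)
  have hmod := hZ.card_modEq_card_fixedPoints (OnePoint k)
  have hfp : fixedPoints (Subgroup.zpowers g) (OnePoint k) = fixedBy (OnePoint k) g := by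
    ext x
    rw [mem_fixedPoints, mem_fixedBy]
    constructor
    · intro h
      exact h ⟨g, Subgroup.mem_zpowers g⟩
    · rintro h ⟨z, j, rfl⟩
      exact mem_fixedBy_zpow h j
  rw [hfp, Nat.card_coe_set_eq] at hmod
  obtain ⟨γ, rfl⟩ := twgBarMk_surjective Γ g
  have h12 := twgf_fixed_ncard γ.1 ⟨∞, hginf⟩ (by
    by_contra hall
    push Not at hall
    exact hg1 (twgf_mk_eq_one Γ γ hall))
  rw [← twgf_fixedBy_mk] at h12
  obtain ⟨r, hr⟩ := twgs_card_onePoint (k := k) p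
  have h1 : (fixedBy (OnePoint k) (twgBarMk Γ γ)).ncard = 1 := by
    rcases h12 with h | h
    · exact h
    · exfalso
      rw [h, hr] at hmod
      have hz := (ZMod.natCast_eq_natCast_iff _ _ p).mpr hmod
      push_cast at hz
      rw [ZMod.natCast_self, zero_mul] at hz
      have h10 : (1 : ZMod p) = 0 := by linear_combination -hz
      exact one_ne_zero h10
  obtain ⟨x, hx⟩ := Set.ncard_eq_one.mp h1
  have hmem : (∞ : OnePoint k) ∈ fixedBy (OnePoint k) (twgBarMk Γ γ) := hginf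
  rw [hx] at hmem ⊢
  rw [Set.mem_singleton_iff.mp hmem]

/-- **MX-C1 core.** the Weyl element, from PG1, `htrans` (MX-B) and PG3 -/
theorem twgs_swap_core (p : ℕ) [Fact p.Prime] [CharP k p] [Finite k] (hp2 : p ≠ 2)
    (Γ : Subgroup (GL (Fin 2) k))
    (hirr : ¬ ∃ x : OnePoint k, ∀ g ∈ Γ, g • x = x)
    (S : Sylow p (twgBar Γ)) (hS1 : (S : Subgroup (twgBar Γ)) ≠ ⊥)
    (hS : ∀ g ∈ S, g • (∞ : OnePoint k) = ∞)
    (hcount : (∃ y ∈ orbit (twgBar Γ) (∞ : OnePoint k), y ≠ ∞) →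
      4 ≤ Nat.card (stabilizer (twgBar Γ) (∞ : OnePoint k)) →
      ∃ g : twgBar Γ, g ≠ 1 ∧ g • (∞ : OnePoint k) = ∞ ∧
        ∃ y ∈ orbit (twgBar Γ) (∞ : OnePoint k), y ≠ ∞ ∧ g • y = y)
    (htrans : ∀ y y' : OnePoint k, y ≠ ∞ → y' ≠ ∞ →
      (∃ g : twgBar Γ, g ≠ 1 ∧ g • (∞ : OnePoint k) = ∞ ∧ g • y = y) →
      (∃ g : twgBar Γ, g ≠ 1 ∧ g • (∞ : OnePoint k) = ∞ ∧ g • y' = y') →
      ∃ u : twgBar Γ, u • (∞ : OnePoint k) = ∞ ∧ u • y = y')
    (hswap : ∀ y : OnePoint k, y ∈ orbit (twgBar Γ) (∞ : OnePoint k) → y ≠ ∞ →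
      ∀ t : twgBar Γ, t ≠ 1 → t • (∞ : OnePoint k) = ∞ → t • y = y →
      ∃ s : twgBar Γ, s • (∞ : OnePoint k) = y ∧ s • y = ∞)
    (t : GL (Fin 2) k) (ht : t ∈ Γ) (htinf : t • (∞ : OnePoint k) = ∞) (y : k)
    (hty : t • (y : OnePoint k) = y) (htne : ∃ x : OnePoint k, t • x ≠ x) :
    ∃ s ∈ Γ, s • (∞ : OnePoint k) = (y : OnePoint k) ∧ s • (y : OnePoint k) = ∞ := by
  have := twgs_finite_onePoint (k := k)
  set tbar : twgBar Γ := twgBarMk Γ ⟨t, ht⟩ with htbar
  have htbar1 : tbar ≠ 1 := by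
    intro h
    obtain ⟨x, hx⟩ := htne
    exact hx ((twgs_mk_eq_one_iff Γ ⟨t, ht⟩).mp h x)
  have htbarinf : tbar • (∞ : OnePoint k) = ∞ := htinf
  have htbary : tbar • (y : OnePoint k) = y := hty
  -- the orbit of `∞` is not `{∞}`
  have hΩ : ∃ y' ∈ orbit (twgBar Γ) (∞ : OnePoint k), y' ≠ ∞ := by
    by_contra hcon
    push Not at hcon
    apply hirr
    refine ⟨∞, fun g hg => ?_⟩
    exact hcon (g • ∞) ⟨twgBarMk Γ ⟨g, hg⟩, rfl⟩
  -- the stabiliser of `∞` has at least `4` elements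
  have htS : tbar ∉ (S : Subgroup (twgBar Γ)) := by
    intro hmem
    have hfix := twgs_pelem_fixed p Γ S S.2 tbar hmem htbar1 htbarinf
    have hy : (y : OnePoint k) ∈ fixedBy (OnePoint k) tbar := htbary
    rw [hfix] at hy
    exact coe_ne_infty _ (Set.mem_singleton_iff.mp hy)
  have hSle : (S : Subgroup (twgBar Γ)) ≤ stabilizer (twgBar Γ) (∞ : OnePoint k) :=
    fun g hg => mem_stabilizer_iff.mpr (hS g hg)
  have hS3 : 3 ≤ Nat.card (S : Subgroup (twgBar Γ)) := by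
    have hne1 : Nat.card (S : Subgroup (twgBar Γ)) ≠ 1 := by
      intro h
      exact hS1 ((Subgroup.eq_bot_iff_card _).mpr h)
    have hdvd : p ∣ Nat.card (S : Subgroup (twgBar Γ)) := by
      rcases (S.2 : IsPGroup p (S : Subgroup (twgBar Γ))).card_eq_or_dvd with h | h
      · exact absurd h hne1
      · exact h
    have hpos : 0 < Nat.card (S : Subgroup (twgBar Γ)) := Nat.card_pos
    have hp3 : 3 ≤ p := by
      have h2 := (Fact.out : p.Prime).two_le
      omega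
    exact hp3.trans (Nat.le_of_dvd hpos hdvd)
  have h4 : 4 ≤ Nat.card (stabilizer (twgBar Γ) (∞ : OnePoint k)) := by
    by_contra hlt
    have hle : Nat.card (stabilizer (twgBar Γ) (∞ : OnePoint k)) ≤
        Nat.card (S : Subgroup (twgBar Γ)) := by omega
    have heq := Subgroup.eq_of_le_of_card_ge hSle hle
    apply htS
    rw [heq]
    exact mem_stabilizer_iff.mpr htbarinf
  obtain ⟨g₁, hg₁, hg₁inf, y₁, hy₁orb, hy₁inf, hg₁y₁⟩ := hcount hΩ h4
  obtain ⟨u, huinf, huy⟩ := htrans y₁ y hy₁inf (coe_ne_infty y) ⟨g₁, hg₁, hg₁inf, hg₁y₁⟩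
    ⟨tbar, htbar1, htbarinf, htbary⟩
  have hyorb : (y : OnePoint k) ∈ orbit (twgBar Γ) (∞ : OnePoint k) := by
    obtain ⟨h, hh⟩ := hy₁orb
    refine ⟨u * h, ?_⟩
    show (u * h) • (∞ : OnePoint k) = y
    rw [mul_smul]
    have hh' : h • (∞ : OnePoint k) = y₁ := hh
    rw [hh', huy]
  obtain ⟨sbar, hs1, hs2⟩ := hswap y hyorb (coe_ne_infty y) tbar htbar1 htbarinf htbary
  obtain ⟨σ, rfl⟩ := twgBarMk_surjective Γ sbar
  exact ⟨σ.1, σ.2, hs1, hs2⟩

/-- **MX-C0 (Frattini).** every value of `det` on `Γ` is taken on the stabiliser of `∞`. -/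
theorem twgs_frattini (p : ℕ) [Fact p.Prime] [CharP k p] [Finite k]
    (Γ : Subgroup (GL (Fin 2) k))
    (hdetscal : ∀ g ∈ Γ, (∀ x : OnePoint k, g • x = x) → det g = 1)
    (S : Sylow p (twgBar Γ)) (hS1 : (S : Subgroup (twgBar Γ)) ≠ ⊥)
    (hS : ∀ g ∈ S, g • (∞ : OnePoint k) = ∞) :
    ∀ g ∈ Γ, ∃ h ∈ Γ, h • (∞ : OnePoint k) = ∞ ∧ det h = det g := by
  intro g hg
  have := twgs_finite_onePoint (k := k)
  set D : Γ →* kˣ := (Matrix.GeneralLinearGroup.det).comp Γ.subtype with hD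
  set N : Subgroup (twgBar Γ) := D.ker.map (twgsHom Γ) with hN
  have hNn : N.Normal :=
    Subgroup.Normal.map (MonoidHom.normal_ker D) (twgsHom Γ) (twgsHom_surjective Γ)
  have hSN : (S : Subgroup (twgBar Γ)) ≤ N := by
    intro s hs
    obtain ⟨γ, rfl⟩ := twgBarMk_surjective Γ s
    obtain ⟨m, hm⟩ := (S.2 : IsPGroup p (S : Subgroup (twgBar Γ))) ⟨_, hs⟩
    have hm' : twgBarMk Γ (γ ^ (p ^ m)) = 1 := by
      have h1 := congrArg Subtype.val hm
      rw [← twgsHom_apply, map_pow, twgsHom_apply]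
      simpa using h1
    have htriv := (twgs_mk_eq_one_iff Γ _).mp hm'
    have hdet : det ((γ ^ (p ^ m) : Γ) : GL (Fin 2) k) = 1 :=
      hdetscal _ (γ ^ (p ^ m) : Γ).2 htriv
    rw [Subgroup.coe_pow, map_pow] at hdet
    have hD1 : det γ.1 = 1 := twgs_units_pow_eq_one p _ m hdet
    exact ⟨γ, hD1, rfl⟩
  have htop := Sylow.normalizer_sup_eq_top' S hSN
  have hmem : twgBarMk Γ ⟨g, hg⟩ ∈
      Subgroup.normalizer ((S : Subgroup (twgBar Γ)) : Set (twgBar Γ)) ⊔ N := by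
    have h2 : twgBarMk Γ ⟨g, hg⟩ ∈ (⊤ : Subgroup (twgBar Γ)) := Subgroup.mem_top _
    rw [← htop] at h2
    exact h2
  rw [← SetLike.mem_coe, Subgroup.mul_normal] at hmem
  obtain ⟨n, hn, m, hm, hnm⟩ := Set.mem_mul.mp hmem
  obtain ⟨γ₁, hγ₁, rfl⟩ := hm
  have hγ₁det : det γ₁.1 = 1 := hγ₁
  refine ⟨g * γ₁.1⁻¹, Γ.mul_mem hg (Γ.inv_mem γ₁.2), ?_, ?_⟩
  · -- `n` is the class of `g γ₁⁻¹`
    have hn_eq : n = twgBarMk Γ (⟨g, hg⟩ * γ₁⁻¹) := by
      rw [← twgsHom_apply, map_mul, map_inv, twgsHom_apply, ← hnm]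
      simp
    -- `n` normalises `S`, hence fixes `∞`
    obtain ⟨⟨s, hs⟩, hs1⟩ := (Subgroup.ne_bot_iff_exists_ne_one).mp hS1
    have hs1' : s ≠ 1 := fun h => hs1 (Subtype.ext h)
    have hfs := twgs_pelem_fixed p Γ S S.2 s hs hs1' (hS s hs)
    have hconj : n⁻¹ * s * n ∈ (S : Subgroup (twgBar Γ)) :=
      (Subgroup.mem_normalizer_iff''.mp hn s).mp hs
    have hfix : (n⁻¹ * s * n) • (∞ : OnePoint k) = ∞ := hS _ hconj
    have hsn : s • (n • (∞ : OnePoint k)) = n • (∞ : OnePoint k) := by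
      have h2 := congrArg (fun x => n • x) hfix
      simpa [mul_smul] using h2
    have hmem2 : n • (∞ : OnePoint k) ∈ fixedBy (OnePoint k) s := hsn
    rw [hfs] at hmem2
    have hninf : n • (∞ : OnePoint k) = ∞ := Set.mem_singleton_iff.mp hmem2
    rw [hn_eq, twgBarMk_smul] at hninf
    simpa using hninf
  · rw [map_mul, map_inv, hγ₁det, inv_one, mul_one]

omit [DecidableEq k] in
/-- the diagonal of an upper triangular invertible matrix is non-zero -/
theorem twgs_diag_ne_zero (g : GL (Fin 2) k) (h10 : g 1 0 = 0) : g 0 0 ≠ 0 ∧ g 1 1 ≠ 0 := by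
  have hdet : (g : Matrix (Fin 2) (Fin 2) k).det ≠ 0 := g.det_ne_zero
  rw [Matrix.det_fin_two, h10, mul_zero, sub_zero] at hdet
  exact ⟨left_ne_zero_of_mul hdet, right_ne_zero_of_mul hdet⟩

/-- **MX-C2 core.** `det² = 1` from Frattini and the Weyl element -/
theorem twgs_det_sq_core (p : ℕ) [Fact p.Prime] [CharP k p]
    (Γ : Subgroup (GL (Fin 2) k))
    (hdetscal : ∀ g ∈ Γ, (∀ x : OnePoint k, g • x = x) → det g = 1)
    (hfrat : ∀ g ∈ Γ, ∃ h ∈ Γ, h • (∞ : OnePoint k) = ∞ ∧ det h = det g)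
    (hswapΓ : ∀ t ∈ Γ, t • (∞ : OnePoint k) = ∞ → ∀ y : k, t • (y : OnePoint k) = y →
      (∃ x : OnePoint k, t • x ≠ x) →
      ∃ s ∈ Γ, s • (∞ : OnePoint k) = (y : OnePoint k) ∧ s • (y : OnePoint k) = ∞) :
    ∀ g ∈ Γ, det g ^ 2 = 1 := by
  intro g hg
  obtain ⟨t, ht, htinf, hdet⟩ := hfrat g hg
  rw [← hdet]
  by_cases htriv : ∀ x : OnePoint k, t • x = x
  · rw [hdetscal t ht htriv, one_pow]
  push Not at htriv
  have h10 : t 1 0 = 0 := smul_infty_eq_self_iff.mp htinf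
  by_cases hfin : ∃ y : k, t • (y : OnePoint k) = y
  · obtain ⟨y, hy⟩ := hfin
    obtain ⟨s, hs, hs1, hs2⟩ := hswapΓ t ht htinf y hy htriv
    have hsinv1 : s⁻¹ • (∞ : OnePoint k) = y := by rw [inv_smul_eq_iff, hs2]
    have hsinv2 : s⁻¹ • (y : OnePoint k) = ∞ := by rw [inv_smul_eq_iff, hs1]
    set t' : GL (Fin 2) k := s * t * s⁻¹ with ht'def
    have ht' : t' ∈ Γ := Γ.mul_mem (Γ.mul_mem hs ht) (Γ.inv_mem hs)
    have ht'inf : t' • (∞ : OnePoint k) = ∞ := by
      rw [ht'def, mul_smul, mul_smul, hsinv1, hy, hs2]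
    have ht'y : t' • (y : OnePoint k) = y := by
      rw [ht'def, mul_smul, mul_smul, hsinv2, htinf, hs1]
    have h'10 : t' 1 0 = 0 := smul_infty_eq_self_iff.mp ht'inf
    have hs10 : s 1 0 ≠ 0 := by
      intro h
      have h2 := smul_infty_eq_self_iff.mpr h
      rw [hs1] at h2
      exact coe_ne_infty _ h2
    have hcomm : t' * s = s * t := by rw [ht'def, inv_mul_cancel_right]
    have e10 : t' 1 1 * s 1 0 = s 1 0 * t 0 0 := by
      have h2 := congrArg (fun M : GL (Fin 2) k => (M : Matrix (Fin 2) (Fin 2) k) 1 0) hcomm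
      simpa [Matrix.mul_apply, Fin.sum_univ_two, h10, h'10] using h2
    have h11 : t' 1 1 = t 0 0 := by
      apply mul_right_cancel₀ hs10
      rw [e10, mul_comm]
    have hdett : det t' = det t := by
      rw [ht'def, map_mul, map_mul, map_inv, mul_comm, inv_mul_cancel_left]
    have hdetv : t' 0 0 * t' 1 1 = t 0 0 * t 1 1 := by
      have h2 := congrArg Units.val hdett
      simpa [Matrix.det_fin_two, h10, h'10] using h2
    have ht00 : t 0 0 ≠ 0 := (twgs_diag_ne_zero t h10).1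
    have h00 : t' 0 0 = t 1 1 := by
      rw [h11] at hdetv
      apply mul_right_cancel₀ ht00
      rw [hdetv, mul_comm]
    set u : GL (Fin 2) k := t * t' with hudef
    have hu10 : u 1 0 = 0 := by
      simp [hudef, Matrix.mul_apply, Fin.sum_univ_two, h10, h'10]
    have hu00 : u 0 0 = t 0 0 * t 1 1 := by
      simp [hudef, Matrix.mul_apply, Fin.sum_univ_two, h'10, h00]
    have hu11 : u 1 1 = t 1 1 * t 0 0 := by
      simp [hudef, Matrix.mul_apply, Fin.sum_univ_two, h10, h11]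
    have huy : u • (y : OnePoint k) = y := by rw [hudef, mul_smul, ht'y, hy]
    have hu01 : u 0 1 = 0 := by
      rw [twgf_smul_coe_eq_iff, hu10, hu00, hu11] at huy
      linear_combination -huy
    have hutriv : ∀ x : OnePoint k, u • x = x :=
      twgf_smul_eq_self_of_scalar u hu10 hu01 (by rw [hu00, hu11, mul_comm])
    have hdu := hdetscal u (Γ.mul_mem ht ht') hutriv
    rw [hudef, map_mul, hdett] at hdu
    rw [sq, hdu]
  · push Not at hfin
    have hset : {x : OnePoint k | t • x = x} = {∞} := by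
      ext x
      cases x with
      | infty => simp [htinf]
      | coe x => simp [hfin x]
    have h1 : {x : OnePoint k | t • x = x}.ncard = 1 := by rw [hset, Set.ncard_singleton]
    have htp := twgf_pow_smul p t h1
    have hdp := hdetscal (t ^ p) (Γ.pow_mem ht p) htp
    rw [map_pow] at hdp
    have hd1 := twgs_units_pow_eq_one p (det t) 1 (by simpa using hdp)
    rw [hd1, one_pow]

end Fermat.Agent.S56
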